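import Fermat.Agent.Eisenstein.NoCongruentOne
import Mathlib.NumberTheory.Padics.PadicVal.Basic

/-!
# The constant term of a weight two form on `Γ₀(p)` with integral higher coefficients

If such a form has constant term `(p - 1) / (24 ℓᵏ)`, then `ℓᵏ` divides the numerator
`(p - 1) / gcd(p - 1, 12)` (`pow_dvd_numerator`), deduced from `NoCongruentOne`.  Used in `Duality`
to bound Hecke congruences.
-/

set_option autoImplicit false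

open scoped Topology Real MatrixGroups ModularForm Manifold
open UpperHalfPlane hiding I
open Complex Filter CongruenceSubgroup ModularFormClass

noncomputable section

namespace FLTAgent.Eisenstein

variable {p : ℕ} [Fact p.Prime]

lemma qCoeff_smul' {N : ℕ} [NeZero N] {k : ℤ} (c : ℂ) (G : ModularForm (Gamma0 N) k) (n : ℕ) :
    qCoeff (⇑(c • G)) n = c * qCoeff G n := by
  have h := ((hasQExp_serOf G).smul c).unique one_pos (hasQExp_serOf (c • G))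
  simpa [serOf] using (congrArg (PowerSeries.coeff n) h).symm

lemma qCoeff_sub' {N : ℕ} [NeZero N] {k : ℤ} (G H : ModularForm (Gamma0 N) k) (n : ℕ) :
    qCoeff (⇑(G - H)) n = qCoeff G n - qCoeff H n := by
  have h := ((hasQExp_serOf G).sub (hasQExp_serOf H)).unique one_pos (hasQExp_serOf (G - H))
  simpa [serOf] using (congrArg (PowerSeries.coeff n) h).symm

/-- The integrality consequence of the weight four trace identity. -/
lemma trace_integrality (G H : ModularForm (Gamma0 p) 2)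
    (hG : ∀ n, n ≠ 0 → ∃ m : ℤ, qCoeff G n = m) (hH : ∀ n, n ≠ 0 → ∃ m : ℤ, qCoeff H n = m) :
    ∃ z : ℤ, ((p : ℂ) + 1) *
      (240 * qCoeff G 0 * qCoeff H 0 - qCoeff G 0 * qCoeff H 1 - qCoeff G 1 * qCoeff H 0) = z := by
  obtain ⟨m, hm⟩ := Nat.exists_eq_succ_of_ne_zero (prime_ne_zero' (p := p))
  choose a ha using hG
  choose b hb using hH
  refine ⟨∑ i ∈ (Finset.range m).attach,
    a ((i.1 + 1) * p) (mul_ne_zero (Nat.succ_ne_zero _) prime_ne_zero') *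
      b ((p - (i.1 + 1)) * p) (mul_ne_zero (by
        have := Finset.mem_range.mp i.2
        omega) prime_ne_zero'), ?_⟩
  push_cast
  simp only [← ha, ← hb]
  rw [Finset.sum_attach (Finset.range m)
    (fun i ↦ qCoeff G ((i + 1) * p) * qCoeff H ((p - (i + 1)) * p))]
  have h := trace_mul_identity G H
  rw [Finset.Nat.sum_antidiagonal_eq_sum_range_succ_mk, Finset.sum_range_succ,
    show Finset.range p = Finset.range (m + 1) by rw [hm], Finset.sum_range_succ'] at h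
  simp only [Nat.sub_self, Nat.sub_zero, zero_mul] at h
  have hG1 := qCoeff_mul_p_mul_p G 1
  have hH1 := qCoeff_mul_p_mul_p H 1
  rw [one_mul] at hG1 hH1
  rw [hG1, hH1] at h
  have hp : (p : ℂ) ≠ 0 := by exact_mod_cast prime_ne_zero' (p := p)
  field_simp at h
  linear_combination -h

lemma pow_dvd_div_gcd {ℓ k e m : ℕ} (hℓ : ℓ.Prime) (hm : m ≠ 0) (h : ℓ ^ (k + e) ∣ m)
    (he : ¬ ℓ ^ (e + 1) ∣ 12) : ℓ ^ k ∣ m / Nat.gcd m 12 := by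
  have := Fact.mk hℓ
  obtain ⟨n, hn⟩ := Nat.gcd_dvd_left m 12
  have hg : Nat.gcd m 12 ≠ 0 := Nat.gcd_ne_zero_left hm
  have hn0 : n ≠ 0 := by rintro rfl; rw [mul_zero] at hn; exact hm hn
  rw [Nat.div_eq_of_eq_mul_right (Nat.pos_of_ne_zero hg) hn]
  rw [padicValNat_dvd_iff_le hn0]
  rw [padicValNat_dvd_iff_le hm, hn, padicValNat.mul hg hn0] at h
  have h2 : padicValNat ℓ (Nat.gcd m 12) ≤ e := by
    by_contra hlt
    exact he (((padicValNat_dvd_iff_le hg).mpr (by omega)).trans (Nat.gcd_dvd_right _ _))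
  omega

variable {ℓ : ℕ} {O : ValuationSubring ℂ}

lemma valuation_div_lt (hℓ : O.valuation (ℓ : ℂ) < 1)
    (hu : ∀ m : ℤ, ¬ (ℓ : ℤ) ∣ m → O.valuation (m : ℂ) = 1) {a b : ℤ} (ha : (ℓ : ℤ) ∣ a)
    (hb : ¬ (ℓ : ℤ) ∣ b) : O.valuation ((a : ℂ) / b) < 1 := by
  obtain ⟨c, rfl⟩ := ha
  rw [map_div₀, hu b hb, div_one]
  push_cast
  rw [map_mul]
  exact lt_of_le_of_lt (mul_le_of_le_one_right'
    ((O.valuation_le_one_iff _).mpr (intCast_mem O c))) hℓ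

/-- The norm step: `ℓ^k ∤ ...` is impossible when `ℓ^s ∣ p + 1`. -/
lemma norm_step (hℓ : ℓ.Prime) {q : ℕ} [Fact q.Prime] (hq : q ≤ 3) (hqℓ : q ≠ ℓ) {k : ℕ}
    (hk : k ≠ 0) (G : ModularForm (Gamma0 p) 2)
    (ha0 : qCoeff G 0 = ((p : ℂ) - 1) / (24 * (ℓ : ℂ) ^ k))
    (hint : ∀ n, n ≠ 0 → ∃ m : ℤ, qCoeff G n = m) (hpℓ : p ≠ ℓ)
    (d : ℕ) (hd : p - 1 = (q - 1) * d) (hdu : ¬ ℓ ∣ d)
    (w w' : ℕ) (hw : ((p + 1) * (q - 1)) * w' = 24 * p * w) (hwℓ : ℓ ∣ w) (hw'ℓ : ¬ ℓ ∣ w')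
    (e : ℕ) (he : ((q + 1) * (q - 1)) * e = 24 * q) (heℓ : ¬ ℓ ∣ e) : False := by
  have hp : p.Prime := Fact.out
  have hq' : q.Prime := Fact.out
  obtain ⟨O, hO, hu⟩ := exists_valuationSubring_over ℓ hℓ
  have hnu : ∀ m : ℕ, ¬ ℓ ∣ m → O.valuation (m : ℂ) = 1 := fun m h ↦ by
    simpa using hu m (by exact_mod_cast h)
  have hd0 : d ≠ 0 := fun h ↦ hdu (h ▸ dvd_zero ℓ)
  have hℓC : (ℓ : ℂ) ≠ 0 := by exact_mod_cast hℓ.ne_zero
  have hpC : (p : ℂ) ≠ 0 := by exact_mod_cast hp.ne_zero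
  have hqC : (q : ℂ) ≠ 0 := by exact_mod_cast hq'.ne_zero
  have hp1 : ((p : ℂ) - 1) = ((q : ℂ) - 1) * d := by
    have := congrArg (Nat.cast : ℕ → ℂ) hd
    rw [Nat.cast_sub hp.one_le, Nat.cast_mul, Nat.cast_sub hq'.one_le, Nat.cast_one] at this
    exact this
  have hq1C : (q : ℂ) - 1 ≠ 0 := by rw [sub_ne_zero]; exact_mod_cast hq'.ne_one
  have hdC : (d : ℂ) ≠ 0 := by exact_mod_cast hd0
  refine no_congruent_one (O := O) (q := q) hq G ?_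
    (hnu p fun h ↦ hpℓ ((Nat.prime_dvd_prime_iff_eq hℓ hp).mp h).symm)
    (hnu q fun h ↦ hqℓ ((Nat.prime_dvd_prime_iff_eq hℓ hq').mp h).symm) ?_ ?_ ?_
  · rw [ha0, hp1]
    simp [hdC, hq1C, hℓC]
  · intro n hn
    obtain ⟨m, hm⟩ := hint n hn
    have := valuation_div_lt hO hu (a := (ℓ : ℤ) ^ k * m) (b := d)
      (dvd_mul_of_dvd_left (dvd_pow_self _ hk) m) (by exact_mod_cast hdu)
    convert! this using 2
    rw [hm, ha0, hp1]
    push_cast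
    field_simp
  · have := valuation_div_lt hO hu (a := w) (b := w') (by exact_mod_cast hwℓ)
      (by exact_mod_cast hw'ℓ)
    convert! this using 2
    have h := congrArg (Nat.cast : ℕ → ℂ) hw
    push_cast [Nat.cast_sub hq'.one_le] at h
    have hw'C : (w' : ℂ) ≠ 0 := by
      have : w' ≠ 0 := fun h ↦ hw'ℓ (h ▸ dvd_zero ℓ)
      exact_mod_cast this
    push_cast
    field_simp
    linear_combination h
  · have he0 : (e : ℂ) ≠ 0 := by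
      have : e ≠ 0 := fun h ↦ heℓ (h ▸ dvd_zero ℓ)
      exact_mod_cast this
    have h := congrArg (Nat.cast : ℕ → ℂ) he
    push_cast [Nat.cast_sub hq'.one_le] at h
    rw [show ((q : ℂ) + 1) * ((q : ℂ) - 1) / (24 * q) = ((e : ℕ) : ℂ)⁻¹ by
      field_simp; linear_combination h, map_inv₀, hnu e heℓ, inv_one]

/-- `24 ∣ p² - 1` for a prime `p ≥ 5`. -/
private lemma twentyfour_dvd_sq_sub_one (hp5 : 5 ≤ p) :
    (24 : ℤ) ∣ ((p : ℤ) + 1) * ((p : ℤ) - 1) := by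
  have hp : p.Prime := Fact.out
  have h2 : p % 2 = 1 := hp.eq_two_or_odd.resolve_left (by omega)
  have h3 : p % 3 ≠ 0 := fun h ↦ by
    have := (Nat.prime_dvd_prime_iff_eq Nat.prime_three hp).mp (Nat.dvd_of_mod_eq_zero h)
    omega
  refine (ZMod.intCast_zmod_eq_zero_iff_dvd _ 24).mp ?_
  push_cast
  have h := ZMod.natCast_mod p 24
  rw [← h]
  have : p % 24 = 1 ∨ p % 24 = 5 ∨ p % 24 = 7 ∨ p % 24 = 11 ∨ p % 24 = 13 ∨ p % 24 = 17 ∨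
    p % 24 = 19 ∨ p % 24 = 23 := by omega
  rcases this with h | h | h | h | h | h | h | h <;> rw [h] <;> decide

/-- The trace identity against the Eisenstein form: `24 ℓ^k ∣ (p+1)(10p-11)(p-1)`. -/
private lemma dvd_of_trace_eisForm (hp5 : 5 ≤ p) (hℓ : ℓ.Prime) {k : ℕ}
    {G : ModularForm (Gamma0 p) 2} (ha0 : qCoeff G 0 = ((p : ℂ) - 1) / (24 * (ℓ : ℂ) ^ k))
    (hint : ∀ n, n ≠ 0 → ∃ m : ℤ, qCoeff G n = m) :
    (24 * (ℓ : ℤ) ^ k) ∣ ((p : ℤ) + 1) * (10 * p - 11) * ((p : ℤ) - 1) := by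
  have hp : p.Prime := Fact.out
  have hMC : (ℓ : ℂ) ^ k ≠ 0 := pow_ne_zero k (by exact_mod_cast hℓ.ne_zero)
  obtain ⟨a1, ha1⟩ := hint 1 one_ne_zero
  obtain ⟨r, hr⟩ := twentyfour_dvd_sq_sub_one hp5
  obtain ⟨z, hz⟩ := trace_integrality G ((24 : ℂ)⁻¹ • eisForm (p := p)) hint fun n hn ↦
    ⟨eisSum p n, by rw [qCoeff_smul', qCoeff_eisForm, if_neg hn]; push_cast; field_simp⟩
  refine ⟨z + a1 * r, ?_⟩
  have hrC := congrArg (Int.cast : ℤ → ℂ) hr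
  push_cast at hrC
  apply Int.cast_injective (α := ℂ)
  push_cast
  rw [← hz, ha1, ha0, qCoeff_smul', qCoeff_smul', qCoeff_eisForm, qCoeff_eisForm, if_pos rfl,
    if_neg one_ne_zero, eisSum_one hp.ne_one, Nat.cast_one]
  field_simp
  linear_combination (24 * (a1 : ℂ) * (ℓ : ℂ) ^ k) * hrC

/-- The trace identity against the form: `(24 ℓ^k)² ∣ (p+1)(p-1)(240(p-1) - 48 ℓ^k a₁)`. -/
private lemma sq_dvd_of_trace_self (hℓ : ℓ.Prime) {k : ℕ} {G : ModularForm (Gamma0 p) 2}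
    (ha0 : qCoeff G 0 = ((p : ℂ) - 1) / (24 * (ℓ : ℂ) ^ k))
    (hint : ∀ n, n ≠ 0 → ∃ m : ℤ, qCoeff G n = m) {a1 : ℤ} (ha1 : qCoeff G 1 = a1) :
    (24 * (ℓ : ℤ) ^ k) ^ 2 ∣
      ((p : ℤ) + 1) * (((p : ℤ) - 1) * (240 * ((p : ℤ) - 1) - 48 * (ℓ : ℤ) ^ k * a1)) := by
  have hMC : (ℓ : ℂ) ^ k ≠ 0 := pow_ne_zero k (by exact_mod_cast hℓ.ne_zero)
  obtain ⟨z, hz⟩ := trace_integrality G G hint hint
  refine ⟨z, ?_⟩
  apply Int.cast_injective (α := ℂ)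
  push_cast
  rw [← hz, ha1, ha0]
  field_simp
  ring

/-- `ℓ^(k+e) ∣ p - 1` gives the bound when `ℓ^(e+1) ∤ 12`. -/
private lemma pow_dvd_numerator_of_dvd (hℓ : ℓ.Prime) {k : ℕ} (e : ℕ)
    (h : (ℓ : ℤ) ^ (k + e) ∣ ((p : ℤ) - 1)) (he : ¬ ℓ ^ (e + 1) ∣ 12) :
    ℓ ^ k ∣ (p - 1) / Nat.gcd (p - 1) 12 := by
  have := (Fact.out : p.Prime).two_le
  refine pow_dvd_div_gcd hℓ (by omega) ?_ he
  rw [show ((p : ℤ) - 1) = ((p - 1 : ℕ) : ℤ) by omega] at h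
  exact_mod_cast h

/-- The case `ℓ = 2`. -/
private lemma pow_dvd_numerator_two (hp5 : 5 ≤ p) {k : ℕ} (hk : k ≠ 0)
    {G : ModularForm (Gamma0 p) 2} (ha0 : qCoeff G 0 = ((p : ℂ) - 1) / (24 * ((2 : ℕ) : ℂ) ^ k))
    (hint : ∀ n, n ≠ 0 → ∃ m : ℤ, qCoeff G n = m) :
    2 ^ k ∣ (p - 1) / Nat.gcd (p - 1) 12 := by
  have hp : p.Prime := Fact.out
  have hℓI : Prime (2 : ℤ) := Int.prime_two
  have hodd : p % 2 = 1 := hp.eq_two_or_odd.resolve_left (by omega)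
  have h16 : (2 : ℤ) ^ (k + 3) ∣ ((p : ℤ) + 1) * ((p : ℤ) - 1) := by
    refine hℓI.pow_dvd_of_dvd_mul_left _ (show ¬ (2 : ℤ) ∣ 10 * p - 11 by omega) (Dvd.dvd.trans
      ⟨3, ?_⟩ ((dvd_of_trace_eisForm hp5 Nat.prime_two ha0 hint).trans (dvd_of_eq (by ring))))
    push_cast; ring
  by_cases h4 : p % 4 = 1
  · obtain ⟨u, hu⟩ : ∃ u : ℤ, (p : ℤ) + 1 = 2 * (2 * u + 1) := ⟨((p : ℤ) - 1) / 4, by omega⟩
    rw [hu, mul_assoc, show k + 3 = (k + 2) + 1 by ring, pow_succ'] at h16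
    exact pow_dvd_numerator_of_dvd Nat.prime_two 2
      (hℓI.pow_dvd_of_dvd_mul_left _ (show ¬ (2 : ℤ) ∣ 2 * u + 1 by omega)
        (Int.dvd_of_mul_dvd_mul_left two_ne_zero h16)) (by norm_num)
  · exfalso
    obtain ⟨u, hu⟩ : ∃ u : ℤ, (p : ℤ) - 1 = 2 * (2 * u + 1) := ⟨((p : ℤ) - 3) / 4, by omega⟩
    rw [hu, mul_left_comm, show k + 3 = (k + 2) + 1 by ring, pow_succ', mul_comm ((p : ℤ) + 1)]
      at h16
    have h8 : (2 : ℤ) ^ (k + 2) ∣ (p : ℤ) + 1 := hℓI.pow_dvd_of_dvd_mul_left _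
      (show ¬ (2 : ℤ) ∣ 2 * u + 1 by omega) (Int.dvd_of_mul_dvd_mul_left two_ne_zero h16)
    have h8' : (2 : ℤ) ^ 3 ∣ (p : ℤ) + 1 := (pow_dvd_pow 2 (by omega)).trans h8
    norm_num at h8'
    obtain ⟨t, ht⟩ : ∃ t : ℕ, p + 1 = 8 * t := ⟨(p + 1) / 8, by omega⟩
    have := Fact.mk Nat.prime_three
    refine norm_step (q := 3) Nat.prime_two le_rfl (by norm_num) hk G ha0 hint
      (by omega) ((p - 1) / 2) (by omega) (by omega) (2 * t) (3 * p) ?_ (dvd_mul_right 2 t)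
      (by omega) 9 (by norm_num) (by norm_num)
    rw [ht]; ring

/-- The case `ℓ = 3`. -/
private lemma pow_dvd_numerator_three (hp5 : 5 ≤ p) {k : ℕ} (hk : k ≠ 0)
    {G : ModularForm (Gamma0 p) 2} (ha0 : qCoeff G 0 = ((p : ℂ) - 1) / (24 * ((3 : ℕ) : ℂ) ^ k))
    (hint : ∀ n, n ≠ 0 → ∃ m : ℤ, qCoeff G n = m) :
    3 ^ k ∣ (p - 1) / Nat.gcd (p - 1) 12 := by
  have hp : p.Prime := Fact.out
  obtain ⟨a1, ha1⟩ := hint 1 one_ne_zero
  have hℓI : Prime (3 : ℤ) := Int.prime_three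
  have h3 : p % 3 ≠ 0 := fun h ↦ by
    have := (Nat.prime_dvd_prime_iff_eq Nat.prime_three hp).mp (Nat.dvd_of_mod_eq_zero h)
    omega
  by_cases h31 : p % 3 = 1
  · refine pow_dvd_numerator_of_dvd Nat.prime_three 1 ?_ (by norm_num)
    refine hℓI.pow_dvd_of_dvd_mul_left _ (hℓI.not_dvd_mul (a := (p : ℤ) + 1)
      (b := 10 * p - 11) (by omega) (by omega))
      (Dvd.dvd.trans ⟨8, ?_⟩ (dvd_of_trace_eisForm hp5 Nat.prime_three ha0 hint))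
    push_cast; ring
  · exfalso
    have h9 : ((3 : ℕ) : ℤ) ^ (2 * k + 2) ∣
        ((p : ℤ) + 1) * (((p : ℤ) - 1) * (240 * ((p : ℤ) - 1) - 48 * (3 : ℤ) ^ k * a1)) :=
      Dvd.dvd.trans ⟨64, by push_cast; ring⟩ (sq_dvd_of_trace_self Nat.prime_three ha0 hint ha1)
    obtain ⟨X, hX⟩ : ∃ X, (80 * ((p : ℤ) - 1) - 16 * (3 : ℤ) ^ k * a1) = X := ⟨_, rfl⟩
    have hX3 : ¬ (3 : ℤ) ∣ X := by
      obtain ⟨j, rfl⟩ : ∃ j, k = j + 1 := ⟨k - 1, by omega⟩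
      rw [← hX, pow_succ, show 16 * (3 ^ j * 3) * a1 = 3 * (16 * 3 ^ j * a1) by ring]
      omega
    rw [show ((p : ℤ) + 1) * (((p : ℤ) - 1) * (240 * ((p : ℤ) - 1) - 48 * (3 : ℤ) ^ k * a1))
        = 3 * ((((p : ℤ) - 1) * X) * ((p : ℤ) + 1)) by rw [← hX]; ring,
      show 2 * k + 2 = (2 * k + 1) + 1 by ring, pow_succ'] at h9
    have h9' : (3 : ℤ) ^ (2 * k + 1) ∣ (p : ℤ) + 1 := by
      refine hℓI.pow_dvd_of_dvd_mul_left _ (hℓI.not_dvd_mul (a := (p : ℤ) - 1) (by omega) hX3) ?_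
      exact Int.dvd_of_mul_dvd_mul_left (by norm_num) h9
    have h99 : (3 : ℤ) ^ 2 ∣ (p : ℤ) + 1 := (pow_dvd_pow 3 (by omega)).trans h9'
    norm_num at h99
    obtain ⟨t, ht⟩ : ∃ t : ℕ, p + 1 = 9 * t := ⟨(p + 1) / 9, by omega⟩
    have := Fact.mk Nat.prime_two
    refine norm_step (q := 2) Nat.prime_three (by norm_num) (by norm_num) hk G ha0 hint
      (by omega) (p - 1) (by omega) (by omega) (3 * t) (8 * p) ?_ (dvd_mul_right 3 t)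
      (Nat.prime_three.not_dvd_mul (by norm_num) (by omega)) 16 (by norm_num) (by norm_num)
    rw [ht]; ring

/-- For `ℓ ≥ 5`, either `ℓ^k ∣ p - 1` or `ℓ ∣ p + 1`. -/
private lemma pow_dvd_sub_one_or_dvd_add_one (hp5 : 5 ≤ p) (hℓ : ℓ.Prime) (hℓ5 : 5 ≤ ℓ) {k : ℕ}
    {G : ModularForm (Gamma0 p) 2} (ha0 : qCoeff G 0 = ((p : ℂ) - 1) / (24 * (ℓ : ℂ) ^ k))
    (hint : ∀ n, n ≠ 0 → ∃ m : ℤ, qCoeff G n = m) :
    (ℓ : ℤ) ^ k ∣ (p : ℤ) - 1 ∨ (ℓ : ℤ) ∣ (p : ℤ) + 1 := by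
  have hp1 : p - 1 ≠ 0 := by omega
  obtain ⟨a1, ha1⟩ := hint 1 one_ne_zero
  have hℓI : Prime (ℓ : ℤ) := Nat.prime_iff_prime_int.mp hℓ
  have hcast : ((p : ℤ) - 1) = ((p - 1 : ℕ) : ℤ) := by omega
  by_cases hpl : (ℓ : ℤ) ∣ (p : ℤ) + 1
  · exact Or.inr hpl
  left
  by_cases h55 : ℓ = 5
  · subst h55
    exact hℓI.pow_dvd_of_dvd_mul_left k
      (hℓI.not_dvd_mul (b := 10 * (p : ℤ) - 11) hpl (by omega))
      ((dvd_mul_left _ 24).trans (dvd_of_trace_eisForm hp5 hℓ ha0 hint))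
  have h240 : ¬ (ℓ : ℤ) ∣ 240 := fun h ↦ by
    have hn : ℓ ∣ 2 * 2 * 2 * 2 * 3 * 5 := by exact_mod_cast h
    rcases hℓ.dvd_mul.mp hn with hn | hn
    · rcases hℓ.dvd_mul.mp hn with hn | hn
      · have := Nat.le_of_dvd (by norm_num) ((Nat.Prime.dvd_of_dvd_pow hℓ
          (show ℓ ∣ 2 ^ 4 from hn)))
        omega
      · have := Nat.le_of_dvd (by norm_num) hn; omega
    · have := Nat.le_of_dvd (by norm_num) hn; omega
  by_contra hcon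
  obtain ⟨v, w, hw, hvw⟩ := Nat.exists_eq_pow_mul_and_not_dvd hp1 ℓ hℓ.ne_one
  have hvk : v < k := by
    by_contra h
    exact hcon (by
      rw [hcast, hvw]; push_cast; exact dvd_mul_of_dvd_left (pow_dvd_pow _ (by omega)) _)
  obtain ⟨j, rfl⟩ : ∃ j, k = v + (j + 1) := ⟨k - v - 1, by omega⟩
  have hpw : (p : ℤ) - 1 = (ℓ : ℤ) ^ v * w := by rw [hcast, hvw]; push_cast; rfl
  have h2 : (ℓ : ℤ) ^ (2 * v + 1) ∣ ((p : ℤ) + 1) * ((w : ℤ) *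
      (240 * w - 48 * (ℓ : ℤ) ^ (j + 1) * a1)) * (ℓ : ℤ) ^ (2 * v) := by
    refine Dvd.dvd.trans ((pow_dvd_pow _ (show 2 * v + 1 ≤ 2 * (v + (j + 1)) by omega)).trans
      ⟨24 ^ 2, ?_⟩) ((sq_dvd_of_trace_self hℓ ha0 hint ha1).trans (dvd_of_eq ?_))
    · rw [mul_pow, ← pow_mul]; ring
    · rw [hpw]; ring
  rw [pow_succ, mul_comm _ ((ℓ : ℤ) ^ (2 * v))] at h2
  have h3 := Int.dvd_of_mul_dvd_mul_left (pow_ne_zero _ hℓI.ne_zero) h2
  refine hℓI.not_dvd_mul hpl (hℓI.not_dvd_mul (fun h ↦ hw (Int.natCast_dvd_natCast.mp h))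
    fun h ↦ ?_) h3
  refine hℓI.not_dvd_mul h240 (fun h' ↦ hw (Int.natCast_dvd_natCast.mp h')) ?_
  have : (ℓ : ℤ) ∣ 48 * (ℓ : ℤ) ^ (j + 1) * a1 :=
    ((dvd_pow_self _ (Nat.succ_ne_zero j)).mul_left 48).mul_right a1
  simpa using h.add this

/-- For `ℓ ≥ 5` the norm step excludes `ℓ ∣ p + 1`. -/
private lemma not_dvd_add_one (hp5 : 5 ≤ p) (hℓ : ℓ.Prime) (hℓ5 : 5 ≤ ℓ) {k : ℕ} (hk : k ≠ 0)
    {G : ModularForm (Gamma0 p) 2} (ha0 : qCoeff G 0 = ((p : ℂ) - 1) / (24 * (ℓ : ℂ) ^ k))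
    (hint : ∀ n, n ≠ 0 → ∃ m : ℤ, qCoeff G n = m) : ¬ (ℓ : ℤ) ∣ (p : ℤ) + 1 := by
  intro h
  have hp : p.Prime := Fact.out
  have hdvd24 : ¬ ℓ ∣ 24 := fun hn ↦ by
    have h' := Nat.le_of_dvd (by norm_num) hn
    interval_cases ℓ <;> simp_all (config := { decide := true })
  have hpm : ¬ ℓ ∣ p - 1 := fun h' ↦ by
    have h'' : (ℓ : ℤ) ∣ (p : ℤ) - 1 := by
      rw [show ((p : ℤ) - 1) = ((p - 1 : ℕ) : ℤ) by omega]; exact_mod_cast h'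
    have h2 := Int.natAbs_dvd_natAbs.mpr (dvd_sub h h'')
    norm_num at h2
    have := Nat.le_of_dvd (by norm_num) h2
    omega
  obtain ⟨t, ht⟩ : ℓ ∣ p + 1 := by exact_mod_cast h
  have := Fact.mk Nat.prime_two
  have hpℓ : p ≠ ℓ := by
    rintro rfl
    have := Nat.le_of_dvd one_pos ((Nat.dvd_add_right (dvd_refl p)).mp ⟨t, ht⟩)
    omega
  refine norm_step (q := 2) hℓ (by norm_num) (by omega) hk G ha0 hint hpℓ (p - 1)
    (by omega) hpm (ℓ * t) (24 * p) ?_ (dvd_mul_right ℓ t)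
    (hℓ.not_dvd_mul hdvd24 fun h' ↦ hpℓ ((Nat.prime_dvd_prime_iff_eq hℓ hp).mp h').symm) 16
    (by norm_num) (fun h' ↦ ?_)
  · rw [← ht]; ring
  · have := Nat.le_of_dvd (by norm_num) (Nat.Prime.dvd_of_dvd_pow hℓ (show ℓ ∣ 2 ^ 4 from h'))
    omega

/-- If a weight two form has integral higher coefficients and constant term
`(p - 1)/(24 ℓ^k)`, then `ℓ^k` divides the numerator of `(p - 1)/12`. -/
theorem pow_dvd_numerator (hp5 : 5 ≤ p) (hℓ : ℓ.Prime) (k : ℕ) (G : ModularForm (Gamma0 p) 2)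
    (ha0 : qCoeff G 0 = ((p : ℂ) - 1) / (24 * (ℓ : ℂ) ^ k))
    (hint : ∀ n, n ≠ 0 → ∃ m : ℤ, qCoeff G n = m) :
    ℓ ^ k ∣ (p - 1) / Nat.gcd (p - 1) 12 := by
  rcases eq_or_ne k 0 with rfl | hk
  · simp
  by_cases hℓ2 : ℓ = 2
  · subst hℓ2
    exact pow_dvd_numerator_two hp5 hk ha0 hint
  by_cases hℓ3 : ℓ = 3
  · subst hℓ3
    exact pow_dvd_numerator_three hp5 hk ha0 hint
  have hℓ5 : 5 ≤ ℓ := by
    by_contra h
    have := hℓ.two_le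
    interval_cases ℓ <;> simp_all (config := { decide := true })
  have hn12 : ¬ ℓ ^ (0 + 1) ∣ 12 := fun h ↦ by
    have h' := Nat.le_of_dvd (by norm_num) h
    rw [zero_add, pow_one] at h' h
    interval_cases ℓ <;> simp_all (config := { decide := true })
  refine pow_dvd_numerator_of_dvd hℓ 0 ?_ hn12
  simpa using (pow_dvd_sub_one_or_dvd_add_one hp5 hℓ hℓ5 ha0 hint).resolve_right
    (not_dvd_add_one hp5 hℓ hℓ5 hk ha0 hint)

end FLTAgent.Eisenstein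

end
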