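import Mathlib.NumberTheory.ModularForms.CongruenceSubgroups
import Mathlib.Algebra.Field.ZMod

/-!
# Representatives of `Γ₀(p) \ SL(2,ℤ)` for a prime `p`

The representatives are `1` and `S Tʲ` (`j : ZMod p`), indexed by `Option (ZMod p)`.  Right
translation permutes them (`cosetPerm`); this is how traces and norms to level one are formed.
-/

set_option autoImplicit false

open scoped MatrixGroups
open ModularGroup CongruenceSubgroup

noncomputable section

namespace FLTAgent.Eisenstein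

variable {p : ℕ} [Fact p.Prime]

/-- Coset representatives. -/
def cosetRep : Option (ZMod p) → SL(2, ℤ)
  | none => 1
  | some j => S * T ^ (j.val : ℤ)

/-- The index of the coset of `γ`, read off from its bottom row. -/
def cosetPoint (γ : SL(2, ℤ)) : Option (ZMod p) :=
  if ((γ 1 0 : ℤ) : ZMod p) = 0 then none else some ((γ 1 1 : ZMod p) / (γ 1 0 : ZMod p))

lemma lowerLeft_mul_T_zpow_S_inv (γ : SL(2, ℤ)) (t : ℤ) :
    (γ * (T ^ t)⁻¹ * S⁻¹) 1 0 = t * γ 1 0 - γ 1 1 := by
  rw [← zpow_neg, Matrix.SpecialLinearGroup.coe_mul, Matrix.SpecialLinearGroup.coe_mul,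
    Matrix.SpecialLinearGroup.coe_inv, ModularGroup.coe_T_zpow, ModularGroup.coe_S]
  simp [Matrix.mul_apply, Fin.sum_univ_two, Matrix.adjugate_fin_two_of]
  ring

lemma mul_cosetRep_inv_mem (γ : SL(2, ℤ)) :
    γ * (cosetRep (cosetPoint (p := p) γ))⁻¹ ∈ Gamma0 p := by
  unfold cosetPoint
  split_ifs with h
  · simpa [cosetRep, Gamma0_mem] using h
  · rw [Gamma0_mem, cosetRep, mul_inv_rev, ← mul_assoc, lowerLeft_mul_T_zpow_S_inv]
    push_cast
    rw [ZMod.natCast_zmod_val, div_mul_cancel₀ _ h, sub_self]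

lemma cosetRep_eq_of_mem {i j : Option (ZMod p)}
    (h : cosetRep i * (cosetRep j)⁻¹ ∈ Gamma0 p) : i = j := by
  have key : ∀ t : ZMod p, ¬ cosetRep (some t) ∈ Gamma0 p := fun t ↦ by
    rw [Gamma0_mem, cosetRep, Matrix.SpecialLinearGroup.coe_mul, ModularGroup.coe_T_zpow,
      ModularGroup.coe_S]
    simp [Matrix.mul_apply, Fin.sum_univ_two]
  match i, j with
  | none, none => rfl
  | none, some t =>
    rw [show cosetRep (none : Option (ZMod p)) = 1 from rfl, one_mul, Subgroup.inv_mem_iff] at h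
    exact absurd h (key t)
  | some t, none =>
    rw [show cosetRep (none : Option (ZMod p)) = 1 from rfl, inv_one, mul_one] at h
    exact absurd h (key t)
  | some s, some t =>
    rw [Gamma0_mem, cosetRep, cosetRep, mul_inv_rev, ← mul_assoc, lowerLeft_mul_T_zpow_S_inv,
      Matrix.SpecialLinearGroup.coe_mul, ModularGroup.coe_T_zpow, ModularGroup.coe_S] at h
    simp [Matrix.mul_apply, Fin.sum_univ_two, sub_eq_zero] at h
    exact congrArg some h.symm

lemma apply_cosetPoint {X : Type*} (Φ : SL(2, ℤ) → X) (hΦ : ∀ h ∈ Gamma0 p, ∀ g, Φ (h * g) = Φ g)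
    (γ : SL(2, ℤ)) : Φ γ = Φ (cosetRep (cosetPoint (p := p) γ)) := by
  rw [← hΦ _ (mul_cosetRep_inv_mem (p := p) γ) (cosetRep (cosetPoint (p := p) γ)), mul_assoc,
    inv_mul_cancel, mul_one]

lemma cosetPerm_injective (γ : SL(2, ℤ)) :
    Function.Injective fun i : Option (ZMod p) ↦ cosetPoint (p := p) (cosetRep i * γ) := by
  intro i j h
  refine cosetRep_eq_of_mem ?_
  have hi := mul_cosetRep_inv_mem (p := p) (cosetRep i * γ)
  have hj := mul_cosetRep_inv_mem (p := p) (cosetRep j * γ)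
  simp only at h
  rw [h] at hi
  have := mul_mem hi (inv_mem hj)
  simpa [mul_assoc] using this

/-- Right translation as a permutation of the cosets. -/
def cosetPerm (γ : SL(2, ℤ)) : Option (ZMod p) ≃ Option (ZMod p) :=
  Equiv.ofBijective _ (Finite.injective_iff_bijective.mp (cosetPerm_injective γ))

lemma apply_cosetPerm {X : Type*} (Φ : SL(2, ℤ) → X) (hΦ : ∀ h ∈ Gamma0 p, ∀ g, Φ (h * g) = Φ g)
    (γ : SL(2, ℤ)) (i : Option (ZMod p)) :
    Φ (cosetRep i * γ) = Φ (cosetRep (cosetPerm γ i)) :=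
  apply_cosetPoint Φ hΦ _

end FLTAgent.Eisenstein

end
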