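import Fermat.Agent.Eisenstein.ConstantBound
import Fermat.Prelude.Def_CuspForm_HeckeLocal
import Fermat.Prelude.Def_CuspForm_HeckeEvalForms
import Fermat.Prelude.Def_ModularCurve_ModularUnit
import Fermat.Prelude.Thm_ModularFormClass_qCoeff_heckeT
import Mathlib.LinearAlgebra.Dimension.RankNullity
import Mathlib.LinearAlgebra.FreeModule.Finite.Basic
import Fermat.Prelude.Thm_ModularForm_sturm_bound_Gamma0

/-!
# The pairing `(t, f) ↦ a₁(t f)` on the integral weight two lattice of `Γ₀(p)`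

The pairing identifies integral functionals on the Hecke algebra with forms in the lattice
(`exists_lattice_form`).  Consequently a homomorphism to `ℤ/ℓᵏ` with Eisenstein values forces `ℓᵏ`
to divide the Eisenstein numerator (`pow_dvd_of_ringHom`), the hard half of S16 (see `Quotient`).
-/

set_option autoImplicit false

open scoped MatrixGroups ModularForm
open CongruenceSubgroup ModularFormClass CuspForm ModularCurve

noncomputable section

namespace FLTAgent.Eisenstein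

variable {p : ℕ} [Fact p.Prime]

local notation "S₂" => CuspForm (CongruenceSubgroup.Gamma0 p) 2
set_option quotPrecheck false in
local notation "L₂" => ↥(CuspForm.intLattice p 2)
set_option quotPrecheck false in
local notation "T₂" => ↥(CuspForm.heckeLatticeAlgebra p ∅)

lemma hasQExp_cusp (f : S₂) : HasQExp 1 ⇑f (serOf ⇑f) := by
  have h : serOf (⇑f : UpperHalfPlane → ℂ) = UpperHalfPlane.qExpansion 1 ⇑f := by
    ext n; simp [serOf, qCoeff]
  rw [h]
  exact hasQExp_qExpansion f (one_mem_strictPeriods_Gamma0 p)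

/-- The `n`-th coefficient as a linear functional. -/
def coeffLin (n : ℕ) : S₂ →ₗ[ℂ] ℂ where
  toFun f := qCoeff ⇑f n
  map_add' f g := by
    have h := ((hasQExp_cusp f).add (hasQExp_cusp g)).unique one_pos (hasQExp_cusp (f + g))
    simpa [serOf] using (congrArg (PowerSeries.coeff n) h).symm
  map_smul' c f := by
    have h := ((hasQExp_cusp f).smul c).unique one_pos (hasQExp_cusp (c • f))
    simpa [serOf] using (congrArg (PowerSeries.coeff n) h).symm

lemma coeffLin_apply (n : ℕ) (f : S₂) : coeffLin n f = qCoeff ⇑f n := rfl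

omit [Fact (Nat.Prime p)] in
lemma qCoeff_cusp_zero (f : S₂) : qCoeff ⇑f 0 = 0 :=
  CuspFormClass.qExpansion_coeff_zero f one_pos (one_mem_strictPeriods_Gamma0 p)

lemma cusp_ext (f : S₂) (h : ∀ n, qCoeff ⇑f n = 0) : f = 0 := by
  refine DFunLike.ext _ _ fun τ ↦ ?_
  have := (hasQExp_cusp f τ).tsum_eq
  simp [serOf, h] at this
  simpa using this.symm

lemma mem_intLattice_iff_qCoeff (f : S₂) :
    f ∈ CuspForm.intLattice p 2 ↔ ∀ n : ℕ, ∃ m : ℤ, qCoeff ⇑f n = m := by
  refine ⟨fun hf ↦ ?_, fun h ↦ Submodule.subset_span h⟩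
  induction hf using Submodule.span_induction with
  | mem x hx => exact hx
  | zero => exact fun n ↦ ⟨0, by rw [← coeffLin_apply, map_zero, Int.cast_zero]⟩
  | add x y _ _ hx hy =>
    intro n
    obtain ⟨a, ha⟩ := hx n
    obtain ⟨b, hb⟩ := hy n
    exact ⟨a + b, by rw [← coeffLin_apply, map_add, coeffLin_apply, coeffLin_apply, ha, hb,
      Int.cast_add]⟩
  | smul c x _ hx =>
    intro n
    obtain ⟨a, ha⟩ := hx n
    exact ⟨c * a, by rw [← coeffLin_apply, map_zsmul, coeffLin_apply, ha, zsmul_eq_mul,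
      Int.cast_mul]⟩

/-- The integer with the same value as the `n`-th coefficient. -/
def intCoeffVal (n : ℕ) (f : L₂) : ℤ :=
  ((mem_intLattice_iff_qCoeff (f : S₂)).mp f.2 n).choose

lemma intCoeffVal_spec (n : ℕ) (f : L₂) : (intCoeffVal n f : ℂ) = qCoeff ⇑(f : S₂) n :=
  ((mem_intLattice_iff_qCoeff (f : S₂)).mp f.2 n).choose_spec.symm

/-- The `n`-th coefficient on the lattice. -/
def intCoeff (n : ℕ) : L₂ →ₗ[ℤ] ℤ :=
  (AddMonoidHom.mk' (intCoeffVal n) fun f g ↦ Int.cast_injective (α := ℂ) (by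
    rw [Int.cast_add, intCoeffVal_spec, intCoeffVal_spec, intCoeffVal_spec, ← coeffLin_apply,
      ← coeffLin_apply, ← coeffLin_apply, Submodule.coe_add, map_add])).toIntLinearMap

lemma intCoeff_cast (n : ℕ) (f : L₂) : (intCoeff n f : ℂ) = qCoeff ⇑(f : S₂) n :=
  intCoeffVal_spec n f

lemma intCoeff_zero_index (f : L₂) : intCoeff 0 f = 0 :=
  Int.cast_injective (α := ℂ) (by rw [intCoeff_cast, qCoeff_cusp_zero, Int.cast_zero])

/-- The Hecke polynomials acting on the lattice. -/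
def latticeHecke : HeckeAlg →+* T₂ :=
  (latticeRestrictHom p ∅).toRingHom.comp (heckeEvalForms p 2)

lemma latticeHecke_surjective : Function.Surjective (latticeHecke (p := p)) := by
  refine (latticeRestrictHom_surjective p ∅).comp fun t ↦ ?_
  obtain ⟨t, ht⟩ := t
  induction ht using Algebra.adjoin_induction with
  | mem x hx =>
    rcases hx with ⟨ℓ, hℓ, hℓN, -, rfl⟩ | ⟨q, hqN, hq, -, rfl⟩
    · exact ⟨heckeGen ⟨ℓ, hℓ⟩, heckeEvalForms_heckeGen_of_not_dvd (ℓ := ⟨ℓ, hℓ⟩) hℓN⟩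
    · exact ⟨heckeGen ⟨q, hq⟩, heckeEvalForms_heckeGen_of_dvd (q := ⟨q, hq⟩) hqN⟩
  | algebraMap r => exact ⟨MvPolynomial.C r, heckeEvalForms_C p 2 r⟩
  | add x y _ _ hx hy =>
    obtain ⟨a, ha⟩ := hx
    obtain ⟨b, hb⟩ := hy
    exact ⟨a + b, by rw [map_add, ha, hb]; rfl⟩
  | mul x y _ _ hx hy =>
    obtain ⟨a, ha⟩ := hx
    obtain ⟨b, hb⟩ := hy
    exact ⟨a * b, by rw [map_mul, ha, hb]; rfl⟩

/-- The action of a Hecke polynomial on the lattice. -/
def act (x : HeckeAlg) : Module.End ℤ L₂ :=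
  ((latticeHecke (p := p) x : T₂) : Module.End ℤ L₂)

lemma intCoeff_gen_of_ne (ℓ : Nat.Primes) (h : ¬ (ℓ : ℕ) ∣ p) (g : L₂) (n : ℕ) :
    intCoeff n (act (heckeGen ℓ) g)
      = intCoeff (n * ℓ) g + if (ℓ : ℕ) ∣ n then (ℓ : ℕ) * intCoeff (n / ℓ) g else 0 := by
  have e : ((act (heckeGen ℓ) g : L₂) : S₂) = CuspForm.heckeTLin 2 ℓ.2 h (g : S₂) := by
    rw [act, latticeHecke, RingHom.comp_apply, heckeEvalForms_heckeGen_of_not_dvd h]
    rfl
  apply Int.cast_injective (α := ℂ)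
  rw [intCoeff_cast, e, CuspForm.coe_heckeTLin_apply,
    ModularFormClass.qCoeff_heckeT (g : S₂) (one_mem_strictPeriods_Gamma0 p) ℓ.2.ne_zero,
    ModularForm.coeffHeckeT_apply, Int.cast_add, intCoeff_cast]
  split_ifs
  · rw [Int.cast_mul, intCoeff_cast, Int.cast_natCast]
    norm_num
  · simp

lemma intCoeff_gen_self (g : L₂) (n : ℕ) (q : Nat.Primes) (h : (q : ℕ) = p) :
    intCoeff n (act (heckeGen q) g) = intCoeff (n * p) g := by
  have hd : (q : ℕ) ∣ p := by rw [h]
  have e : ((act (heckeGen q) g : L₂) : S₂) = CuspForm.heckeULin 2 hd (g : S₂) := by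
    rw [act, latticeHecke, RingHom.comp_apply, heckeEvalForms_heckeGen_of_dvd hd]
    rfl
  apply Int.cast_injective (α := ℂ)
  rw [intCoeff_cast, e, CuspForm.coe_heckeULin_apply,
    ModularFormClass.qCoeff_heckeU (g : S₂) (one_mem_strictPeriods_Gamma0 p) q.2.ne_zero,
    ModularForm.coeffHeckeU_apply, intCoeff_cast, h]

lemma act_C (a : ℤ) (g : L₂) : act (MvPolynomial.C a) g = a • g := by
  rw [act, show (MvPolynomial.C a : HeckeAlg) = (a : HeckeAlg) from map_intCast MvPolynomial.C a,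
    map_intCast]
  simp

lemma act_mul (x y : HeckeAlg) (g : L₂) : act (x * y) g = act x (act y g) := by
  simp [act]

lemma act_add (x y : HeckeAlg) (g : L₂) : act (x + y) g = act x g + act y g := by
  simp [act]

lemma act_one (g : L₂) : act 1 g = g := by
  simp [act]

lemma not_dvd_of_ne {ℓ : Nat.Primes} (h : (ℓ : ℕ) ≠ p) : ¬ (ℓ : ℕ) ∣ p :=
  fun hd ↦ h ((Nat.prime_dvd_prime_iff_eq ℓ.2 Fact.out).mp hd)

/-- Every coefficient is the first coefficient after applying a Hecke polynomial. -/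
lemma exists_act_intCoeff : ∀ n, n ≠ 0 → ∃ x : HeckeAlg, ∀ f : L₂,
    intCoeff n f = intCoeff 1 (act x f) := by
  intro n
  induction n using Nat.strong_induction_on with
  | _ n ih =>
  intro hn
  rcases eq_or_ne n 1 with rfl | h1
  · exact ⟨1, fun f ↦ by rw [act_one]⟩
  obtain ⟨k, hk⟩ := Nat.minFac_dvd n
  set ℓ : Nat.Primes := ⟨n.minFac, Nat.minFac_prime h1⟩
  have hk' : n = k * (ℓ : ℕ) := by rw [mul_comm]; exact hk
  have hk0 : k ≠ 0 := by rintro rfl; simp at hk'; exact hn hk'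
  have hlt : k < n := by
    rw [hk']; exact lt_mul_of_one_lt_right (Nat.pos_of_ne_zero hk0) ℓ.2.one_lt
  obtain ⟨x, hx⟩ := ih k hlt hk0
  by_cases hℓ : (ℓ : ℕ) = p
  · refine ⟨x * heckeGen ℓ, fun f ↦ ?_⟩
    rw [act_mul, ← hx, intCoeff_gen_self f k ℓ hℓ, hk', hℓ]
  · by_cases hdiv : (ℓ : ℕ) ∣ k
    · obtain ⟨y, hy⟩ := ih (k / (ℓ : ℕ)) ((Nat.div_le_self _ _).trans_lt hlt)
        (Nat.div_ne_zero_iff.mpr ⟨ℓ.2.ne_zero, Nat.le_of_dvd (Nat.pos_of_ne_zero hk0) hdiv⟩)
      refine ⟨x * heckeGen ℓ + MvPolynomial.C (-((ℓ : ℕ) : ℤ)) * y, fun f ↦ ?_⟩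
      rw [act_add, map_add, act_mul, act_mul, act_C, map_smul, ← hx, ← hy,
        intCoeff_gen_of_ne ℓ (not_dvd_of_ne hℓ) f k, if_pos hdiv, hk', smul_eq_mul]
      ring
    · refine ⟨x * heckeGen ℓ, fun f ↦ ?_⟩
      rw [act_mul, ← hx, intCoeff_gen_of_ne ℓ (not_dvd_of_ne hℓ) f k, if_neg hdiv, hk', add_zero]

/-- `t ↦ (f ↦ a₁(t f))`. -/
def heckePairing : T₂ →ₗ[ℤ] L₂ →ₗ[ℤ] ℤ :=
  (AddMonoidHom.mk' (fun t : T₂ ↦ (intCoeff 1).comp (t : Module.End ℤ L₂))
    fun s t ↦ LinearMap.ext fun f ↦ by simp).toIntLinearMap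

lemma heckePairing_act (x : HeckeAlg) (f : L₂) :
    heckePairing (latticeHecke (p := p) x) f = intCoeff 1 (act x f) := rfl

lemma exists_pairing_eq_intCoeff (n : ℕ) (hn : n ≠ 0) :
    ∃ t : T₂, ∀ f : L₂, intCoeff n f = heckePairing t f := by
  obtain ⟨x, hx⟩ := exists_act_intCoeff (p := p) n hn
  exact ⟨latticeHecke x, hx⟩

lemma lattice_ext (f : L₂) (h : ∀ n, n ≠ 0 → intCoeff n f = 0) : f = 0 := by
  refine Subtype.ext (cusp_ext _ fun n ↦ ?_)
  rcases eq_or_ne n 0 with rfl | hn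
  · exact qCoeff_cusp_zero _
  · rw [← intCoeff_cast, h n hn, Int.cast_zero]

lemma heckePairing_injective : Function.Injective (heckePairing (p := p)) := by
  refine (injective_iff_map_eq_zero _).mpr fun t ht ↦ Subtype.ext (LinearMap.ext fun f ↦ ?_)
  refine lattice_ext _ fun n hn ↦ ?_
  obtain ⟨s, hs⟩ := exists_pairing_eq_intCoeff (p := p) n hn
  have hc : ((s : T₂) : Module.End ℤ L₂) ((t : Module.End ℤ L₂) f)
      = (t : Module.End ℤ L₂) ((s : Module.End ℤ L₂) f) :=
    LinearMap.congr_fun (congrArg Subtype.val (mul_comm s t)) f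
  rw [hs]
  show intCoeff 1 ((s : Module.End ℤ L₂) ((t : Module.End ℤ L₂) f)) = 0
  rw [hc]
  exact LinearMap.congr_fun ht ((s : Module.End ℤ L₂) f)

lemma heckePairing_flip_injective : Function.Injective (heckePairing (p := p)).flip := by
  refine (injective_iff_map_eq_zero _).mpr fun f hf ↦ lattice_ext _ fun n hn ↦ ?_
  obtain ⟨s, hs⟩ := exists_pairing_eq_intCoeff (p := p) n hn
  rw [hs]
  exact LinearMap.congr_fun hf s

/-- A pairing of lattices without kernels is perfect up to torsion. -/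
lemma exists_smul_eq_of_pairing {A B : Type*} [AddCommGroup A] [AddCommGroup B]
    [Module.Finite ℤ A] [Module.Free ℤ A] [Module.Finite ℤ B] [Module.Free ℤ B]
    (P : A →ₗ[ℤ] B →ₗ[ℤ] ℤ) (h : Function.Injective P) (h' : Function.Injective P.flip)
    (φ : A →ₗ[ℤ] ℤ) : ∃ N : ℤ, N ≠ 0 ∧ ∃ f : B, ∀ t, P t f = N * φ t := by
  have h1 : Module.finrank ℤ A ≤ Module.finrank ℤ B := by
    have := LinearMap.finrank_le_finrank_of_injective h
    rwa [Module.finrank_linearMap, Module.finrank_self, mul_one] at this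
  have h2 : Module.finrank ℤ B = Module.finrank ℤ (A →ₗ[ℤ] ℤ) := by
    refine le_antisymm (LinearMap.finrank_le_finrank_of_injective h') ?_
    rwa [Module.finrank_linearMap, Module.finrank_self, mul_one]
  have h3 : Module.finrank ℤ ((A →ₗ[ℤ] ℤ) ⧸ LinearMap.range P.flip) = 0 := by
    have := Submodule.finrank_quotient_add_finrank (LinearMap.range P.flip)
    rw [LinearMap.finrank_range_of_inj h', ← h2] at this
    omega
  obtain ⟨N, hN0, hN⟩ := Module.finrank_eq_zero_iff.mp h3 (Submodule.Quotient.mk φ)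
  rw [← Submodule.Quotient.mk_smul, Submodule.Quotient.mk_eq_zero] at hN
  obtain ⟨f, hf⟩ := hN
  exact ⟨N, hN0, f, fun t ↦ by rw [← LinearMap.flip_apply, hf, LinearMap.smul_apply, smul_eq_mul]⟩

/-- Every functional on the Hecke algebra comes from a form with integral coefficients. -/
theorem exists_lattice_form (φ : T₂ →ₗ[ℤ] ℤ) : ∃ f : L₂, ∀ t, heckePairing t f = φ t := by
  have := CuspForm.intLattice.moduleFinite p
  have := CuspForm.intLattice.moduleFree p
  obtain ⟨N, hN0, f, hfn⟩ := exists_smul_eq_of_pairing (A := T₂) (B := L₂) heckePairing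
    heckePairing_injective heckePairing_flip_injective φ
  have hNC : (N : ℂ) ≠ 0 := Int.cast_ne_zero.mpr hN0
  have hg : ((N : ℂ)⁻¹ • (f : S₂)) ∈ CuspForm.intLattice p 2 := by
    refine (mem_intLattice_iff_qCoeff _).mpr fun n ↦ ?_
    rcases eq_or_ne n 0 with rfl | hn
    · exact ⟨0, by rw [qCoeff_cusp_zero, Int.cast_zero]⟩
    · obtain ⟨s, hs⟩ := exists_pairing_eq_intCoeff (p := p) n hn
      refine ⟨φ s, ?_⟩
      rw [← coeffLin_apply, map_smul, coeffLin_apply, ← intCoeff_cast, hs, hfn, smul_eq_mul,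
        Int.cast_mul, inv_mul_cancel_left₀ hNC]
  refine ⟨⟨_, hg⟩, fun t ↦ ?_⟩
  have e : N • (⟨_, hg⟩ : L₂) = f := Subtype.ext (by
    show N • ((N : ℂ)⁻¹ • (f : S₂)) = (f : S₂)
    rw [← Int.cast_smul_eq_zsmul ℂ, smul_smul, mul_inv_cancel₀ hNC, one_smul])
  refine mul_left_cancel₀ hN0 ?_
  rw [← hfn, ← smul_eq_mul, ← map_smul, e]

/-- The Eisenstein character on Hecke polynomials. -/
def eisChar (p : ℕ) : HeckeAlg →+* ℤ :=
  (MvPolynomial.aeval (eisensteinSystem p)).toRingHom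

omit [Fact (Nat.Prime p)] in
lemma mem_eisensteinIdeal_iff (x : HeckeAlg) : x ∈ eisensteinIdeal p ↔ eisChar p x = 0 :=
  mem_eigenIdeal_iff _ _

omit [Fact (Nat.Prime p)] in
lemma eisChar_gen_self (q : Nat.Primes) (h : (q : ℕ) = p) : eisChar p (heckeGen q) = 1 := by
  simp [eisChar, heckeGen, h]

lemma eisChar_gen_of_ne (q : Nat.Primes) (h : (q : ℕ) ≠ p) :
    eisChar p (heckeGen q) = 1 + (q : ℕ) := by
  simp [eisChar, heckeGen, not_dvd_of_ne h]

/-- If a form is congruent to the Eisenstein series, the Hecke polynomials act on it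
modulo `M` through the Eisenstein character. -/
lemma intCoeff_act_congr {M : ℕ} (u : ZMod M) (f : L₂)
    (hf : ∀ k, (intCoeff k f : ZMod M) = u * (eisSum p k : ZMod M)) (x : HeckeAlg) :
    ∀ k, (intCoeff k (act x f) : ZMod M) = (eisChar p x : ZMod M) * intCoeff k f := by
  induction x using MvPolynomial.induction_on with
  | C a =>
    intro k
    rw [act_C, map_smul, smul_eq_mul, Int.cast_mul]
    simp [eisChar]
  | add x y hx hy =>
    intro k
    rw [act_add, map_add, map_add, Int.cast_add, Int.cast_add, hx, hy, add_mul]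
  | mul_X x ℓ hx =>
    intro k
    rw [show x * MvPolynomial.X ℓ = heckeGen ℓ * x from mul_comm _ _, act_mul, map_mul,
      Int.cast_mul]
    by_cases hℓ : (ℓ : ℕ) = p
    · rw [intCoeff_gen_self _ k ℓ hℓ, eisChar_gen_self ℓ hℓ, hx, hf, hf, eisSum_mul_self]
      simp
    · rw [intCoeff_gen_of_ne ℓ (not_dvd_of_ne hℓ), eisChar_gen_of_ne ℓ hℓ]
      have key := congrArg (Nat.cast : ℕ → ZMod M)
        (eisSum_prime_mul ℓ.2 (Fact.out : p.Prime) hℓ k)
      push_cast at key
      split_ifs with hd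
      · rw [if_pos hd] at key
        push_cast
        rw [hx, hx, hf, hf, hf]
        linear_combination ((eisChar p x : ℤ) : ZMod M) * u * key
      · rw [if_neg hd] at key
        push_cast
        rw [hx, hf, hf]
        linear_combination ((eisChar p x : ℤ) : ZMod M) * u * key

/-- A functional on the Hecke algebra lifting an Eisenstein character gives a congruent form. -/
lemma exists_congruent_form {M : ℕ} (ψ : T₂ →+* ZMod M)
    (hψ : ∀ x, ψ (latticeHecke x) = (eisChar p x : ZMod M)) :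
    ∃ f : L₂, ∀ k, (intCoeff k f : ZMod M) = (eisSum p k : ZMod M) := by
  obtain ⟨φ, hφ⟩ := Module.projective_lifting_property
    (Int.castAddHom (ZMod M)).toIntLinearMap ψ.toAddMonoidHom.toIntLinearMap
    ZMod.intCast_surjective
  have hφ' : ∀ t, ((φ t : ℤ) : ZMod M) = ψ t := fun t ↦ LinearMap.congr_fun hφ t
  obtain ⟨f, hf⟩ := exists_lattice_form φ
  have hfx : ∀ x : HeckeAlg, ((intCoeff 1 (act x f) : ℤ) : ZMod M) = (eisChar p x : ZMod M) := by
    intro x
    rw [← heckePairing_act, hf, hφ', hψ]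
  refine ⟨f, fun k ↦ ?_⟩
  induction k using Nat.strong_induction_on with
  | _ n ih =>
  rcases eq_or_ne n 0 with rfl | hn
  · simp [intCoeff_zero_index, eisSum_zero]
  rcases eq_or_ne n 1 with rfl | h1
  · have := hfx 1
    rw [act_one, map_one] at this
    rw [this, eisSum_one (Fact.out : p.Prime).ne_one]
    simp
  obtain ⟨k, hk⟩ := Nat.minFac_dvd n
  set ℓ : Nat.Primes := ⟨n.minFac, Nat.minFac_prime h1⟩
  have hk' : n = k * (ℓ : ℕ) := by rw [mul_comm]; exact hk
  have hk0 : k ≠ 0 := by rintro rfl; simp at hk'; exact hn hk'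
  have hlt : k < n := by
    rw [hk']; exact lt_mul_of_one_lt_right (Nat.pos_of_ne_zero hk0) ℓ.2.one_lt
  obtain ⟨x, hx⟩ := exists_act_intCoeff (p := p) k hk0
  have hxv : (intCoeff k (act (heckeGen ℓ) f) : ZMod M)
      = (eisChar p (heckeGen ℓ) : ZMod M) * intCoeff k f := by
    rw [hx, hx, ← act_mul, hfx, hfx, map_mul, Int.cast_mul, mul_comm]
  rw [ih k hlt] at hxv
  by_cases hℓ : (ℓ : ℕ) = p
  · rw [intCoeff_gen_self _ k ℓ hℓ, eisChar_gen_self ℓ hℓ] at hxv
    rw [hk', hℓ, hxv, eisSum_mul_self]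
    simp
  · rw [intCoeff_gen_of_ne ℓ (not_dvd_of_ne hℓ), eisChar_gen_of_ne ℓ hℓ] at hxv
    have key := congrArg (Nat.cast : ℕ → ZMod M)
      (eisSum_prime_mul ℓ.2 (Fact.out : p.Prime) hℓ k)
    push_cast at key hxv
    rw [hk']
    split_ifs at key hxv with hd
    · rw [ih _ ((Nat.div_le_self _ _).trans_lt hlt)] at hxv
      linear_combination hxv - key
    · linear_combination hxv - key

/-- An Eisenstein character of the Hecke algebra modulo a prime power forces that prime power to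
divide the numerator of `(p - 1)/12`. -/
theorem pow_dvd_of_ringHom (hp5 : 5 ≤ p) {ℓ : ℕ} (hℓ : ℓ.Prime) (k : ℕ)
    (ψ : T₂ →+* ZMod (ℓ ^ k))
    (hψ : ∀ x, ψ (latticeHecke x) = (eisChar p x : ZMod (ℓ ^ k))) :
    ℓ ^ k ∣ eisensteinNumerator p := by
  obtain ⟨f, hf⟩ := exists_congruent_form ψ hψ
  have hM : ((ℓ : ℂ) ^ k) ≠ 0 := pow_ne_zero k (Nat.cast_ne_zero.mpr hℓ.ne_zero)
  set F : ModularForm (Gamma0 p) 2 := ModularFormClass.modularForm (f : S₂) with hFdef
  have hF : ∀ n, qCoeff ⇑F n = intCoeff n f := fun n ↦ (intCoeff_cast n f).symm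
  refine pow_dvd_numerator hp5 hℓ k
    ((((ℓ : ℂ) ^ k)⁻¹) • ((24 : ℂ)⁻¹ • eisForm (p := p) - F)) ?_ fun n hn ↦ ?_
  · rw [qCoeff_smul', qCoeff_sub', qCoeff_smul', qCoeff_eisForm, if_pos rfl, hF,
      intCoeff_zero_index]
    field_simp
    simp
  · have h : ((ℓ ^ k : ℕ) : ℤ) ∣ (eisSum p n : ℤ) - intCoeff n f := by
      rw [← ZMod.intCast_zmod_eq_zero_iff_dvd, Int.cast_sub, Int.cast_natCast, hf, sub_self]
    obtain ⟨m, hm⟩ := h
    refine ⟨m, ?_⟩
    have hmC := congrArg (Int.cast : ℤ → ℂ) hm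
    push_cast at hmC
    rw [qCoeff_smul', qCoeff_sub', qCoeff_smul', qCoeff_eisForm, if_neg hn, hF]
    field_simp
    linear_combination hmC

/-- For `p ≤ 3` there are no weight two cusp forms. -/
lemma subsingleton_hecke_of_le_three (hp : p ≤ 3) : Subsingleton T₂ := by
  classical
  have hidx : (Gamma0 p).index ≤ 5 := by
    let F : Option (ZMod p) → SL(2, ℤ) ⧸ Gamma0 p := fun i ↦ QuotientGroup.mk (cosetRep i)⁻¹
    have hF : Function.Surjective F := fun x ↦ by
      obtain ⟨g, rfl⟩ := QuotientGroup.mk_surjective x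
      refine ⟨cosetPoint g⁻¹, QuotientGroup.eq.mpr ?_⟩
      simpa using (Gamma0 p).inv_mem (mul_cosetRep_inv_mem (p := p) g⁻¹)
    calc (Gamma0 p).index = Nat.card (SL(2, ℤ) ⧸ Gamma0 p) := rfl
      _ ≤ Nat.card (Option (ZMod p)) := Nat.card_le_card_of_surjective F hF
      _ ≤ 5 := by rw [Finite.card_option, Nat.card_zmod]; omega
  have hL : ∀ f : S₂, f = 0 := fun f ↦ by
    have key : ModularFormClass.modularForm f = 0 := by
      refine ModularForm.sturm_bound_Gamma0 p _ fun n hn ↦ ?_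
      obtain rfl : n = 0 := by omega
      exact CuspFormClass.qExpansion_coeff_zero f one_pos (one_mem_strictPeriods_Gamma0 p)
    ext z
    exact DFunLike.congr_fun key z
  refine ⟨fun a b ↦ Subtype.ext (LinearMap.ext fun f ↦ Subtype.ext ?_)⟩
  rw [hL (((a : Module.End ℤ L₂) f : L₂) : S₂), hL (((b : Module.End ℤ L₂) f : L₂) : S₂)]

end FLTAgent.Eisenstein

end
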