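import Fermat.Agent.Eisenstein.WeightTwo
import Mathlib.NumberTheory.ModularForms.EisensteinSeries.E2.Transform
import Mathlib.NumberTheory.ModularForms.EisensteinSeries.E2.MDifferentiable

/-!
# The weight two Eisenstein series of prime level

`eisForm` is `p E₂(p τ) - E₂(τ)`, a form on `Γ₀(p)` with constant term `p - 1`; its `q`-coefficients
are given in terms of the divisor sums `eisSum` (`qCoeff_eisForm`).
-/

set_option autoImplicit false

open scoped Topology Real MatrixGroups ModularForm Manifold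
open UpperHalfPlane hiding I
open Complex Filter CongruenceSubgroup ModularGroup ModularFormClass EisensteinSeries
open Matrix.SpecialLinearGroup (mapGL)
open scoped ArithmeticFunction.sigma

noncomputable section

namespace FLTAgent.Eisenstein

/-- The sum of the divisors of `n` which are prime to `N`. -/
def eisSum (N n : ℕ) : ℕ := ∑ d ∈ n.divisors.filter (fun d ↦ ¬ N ∣ d), d

lemma eisSum_zero (N : ℕ) : eisSum N 0 = 0 := by simp [eisSum]

lemma eisSum_one {N : ℕ} (hN : N ≠ 1) : eisSum N 1 = 1 := by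
  simp [eisSum, Finset.filter_singleton, hN]

variable {p : ℕ} [Fact p.Prime]

lemma eisSum_mul_self (n : ℕ) : eisSum p (n * p) = eisSum p n := by
  have hp : p.Prime := Fact.out
  rcases eq_or_ne n 0 with rfl | hn
  · simp
  refine Finset.sum_congr ?_ fun _ _ ↦ rfl
  ext d
  simp only [Finset.mem_filter, Nat.mem_divisors, ne_eq, mul_eq_zero, hn, hp.ne_zero, or_self,
    not_false_eq_true, and_true]
  exact ⟨fun ⟨h, hd⟩ ↦ ⟨(Nat.Coprime.dvd_mul_right ((hp.coprime_iff_not_dvd.mpr hd).symm)).mp h,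
    hd⟩, fun ⟨h, hd⟩ ↦ ⟨h.mul_right p, hd⟩⟩

lemma sigma_one_eq (n : ℕ) :
    σ 1 n = eisSum p n + (if p ∣ n then p * σ 1 (n / p) else 0) := by
  have hp : p.Prime := Fact.out
  rcases eq_or_ne n 0 with rfl | hn
  · simp [eisSum]
  rw [ArithmeticFunction.sigma_one_apply,
    ← Finset.sum_filter_not_add_sum_filter n.divisors (fun d ↦ p ∣ d)]
  congr 1
  split_ifs with h
  · obtain ⟨m, rfl⟩ := h
    rw [Nat.mul_div_cancel_left _ hp.pos, ArithmeticFunction.sigma_one_apply, Finset.mul_sum]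
    symm
    refine Finset.sum_bij (fun d _ ↦ p * d) (fun d hd ↦ ?_)
      (fun a _ b _ hab ↦ Nat.eq_of_mul_eq_mul_left hp.pos hab) (fun b hb ↦ ?_) (fun _ _ ↦ rfl)
    · rw [Nat.mem_divisors] at hd
      simp [Finset.mem_filter, hd.1, hd.2, hp.ne_zero, mul_dvd_mul_iff_left]
    · rw [Finset.mem_filter, Nat.mem_divisors] at hb
      obtain ⟨⟨hb1, hb2⟩, ⟨d, rfl⟩⟩ := hb
      exact ⟨d, Nat.mem_divisors.mpr ⟨(Nat.mul_dvd_mul_iff_left hp.pos).mp hb1,
        fun h ↦ hb2 (by simp [h])⟩, rfl⟩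
  · refine Finset.sum_eq_zero fun d hd ↦ ?_
    rw [Finset.mem_filter, Nat.mem_divisors] at hd
    exact absurd (hd.2.trans hd.1.1) h

omit [Fact p.Prime] in
lemma eisSum_prime_mul {N ℓ : ℕ} (hℓ : ℓ.Prime) (hN : N.Prime) (hne : ℓ ≠ N) (n : ℕ) :
    eisSum N (n * ℓ) + (if ℓ ∣ n then ℓ * eisSum N (n / ℓ) else 0) = (1 + ℓ) * eisSum N n := by
  rcases eq_or_ne n 0 with rfl | hn
  · simp [eisSum_zero]
  set A := n.divisors.filter (fun d ↦ ¬ N ∣ d) with hA
  set B := A.image (fun d ↦ ℓ * d) with hB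
  have hNℓ : ¬ N ∣ ℓ := fun h ↦ hne ((Nat.prime_dvd_prime_iff_eq hN hℓ).mp h).symm
  have hU : (n * ℓ).divisors.filter (fun d ↦ ¬ N ∣ d) = A ∪ B := by
    ext d
    simp only [hA, hB, Finset.mem_union, Finset.mem_image, Finset.mem_filter, Nat.mem_divisors,
      ne_eq, mul_eq_zero, hn, hℓ.ne_zero, or_self, not_false_eq_true, and_true]
    refine ⟨fun ⟨hd, hNd⟩ ↦ ?_, ?_⟩
    · by_cases hℓd : ℓ ∣ d
      · obtain ⟨e, rfl⟩ := hℓd
        rw [mul_comm n] at hd
        exact Or.inr ⟨e, ⟨(Nat.mul_dvd_mul_iff_left hℓ.pos).mp hd,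
          fun h ↦ hNd (h.mul_left ℓ)⟩, rfl⟩
      · exact Or.inl ⟨(Nat.Coprime.dvd_mul_right
          ((hℓ.coprime_iff_not_dvd.mpr hℓd).symm)).mp hd, hNd⟩
    · rintro (⟨h, hd⟩ | ⟨e, ⟨he, hNe⟩, rfl⟩)
      · exact ⟨h.mul_right ℓ, hd⟩
      · refine ⟨by rw [mul_comm n]; exact mul_dvd_mul_left ℓ he, fun h ↦ ?_⟩
        rcases hN.dvd_mul.mp h with h | h
        · exact hNℓ h
        · exact hNe h
  have hI : ∑ d ∈ A ∩ B, d = if ℓ ∣ n then ℓ * eisSum N (n / ℓ) else 0 := by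
    split_ifs with h
    · obtain ⟨m, rfl⟩ := h
      rw [Nat.mul_div_cancel_left _ hℓ.pos, eisSum, Finset.mul_sum]
      symm
      refine Finset.sum_bij (fun d _ ↦ ℓ * d) (fun d hd ↦ ?_)
        (fun a _ b _ hab ↦ Nat.eq_of_mul_eq_mul_left hℓ.pos hab) (fun b hb ↦ ?_) (fun _ _ ↦ rfl)
      · rw [Finset.mem_filter, Nat.mem_divisors] at hd
        simp only [hA, hB, Finset.mem_inter, Finset.mem_image, Finset.mem_filter, Nat.mem_divisors]
        refine ⟨⟨⟨mul_dvd_mul_left ℓ hd.1.1, hn⟩, ?_⟩, d,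
          ⟨⟨hd.1.1.mul_left ℓ, hn⟩, hd.2⟩, rfl⟩
        intro h
        rcases hN.dvd_mul.mp h with h | h
        · exact hNℓ h
        · exact hd.2 h
      · simp only [hA, hB, Finset.mem_inter, Finset.mem_image, Finset.mem_filter,
          Nat.mem_divisors] at hb
        obtain ⟨⟨⟨hb1, -⟩, -⟩, e, ⟨⟨-, -⟩, hNe⟩, rfl⟩ := hb
        exact ⟨e, Finset.mem_filter.mpr ⟨Nat.mem_divisors.mpr
          ⟨(Nat.mul_dvd_mul_iff_left hℓ.pos).mp hb1, fun h ↦ hn (by simp [h])⟩, hNe⟩, rfl⟩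
    · refine Finset.sum_eq_zero fun d hd ↦ ?_
      simp only [hA, hB, Finset.mem_inter, Finset.mem_image, Finset.mem_filter,
        Nat.mem_divisors] at hd
      obtain ⟨⟨⟨hd1, -⟩, -⟩, e, -, rfl⟩ := hd
      exact absurd (dvd_of_mul_right_dvd hd1) h
  have hsum := Finset.sum_union_inter (s₁ := A) (s₂ := B) (f := fun d : ℕ ↦ d)
  rw [← hU, hI, hB, Finset.sum_image fun a _ b _ hab ↦ Nat.eq_of_mul_eq_mul_left hℓ.pos hab,
    ← Finset.mul_sum] at hsum
  rw [eisSum, hsum, eisSum, ← hA]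
  ring

/-- `E₂` as a `q`-series. -/
def serE2 : PowerSeries ℂ := PowerSeries.mk fun n ↦ if n = 0 then 1 else -24 * σ 1 n

lemma hasQExp_E2 : HasQExp 1 E2 serE2 := fun τ ↦ by
  simpa [serE2, qh, Function.Periodic.qParam] using EisensteinSeries.hasSum_qExpansion_E2 (z := τ)

variable (p)

/-- `N E₂(N τ) - E₂(τ)`. -/
def eisFun : ℍ → ℂ := E2 ∣[(2 : ℤ)] ModularForm.heckeDiagMatrix p - E2

variable {p}

lemma diag_mul (γ : SL(2, ℤ)) (c : ℤ) (hc : γ 1 0 = p * c) :
    ∃ γ' : SL(2, ℤ), (γ' 1 0 = c ∧ γ' 1 1 = γ 1 1) ∧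
      ModularForm.heckeDiagMatrix p * mapGL ℝ γ
        = mapGL ℝ γ' * ModularForm.heckeDiagMatrix p := by
  have hdet : γ 0 0 * γ 1 1 - γ 0 1 * γ 1 0 = 1 := by
    rw [← Matrix.det_fin_two]; exact γ.2
  let γ' : SL(2, ℤ) := ⟨!![γ 0 0, p * γ 0 1; c, γ 1 1], by
    rw [Matrix.det_fin_two_of]
    linear_combination hdet + γ 0 1 * hc⟩
  refine ⟨γ', ⟨by simp [γ'], by simp [γ']⟩, ?_⟩
  have hc' : ((γ 1 0 : ℤ) : ℝ) = p * c := by exact_mod_cast hc
  refine Units.ext (Matrix.ext fun i j ↦ ?_)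
  simp only [Matrix.GeneralLinearGroup.coe_mul, ModularForm.val_heckeDiagMatrix prime_ne_zero',
    Matrix.mul_apply, Fin.sum_univ_two, mapGL_apply']
  fin_cases i <;> fin_cases j <;> simp [γ', hc'] <;> ring

lemma E2_slash_mapGL (γ : SL(2, ℤ)) :
    E2 ∣[(2 : ℤ)] mapGL ℝ γ = E2 - (1 / (2 * riemannZeta 2)) • D2 γ := E2_slash_action γ

lemma eisFun_slash_of_mem {γ : SL(2, ℤ)} (h : γ ∈ Gamma0 p) :
    eisFun p ∣[(2 : ℤ)] γ = eisFun p := by
  obtain ⟨c, hc⟩ := (ZMod.intCast_zmod_eq_zero_iff_dvd _ _).mp (Gamma0_mem.mp h)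
  obtain ⟨γ', ⟨h10, h11⟩, he⟩ := diag_mul (p := p) γ c hc
  show (E2 ∣[(2 : ℤ)] ModularForm.heckeDiagMatrix p - E2) ∣[(2 : ℤ)] mapGL ℝ γ = eisFun p
  rw [sub_eq_add_neg, SlashAction.add_slash, SlashAction.neg_slash, ← SlashAction.slash_mul, he,
    SlashAction.slash_mul, E2_slash_mapGL, E2_slash_mapGL, sub_eq_add_neg, SlashAction.add_slash,
    SlashAction.neg_slash, ModularForm.smul_slash, ModularForm.σ_heckeDiagMatrix]
  ext τ
  have hD : (D2 γ' ∣[(2 : ℤ)] ModularForm.heckeDiagMatrix p) τ = D2 γ τ := by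
    rw [ModularForm.slash_heckeDiagMatrix_apply 2 prime_ne_zero', D2, D2,
      ModularGroup.denom_apply, ModularGroup.denom_apply,
      ModularForm.coe_heckeDiagMatrix_smul prime_ne_zero', h10, h11, hc]
    push_cast
    norm_num
    ring
  simp only [eisFun, Pi.add_apply, Pi.neg_apply, Pi.sub_apply, Pi.smul_apply, smul_eq_mul,
    ContinuousAlgEquiv.refl_apply, hD]
  ring

lemma diag_mul_S : ModularForm.heckeDiagMatrix p * mapGL ℝ S
    = mapGL ℝ S * ModularForm.heckeMatrix p 0 := by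
  refine Units.ext (Matrix.ext fun i j ↦ ?_)
  simp only [Matrix.GeneralLinearGroup.coe_mul, ModularForm.val_heckeDiagMatrix prime_ne_zero',
    ModularForm.val_heckeMatrix prime_ne_zero', Matrix.mul_apply, Fin.sum_univ_two, mapGL_apply']
  fin_cases i <;> fin_cases j <;> simp [ModularGroup.coe_S]

lemma eisFun_slash_S :
    eisFun p ∣[(2 : ℤ)] S = E2 ∣[(2 : ℤ)] ModularForm.heckeMatrix p 0 - E2 := by
  show (E2 ∣[(2 : ℤ)] ModularForm.heckeDiagMatrix p - E2) ∣[(2 : ℤ)] mapGL ℝ S = _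
  rw [sub_eq_add_neg, SlashAction.add_slash, SlashAction.neg_slash, ← SlashAction.slash_mul,
    diag_mul_S, SlashAction.slash_mul, E2_slash_mapGL, sub_eq_add_neg, SlashAction.add_slash,
    SlashAction.neg_slash, ModularForm.smul_slash, ModularForm.σ_heckeMatrix]
  ext τ
  have hD : (D2 S ∣[(2 : ℤ)] ModularForm.heckeMatrix p 0) τ = D2 S τ := by
    rw [ModularForm.slash_heckeMatrix_apply 2 prime_ne_zero', D2_S, D2_S,
      ModularForm.coe_heckeMatrix_smul prime_ne_zero']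
    have hp : (p : ℂ) ≠ 0 := by exact_mod_cast prime_ne_zero' (p := p)
    have hτ := UpperHalfPlane.ne_zero τ
    push_cast
    field_simp
    simp [hτ]
  simp only [Pi.add_apply, Pi.neg_apply, Pi.sub_apply, Pi.smul_apply, smul_eq_mul,
    ContinuousAlgEquiv.refl_apply, hD]
  ring

omit [Fact (Nat.Prime p)] in
lemma mdiff_eisFun : MDiff (eisFun p) := (E2_mdifferentiable.slash 2 _).sub E2_mdifferentiable

lemma bounded_eisFun_slash (γ : SL(2, ℤ)) : IsBoundedAtImInfty (eisFun p ∣[(2 : ℤ)] γ) := by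
  have key : eisFun p ∣[(2 : ℤ)] γ = eisFun p ∣[(2 : ℤ)] cosetRep (cosetPoint (p := p) γ) :=
    apply_cosetPoint (p := p) (fun g ↦ eisFun p ∣[(2 : ℤ)] g)
      (fun h hh g ↦ by simp only [SlashAction.slash_mul, eisFun_slash_of_mem hh]) γ
  rw [key]
  have hsub : ∀ f : ℍ → ℂ, IsBoundedAtImInfty f → IsBoundedAtImInfty (f - E2) := fun f hf ↦ by
    rw [sub_eq_add_neg]
    exact hf.add isBoundedAtImInfty_E2.neg_left
  rcases cosetPoint (p := p) γ with _ | j
  · rw [show cosetRep (none : Option (ZMod p)) = 1 from rfl, SlashAction.slash_one]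
    exact hsub _ (IsBoundedAtImInfty.slash 2 (by simp [ModularForm.val_heckeDiagMatrix
      prime_ne_zero']) isBoundedAtImInfty_E2)
  · rw [cosetRep, SlashAction.slash_mul, eisFun_slash_S]
    show IsBoundedAtImInfty (_ ∣[(2 : ℤ)] mapGL ℝ (T ^ (j.val : ℤ)))
    refine IsBoundedAtImInfty.slash 2 ?_ (hsub _ (IsBoundedAtImInfty.slash 2
      (by simp [ModularForm.val_heckeMatrix prime_ne_zero']) isBoundedAtImInfty_E2))
    rw [mapGL_apply', ModularGroup.coe_T_zpow]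
    simp

/-- The weight two Eisenstein series of level `p`, normalised with constant term `p - 1`. -/
def eisForm : ModularForm (Gamma0 p) 2 where
  toFun := eisFun p
  slash_action_eq' := by
    rintro _ ⟨γ, hγ, rfl⟩
    exact eisFun_slash_of_mem hγ
  holo' := mdiff_eisFun
  bdd_at_cusps' {c} hc := by
    rw [Subgroup.IsArithmetic.isCusp_iff_isCusp_SL2Z] at hc
    rw [OnePoint.isBoundedAt_iff_forall_SL2Z hc]
    intro γ _
    exact bounded_eisFun_slash γ

lemma qCoeff_eisForm (n : ℕ) :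
    qCoeff (eisForm (p := p)) n = if n = 0 then (p : ℂ) - 1 else 24 * (eisSum p n : ℂ) := by
  have hp : p ≠ 0 := prime_ne_zero'
  have h1 : HasQExp 1 (eisForm (p := p))
      ((p : ℂ) • PowerSeries.expand p hp serE2 - serE2) := by
    refine HasQExp.sub ?_ hasQExp_E2
    refine ((hasQExp_E2.comp_mul p hp (g := fun τ ↦ E2 (ModularForm.heckeDiagMatrix p • τ))
      fun τ ↦ ⟨_, ModularForm.coe_heckeDiagMatrix_smul hp τ, rfl⟩).smul (p : ℂ)).congr_fun'
      fun τ ↦ ?_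
    rw [ModularForm.slash_heckeDiagMatrix_apply 2 hp]
    simp
  have h2 := h1.unique one_pos (hasQExp_serOf (eisForm (p := p)))
  have h3 := congrArg (PowerSeries.coeff n) h2
  simp only [map_sub, map_smul, smul_eq_mul, PowerSeries.coeff_expand, serE2, serOf,
    PowerSeries.coeff_mk] at h3
  rw [← h3]
  rcases eq_or_ne n 0 with rfl | hn
  · simp
  · rw [sigma_one_eq (p := p) n]
    have hdiv : p ∣ n → n / p ≠ 0 := fun h ↦ by
      obtain ⟨m, rfl⟩ := h
      rw [Nat.mul_div_cancel_left _ (Nat.pos_of_ne_zero hp)]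
      exact (mul_ne_zero_iff.mp hn).2
    split_ifs with h h' <;> first | (exact absurd h' (hdiv h)) | (push_cast; ring)

end FLTAgent.Eisenstein

end
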