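import Fermat.Agent.Eisenstein.QExp
import Mathlib.NumberTheory.ModularForms.LevelOne.GradedRing
import Mathlib.RingTheory.Ideal.Quotient.Basic

/-!
# Level one modular forms

A constructor `mkLevelOne`, the facts needed in weights two and four, integral `q`-series of `E₄`,
`E₆` and `Δ`, and a Sturm bound modulo an ideal of the coefficient ring (`levelOne_sturm_mod`).
-/

set_option autoImplicit false

open scoped Topology Real MatrixGroups ModularForm Manifold
open UpperHalfPlane hiding I
open Complex Filter Function EisensteinSeries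
open ModularForm (E₄ E₆)
open scoped ArithmeticFunction.sigma

noncomputable section

namespace FLTAgent.Eisenstein

/-- Bundle a level one modular form. -/
def mkLevelOne {k : ℤ} (F : ℍ → ℂ) (hinv : ∀ γ : SL(2, ℤ), F ∣[k] γ = F) (hhol : MDiff F)
    (hbdd : IsBoundedAtImInfty F) : ModularForm 𝒮ℒ k where
  toFun := F
  slash_action_eq' := by
    rintro _ ⟨γ, rfl⟩
    exact hinv γ
  holo' := hhol
  bdd_at_cusps' {c} hc := by
    rw [Subgroup.IsArithmetic.isCusp_iff_isCusp_SL2Z] at hc
    rw [OnePoint.isBoundedAt_iff_forall_SL2Z hc]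
    intro γ _
    rw [hinv γ]
    exact hbdd

@[simp] lemma coe_mkLevelOne {k : ℤ} (F : ℍ → ℂ) (hinv : ∀ γ : SL(2, ℤ), F ∣[k] γ = F)
    (hhol : MDiff F) (hbdd : IsBoundedAtImInfty F) :
    ⇑(mkLevelOne F hinv hhol hbdd) = F := rfl

lemma levelOne_weight_two_eq_zero {F : ℍ → ℂ} (hinv : ∀ γ : SL(2, ℤ), F ∣[(2 : ℤ)] γ = F)
    (hhol : MDiff F) (hbdd : IsBoundedAtImInfty F) : F = 0 := by
  have := rank_zero_iff_forall_zero.mp ModularForm.levelOne_weight_two_rank_zero
    (mkLevelOne F hinv hhol hbdd)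
  simpa using congrArg (fun G : ModularForm 𝒮ℒ 2 ↦ (⇑G : ℍ → ℂ)) this

/-- In weight four, level one, the first coefficient is `240` times the constant one. -/
lemma levelOne_weight_four_coeff {F : ℍ → ℂ} {P : PowerSeries ℂ}
    (hinv : ∀ γ : SL(2, ℤ), F ∣[(4 : ℤ)] γ = F) (hhol : MDiff F) (hP : HasQExp 1 F P) :
    PowerSeries.coeff 1 P = 240 * PowerSeries.coeff 0 P := by
  obtain ⟨c, hc⟩ := (finrank_eq_one_iff_of_nonzero' E₄ (E_ne_zero _ ⟨2, rfl⟩)).mp
    (Module.rank_eq_one_iff_finrank_eq_one.mp ModularForm.levelOne_weight_four_rank_one)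
    (mkLevelOne F hinv hhol (hP.bounded one_pos))
  have h1 : qExpansion 1 F = c • qExpansion 1 E₄ := by
    rw [← ModularForm.qExpansion_smul one_pos one_mem_strictPeriods_SL c E₄,
      show (c • ⇑E₄ : ℍ → ℂ) = F from congrArg DFunLike.coe hc]
  rw [hP.qExpansion_eq hhol] at h1
  subst h1
  rw [map_smul, map_smul, ModularForm.E₄_qExpansion_coeff_one, E_qExpansion_coeff_zero _ ⟨2, rfl⟩]
  simp [mul_comm]

/-- `∑ σ₃(n) qⁿ`. -/
def serS3 : PowerSeries ℤ := PowerSeries.mk fun n ↦ (σ 3 n : ℤ)

/-- `∑ σ₅(n) qⁿ`. -/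
def serS5 : PowerSeries ℤ := PowerSeries.mk fun n ↦ (σ 5 n : ℤ)

def serE4 : PowerSeries ℤ := 1 + PowerSeries.C 240 * serS3

def serE6 : PowerSeries ℤ := 1 - PowerSeries.C 504 * serS5

lemma qExpansion_E4 : qExpansion 1 E₄ = serE4.map (Int.castRingHom ℂ) := by
  ext n
  rw [E_qExpansion_coeff _ ⟨2, rfl⟩, PowerSeries.coeff_map, serE4, map_add, PowerSeries.coeff_one,
    PowerSeries.coeff_C_mul, serS3, PowerSeries.coeff_mk]
  rcases eq_or_ne n 0 with rfl | hn
  · simp
  · norm_num [hn, show bernoulli 4 = -1 / 30 by decide +kernel]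

lemma qExpansion_E6 : qExpansion 1 E₆ = serE6.map (Int.castRingHom ℂ) := by
  ext n
  rw [E_qExpansion_coeff _ ⟨3, rfl⟩, PowerSeries.coeff_map, serE6, map_sub, PowerSeries.coeff_one,
    PowerSeries.coeff_C_mul, serS5, PowerSeries.coeff_mk]
  rcases eq_or_ne n 0 with rfl | hn
  · simp
  · norm_num [hn, show bernoulli 6 = 1 / 42 by decide +kernel]

lemma twelve_dvd_sigma (n : ℕ) : (12 : ℤ) ∣ 5 * (σ 3 n : ℤ) + 7 * (σ 5 n : ℤ) := by
  simp only [ArithmeticFunction.sigma_apply, Nat.cast_sum, Finset.mul_sum, ← Finset.sum_add_distrib]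
  refine Finset.dvd_sum fun d _ ↦ (ZMod.intCast_zmod_eq_zero_iff_dvd _ 12).mp ?_
  have h : ∀ x : ZMod 12, 5 * x ^ 3 + 7 * x ^ 5 = 0 := by decide
  push_cast
  exact h _

/-- An integral series equal to `(E4^3 - E6^2)/1728`. -/
def serD : PowerSeries ℤ :=
  PowerSeries.mk (fun n ↦ (5 * (σ 3 n : ℤ) + 7 * (σ 5 n : ℤ)) / 12)
    + PowerSeries.C 100 * serS3 ^ 2 + PowerSeries.C 8000 * serS3 ^ 3
    - PowerSeries.C 147 * serS5 ^ 2

lemma serD_spec : PowerSeries.C 1728 * serD = serE4 ^ 3 - serE6 ^ 2 := by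
  have h : PowerSeries.C 12 * PowerSeries.mk (fun n ↦ (5 * (σ 3 n : ℤ) + 7 * (σ 5 n : ℤ)) / 12)
      = PowerSeries.C 5 * serS3 + PowerSeries.C 7 * serS5 := by
    ext n
    rw [map_add, PowerSeries.coeff_C_mul, PowerSeries.coeff_C_mul, PowerSeries.coeff_C_mul, serS3,
      serS5, PowerSeries.coeff_mk, PowerSeries.coeff_mk, PowerSeries.coeff_mk,
      Int.mul_ediv_cancel' (twelve_dvd_sigma n)]
  have hc : ∀ (a : ℤ), (PowerSeries.C a : PowerSeries ℤ) = (a : PowerSeries ℤ) :=
    fun a ↦ eq_intCast _ a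
  rw [serD, serE4, serE6]
  simp only [hc] at h ⊢
  push_cast at h ⊢
  linear_combination (144 : PowerSeries ℤ) * h

lemma qExpansion_Delta : qExpansion 1 ModularForm.discriminant = serD.map (Int.castRingHom ℂ) := by
  have h4 := hasQExp_qExpansion E₄ one_mem_strictPeriods_SL
  have h6 := hasQExp_qExpansion E₆ one_mem_strictPeriods_SL
  have hΔ : HasQExp 1 ModularForm.discriminant
      ((1 / 1728 : ℂ) • (qExpansion 1 E₄ * qExpansion 1 E₄ * qExpansion 1 E₄
        - qExpansion 1 E₆ * qExpansion 1 E₆)) := by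
    refine (((h4.mul h4).mul h4).sub (h6.mul h6)).smul (1 / 1728 : ℂ) |>.congr_fun' fun z ↦ ?_
    rw [ModularForm.discriminant_eq_E₄_cube_sub_E₆_sq z]
    simp only [Pi.smul_apply, Pi.sub_apply, Pi.mul_apply, smul_eq_mul]
    ring
  rw [hΔ.qExpansion_eq CuspForm.discriminant.holo', qExpansion_E4, qExpansion_E6,
    ← map_mul, ← map_mul, ← map_mul, ← map_sub,
    show serE4 * serE4 * serE4 - serE6 * serE6 = PowerSeries.C 1728 * serD by
      rw [serD_spec]; ring, map_mul, PowerSeries.map_C, PowerSeries.smul_eq_C_mul, ← mul_assoc,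
    ← map_mul]
  norm_num

/-- `Δ = q · serU`. -/
def serU : PowerSeries ℤ := PowerSeries.mk fun n ↦ PowerSeries.coeff (n + 1) serD

lemma constantCoeff_serD : PowerSeries.constantCoeff serD = 0 := by
  simp [serD, serS3, serS5]

lemma serD_eq : serD = PowerSeries.X * serU := by
  conv_lhs => rw [PowerSeries.eq_X_mul_shift_add_const serD, constantCoeff_serD, map_zero, add_zero]
  rfl

lemma constantCoeff_serU : PowerSeries.constantCoeff serU = 1 := by
  have h := ModularForm.discriminant_qExpansion_coeff_one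
  rw [qExpansion_Delta, serD_eq, PowerSeries.coeff_map, PowerSeries.coeff_succ_X_mul] at h
  simpa using h

def serUinv : PowerSeries ℤ := PowerSeries.invOfUnit serU 1

lemma serU_mul_inv : serU * serUinv = 1 :=
  PowerSeries.mul_invOfUnit serU 1 (by simpa using constantCoeff_serU)

lemma exists_weight_decomp {k : ℕ} (hk : Even k) (hk2 : k ≠ 2) : ∃ a b : ℕ, 4 * a + 6 * b = k := by
  obtain ⟨m, rfl⟩ := hk
  rcases Nat.even_or_odd m with ⟨j, rfl⟩ | ⟨j, rfl⟩
  · exact ⟨j, 0, by omega⟩
  · exact ⟨j - 1, 1, by omega⟩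

variable {O : Subring ℂ}

private lemma map_subtype_intCast (P : PowerSeries ℤ) :
    (P.map (Int.castRingHom O)).map O.subtype = P.map (Int.castRingHom ℂ) := by
  ext n
  simp

private lemma map_subtype_injective :
    Injective (PowerSeries.map O.subtype) := fun P Q h ↦ by
  ext n
  exact congrArg (PowerSeries.coeff n) h

/-- Sturm bound in level one modulo an ideal of a coefficient ring. -/
lemma levelOne_sturm_mod (I : Ideal O) (k : ℕ) :
    ∀ (F : ModularForm 𝒮ℒ (k : ℤ)) (P : PowerSeries O), qExpansion 1 F = P.map O.subtype →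
      (∀ n, n ≤ k / 12 → PowerSeries.coeff n P ∈ I) → P.map (Ideal.Quotient.mk I) = 0 := by
  induction k using Nat.strong_induction_on with | _ k ih =>
  intro F P hF hP
  have hzero : F = 0 → P.map (Ideal.Quotient.mk I) = 0 := fun h ↦ by
    rw [h, FunLike.coe_zero, qExpansion_zero] at hF
    have hP0 : P = 0 := map_subtype_injective (O := O) (by rw [map_zero]; exact hF.symm)
    rw [hP0, map_zero]
  rcases Nat.even_or_odd k with hk | hk
  swap
  · exact hzero (ModularForm.levelOne_odd_weight_eq_zero (by exact_mod_cast hk) F)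
  rcases eq_or_ne k 2 with rfl | hk2
  · exact hzero (rank_zero_iff_forall_zero.mp ModularForm.levelOne_weight_two_rank_zero F)
  obtain ⟨a, b, hab⟩ := exists_weight_decomp hk hk2
  let B : ModularForm 𝒮ℒ (k : ℤ) :=
    ModularForm.mcast (by rw [← hab]; push_cast; ring) ((E₄.pow a).mul (E₆.pow b))
  set b0 : PowerSeries O := (serE4 ^ a * serE6 ^ b).map (Int.castRingHom O) with hb0
  have hB : qExpansion 1 B = b0.map O.subtype := by
    rw [ModularForm.qExpansion_mcast, ModularForm.qExpansion_mul one_pos one_mem_strictPeriods_SL,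
      ModularForm.qExpansion_pow one_pos one_mem_strictPeriods_SL,
      ModularForm.qExpansion_pow one_pos one_mem_strictPeriods_SL, qExpansion_E4, qExpansion_E6,
      hb0, map_subtype_intCast, map_mul, map_pow, map_pow]
  set a0 : O := PowerSeries.constantCoeff P with ha0
  let F' : ModularForm 𝒮ℒ (k : ℤ) := F - (a0 : ℂ) • B
  set P' : PowerSeries O := P - PowerSeries.C a0 * b0 with hP'
  have hF' : qExpansion 1 F' = P'.map O.subtype := by
    rw [show (⇑F' : ℍ → ℂ) = ⇑F - (a0 : ℂ) • ⇑B from rfl, qExpansion_sub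
      (ModularFormClass.analyticAt_cuspFunction_zero F one_pos one_mem_strictPeriods_SL)
      (by simpa using ModularFormClass.analyticAt_cuspFunction_zero ((a0 : ℂ) • B) one_pos
            one_mem_strictPeriods_SL), ModularForm.qExpansion_smul one_pos one_mem_strictPeriods_SL,
      hF, hB, hP', map_sub, map_mul, PowerSeries.map_C, PowerSeries.smul_eq_C_mul]
    rfl
  have hb01 : PowerSeries.constantCoeff b0 = 1 := by
    rw [hb0, ← PowerSeries.coeff_zero_eq_constantCoeff_apply, PowerSeries.coeff_map,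
      PowerSeries.coeff_zero_eq_constantCoeff_apply, map_mul, map_pow, map_pow]
    simp [serE4, serE6, serS3, serS5]
  have hP'0 : PowerSeries.constantCoeff P' = 0 := by simp [hP', hb01, ← ha0]
  have hF'0 : (qExpansion 1 F').coeff 0 = 0 := by
    rw [hF', PowerSeries.coeff_map, PowerSeries.coeff_zero_eq_constantCoeff, hP'0, map_zero]
  set P1 : PowerSeries O := PowerSeries.mk fun n ↦ PowerSeries.coeff (n + 1) P' with hP1
  have hXP1 : P' = PowerSeries.X * P1 := by
    conv_lhs => rw [PowerSeries.eq_X_mul_shift_add_const P', hP'0, map_zero, add_zero]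
  set P2 : PowerSeries O := P1 * serUinv.map (Int.castRingHom O) with hP2
  have hUU : serUinv.map (Int.castRingHom O) * serU.map (Int.castRingHom O) = 1 := by
    rw [← map_mul, mul_comm, serU_mul_inv, map_one]
  have hP12 : P1 = P2 * serU.map (Int.castRingHom O) := by rw [hP2, mul_assoc, hUU, mul_one]
  set G := CuspForm.discriminantEquiv (ModularForm.toCuspForm F' hF'0) with hG
  have hG' : qExpansion 1 G = P2.map O.subtype := by
    have h := ModularForm.qExpansion_eq_qExpansion_discriminant_mul F' hF'0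
    have hne : PowerSeries.X * serU.map (Int.castRingHom ℂ) ≠ 0 := by
      refine mul_ne_zero PowerSeries.X_ne_zero fun h0 ↦ ?_
      have h1 := congrArg (PowerSeries.coeff 0) h0
      simp [constantCoeff_serU] at h1
    refine mul_left_cancel₀ hne ?_
    have h2 : P'.map O.subtype =
        PowerSeries.X * serU.map (Int.castRingHom ℂ) * P2.map O.subtype := by
      conv_lhs => rw [hXP1, hP12]
      rw [map_mul, map_mul, PowerSeries.map_X, map_subtype_intCast]
      ring
    rw [← h2, ← hF', h, qExpansion_Delta, serD_eq, map_mul, PowerSeries.map_X]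
  have hbar : ∀ n, n ≤ k / 12 → PowerSeries.coeff n (P'.map (Ideal.Quotient.mk I)) = 0 := by
    intro n hn
    have ha0I : a0 ∈ I := by simpa [ha0] using hP 0 (Nat.zero_le _)
    rw [PowerSeries.coeff_map, Ideal.Quotient.eq_zero_iff_mem, hP', map_sub,
      PowerSeries.coeff_C_mul]
    exact I.sub_mem (hP n hn) (I.mul_mem_right _ ha0I)
  have hP2bar : P2.map (Ideal.Quotient.mk I) = 0 := by
    rcases lt_or_ge k 12 with hk12 | hk12
    · have : G = 0 := rank_zero_iff_forall_zero.mp
        (ModularForm.levelOne_neg_weight_rank_zero (by omega)) G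
      rw [this, FunLike.coe_zero, qExpansion_zero] at hG'
      have h20 : P2 = 0 := map_subtype_injective (O := O) (by rw [map_zero]; exact hG'.symm)
      rw [h20, map_zero]
    · have e : (k : ℤ) - 12 = ((k - 12 : ℕ) : ℤ) := by omega
      refine ih (k - 12) (by omega) (ModularForm.mcast e G) P2
        (by rw [ModularForm.qExpansion_mcast]; exact hG') fun n hn ↦ ?_
      rw [← Ideal.Quotient.eq_zero_iff_mem, ← PowerSeries.coeff_map, hP2, map_mul,
        PowerSeries.coeff_mul]
      refine Finset.sum_eq_zero fun ij hij ↦ ?_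
      have h1 := hbar (ij.1 + 1) (by
        have := Finset.mem_antidiagonal.mp hij
        omega)
      rw [PowerSeries.coeff_map] at h1
      rw [PowerSeries.coeff_map, hP1, PowerSeries.coeff_mk, h1, zero_mul]
  have ha0' : Ideal.Quotient.mk I a0 = 0 := by
    rw [Ideal.Quotient.eq_zero_iff_mem, ha0, ← PowerSeries.coeff_zero_eq_constantCoeff_apply]
    exact hP 0 (Nat.zero_le _)
  rw [show P = PowerSeries.C a0 * b0 + P' by rw [hP']; ring, hXP1, hP12, map_add, map_mul,
    map_mul, map_mul, PowerSeries.map_C, ha0', hP2bar]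
  simp

end FLTAgent.Eisenstein

end
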