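import Fermat.Agent.Eisenstein.EisensteinTwo
import Mathlib.RingTheory.Valuation.LocalSubring
import Mathlib.RingTheory.PowerSeries.Inverse

/-!
# No weight two form on `Γ₀(p)` is congruent to a constant

The norm from `Γ₀(p) ∩ Γ₀(q)` to level one of the difference with the weight two Eisenstein
series of level `q ∈ {2, 3}` would violate the Sturm bound modulo `ℓ` (`no_congruent_one`).
Used in `ConstantBound`.
-/

set_option autoImplicit false

open scoped Topology Real MatrixGroups ModularForm Manifold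
open UpperHalfPlane hiding I
open Complex Filter CongruenceSubgroup ModularGroup ModularFormClass

noncomputable section

namespace FLTAgent.Eisenstein

lemma exists_valuationSubring_over (ℓ : ℕ) (hℓ : ℓ.Prime) :
    ∃ O : ValuationSubring ℂ, O.valuation (ℓ : ℂ) < 1 ∧
      ∀ m : ℤ, ¬ (ℓ : ℤ) ∣ m → O.valuation (m : ℂ) = 1 := by
  set A : Subring ℂ := (Int.castRingHom ℂ).range
  have hI : Ideal.span ({(ℓ : A)} : Set A) ≠ ⊤ := by
    rw [Ne, Ideal.span_singleton_eq_top, isUnit_iff_exists_inv]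
    rintro ⟨⟨_, m, rfl⟩, h⟩
    have h' : ((ℓ : ℤ) : ℂ) * (m : ℂ) = ((1 : ℤ) : ℂ) := by
      simpa [Subtype.ext_iff] using h
    rw [← Int.cast_mul, Int.cast_inj] at h'
    have := Int.natAbs_mul (ℓ : ℤ) m
    rw [h'] at this
    simp at this
    exact hℓ.ne_one (Nat.eq_one_of_mul_eq_one_right this.symm)
  obtain ⟨O, -, hO⟩ := Ideal.image_subset_nonunits_valuationSubring _ hI
  have hℓ1 : O.valuation (ℓ : ℂ) < 1 := by
    have := hO ⟨(ℓ : A), Ideal.subset_span rfl, rfl⟩
    simpa [ValuationSubring.mem_nonunits_iff] using this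
  refine ⟨O, hℓ1, fun m hm ↦ ?_⟩
  have hle : ∀ a : ℤ, O.valuation (a : ℂ) ≤ 1 := fun a ↦
    (O.valuation_le_one_iff _).mpr (intCast_mem O a)
  refine le_antisymm (hle m) (not_lt.mp fun hlt ↦ ?_)
  obtain ⟨a, b, hab⟩ := (Int.isCoprime_iff_gcd_eq_one (m := (ℓ : ℤ)) (n := m)).mpr <| by
    rcases Nat.coprime_or_dvd_of_prime hℓ m.natAbs with h | h
    · simpa [Int.gcd] using h
    · exact absurd (Int.natCast_dvd.mpr h) hm
  have h1 : O.valuation ((a : ℂ) * (ℓ : ℂ) + (b : ℂ) * (m : ℂ)) < 1 := by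
    refine O.valuation.map_add_lt ?_ ?_ <;> rw [map_mul]
    · exact lt_of_le_of_lt (mul_le_of_le_one_left' (hle a)) hℓ1
    · exact lt_of_le_of_lt (mul_le_of_le_one_left' (hle b)) hlt
  rw [show (a : ℂ) * (ℓ : ℂ) + (b : ℂ) * (m : ℂ) =
    ((a * (ℓ : ℤ) + b * m : ℤ) : ℂ) by push_cast; rfl,
    hab, Int.cast_one, map_one] at h1
  exact lt_irrefl _ h1

variable {O : ValuationSubring ℂ}

lemma valuation_root_of_unity {ζ : ℂ} {n : ℕ} (hn : n ≠ 0) (h : ζ ^ n = 1) :
    O.valuation ζ = 1 := by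
  have h1 : O.valuation ζ ^ n = 1 := by rw [← map_pow, h, map_one]
  exact (pow_eq_one_iff.mp h1).resolve_right hn

lemma valuation_exp_root (j n : ℕ) (hn : n ≠ 0) :
    O.valuation (Complex.exp (2 * π * Complex.I * j / n)) = 1 := by
  refine valuation_root_of_unity hn ?_
  rw [← exp_nat_mul, show (n : ℂ) * (2 * π * Complex.I * j / n) = j * (2 * π * Complex.I) by
    have : (n : ℂ) ≠ 0 := by exact_mod_cast hn
    field_simp]
  exact exp_nat_mul_two_pi_mul_I j

variable (O)

/-- Lift a series with integral coefficients. -/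
def liftSer (P : PowerSeries ℂ) (h : ∀ n, O.valuation (PowerSeries.coeff n P) ≤ 1) :
    PowerSeries O.toSubring :=
  PowerSeries.mk fun n ↦ ⟨PowerSeries.coeff n P, (O.valuation_le_one_iff _).mp (h n)⟩

lemma map_liftSer (P : PowerSeries ℂ) (h : ∀ n, O.valuation (PowerSeries.coeff n P) ≤ 1) :
    (liftSer O P h).map O.toSubring.subtype = P := by
  ext n; simp [liftSer]

/-- The maximal ideal, as an ideal of `O.toSubring`. -/
def maxI : Ideal O.toSubring := IsLocalRing.maximalIdeal O

instance maxI_isMaximal : (maxI O).IsMaximal := IsLocalRing.maximalIdeal.isMaximal O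

lemma mem_maxI (a : O.toSubring) : a ∈ maxI O ↔ O.valuation (a : ℂ) < 1 :=
  O.valuation_lt_one_iff a

variable {O}

lemma coeff_red_eq_zero (P : PowerSeries O.toSubring) (n : ℕ) :
    PowerSeries.coeff n (P.map (Ideal.Quotient.mk (maxI O))) = 0 ↔
      O.valuation (PowerSeries.coeff n (P.map O.toSubring.subtype)) < 1 := by
  rw [PowerSeries.coeff_map, Ideal.Quotient.eq_zero_iff_mem, mem_maxI, PowerSeries.coeff_map]
  rfl

variable {p q : ℕ} [Fact p.Prime] [Fact q.Prime]

/-- The level one norm of the family of normalised differences. -/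
def diffFun (G : ModularForm (Gamma0 p) 2) (H : ModularForm (Gamma0 q) 2) (u v : ℂ)
    (ik : Option (ZMod p) × Option (ZMod q)) : ℍ → ℂ :=
  u • familyOf G ik.1 + v • familyOf H ik.2

lemma diffFun_slash (G : ModularForm (Gamma0 p) 2) (H : ModularForm (Gamma0 q) 2) (u v : ℂ)
    (γ : SL(2, ℤ)) (ik : Option (ZMod p) × Option (ZMod q)) :
    diffFun G H u v ik ∣[(2 : ℤ)] γ
      = diffFun G H u v ((cosetPerm γ).prodCongr (cosetPerm γ) ik) := by
  simp only [diffFun, SlashAction.add_slash, ModularForm.SL_smul_slash, familyOf_slash]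
  rfl

/-- The expansion in `exp (2πiτ / (p q))` of a family with expansions `X₀` at infinity and
`X₁` at the cusp zero. -/
private def cuspSer (p q : ℕ) [Fact p.Prime] [Fact q.Prime] (X₀ X₁ : PowerSeries ℂ) :
    Option (ZMod p) → PowerSeries ℂ
  | none => PowerSeries.expand q prime_ne_zero' (PowerSeries.expand p prime_ne_zero' X₀)
  | some j => PowerSeries.expand q prime_ne_zero'
      (PowerSeries.rescale (Complex.exp (2 * π * Complex.I * j.val / p)) X₁)

/-- The family of `u • G` at all cusps has the expansions `cuspSer`. -/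
private lemma hasQExp_smul_familyOf (G : ModularForm (Gamma0 p) 2) (u : ℂ) (i : Option (ZMod p)) :
    HasQExp (p * q) (u • familyOf G i)
      (cuspSer p q (u • serOf G) (u • (-(p : ℂ)⁻¹ • serU' p G)) i) := by
  rcases i with _ | j
  · have := ((hasQExp_familyOf_none G).smul u).expand q prime_ne_zero' prime_ne_zero'
    simpa only [cuspSer, map_smul] using this
  · have := ((hasQExp_familyOf_some G j).smul u).expand q prime_ne_zero' prime_ne_zero'
    convert! this using 1
    simp only [cuspSer]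
    congr 1
    ext n
    simp [PowerSeries.coeff_rescale]
    ring

/-- The constant term at infinity is that of `X₀`. -/
private lemma coeff_zero_cuspSer_none (X₀ X₁ : PowerSeries ℂ) :
    PowerSeries.coeff 0 (cuspSer p q X₀ X₁ none) = PowerSeries.coeff 0 X₀ := by
  simp [cuspSer, PowerSeries.coeff_expand]

/-- The constant term at the other cusps is that of `X₁`. -/
private lemma coeff_zero_cuspSer_some (X₀ X₁ : PowerSeries ℂ) (j : ZMod p) :
    PowerSeries.coeff 0 (cuspSer p q X₀ X₁ (some j)) = PowerSeries.coeff 0 X₁ := by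
  simp [cuspSer, PowerSeries.coeff_expand, PowerSeries.coeff_rescale]

/-- A condition on the valuations of the higher coefficients of `X₀` and `X₁` passes to every
cusp. -/
private lemma coeff_cuspSer_mem {P : O.ValueGroup → Prop} (h0 : P 0) {X₀ X₁ : PowerSeries ℂ}
    (h₀ : ∀ n, n ≠ 0 → P (O.valuation (PowerSeries.coeff n X₀)))
    (h₁ : ∀ n, n ≠ 0 → P (O.valuation (PowerSeries.coeff n X₁)))
    (i : Option (ZMod p)) {n : ℕ} (hn : n ≠ 0) :
    P (O.valuation (PowerSeries.coeff n (cuspSer p q X₀ X₁ i))) := by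
  have hp0 : p ≠ 0 := prime_ne_zero'
  have hq0 : q ≠ 0 := prime_ne_zero'
  rcases i with _ | j
  · simp only [cuspSer, PowerSeries.coeff_expand]
    split_ifs with h1 h2
    · refine h₀ _ ?_
      obtain ⟨m, rfl⟩ := h1
      rw [Nat.mul_div_cancel_left _ (Nat.pos_of_ne_zero hq0)] at h2 ⊢
      obtain ⟨m', rfl⟩ := h2
      rw [Nat.mul_div_cancel_left _ (Nat.pos_of_ne_zero hp0)]
      exact (mul_ne_zero_iff.mp (mul_ne_zero_iff.mp hn).2).2
    all_goals rwa [map_zero]
  · simp only [cuspSer, PowerSeries.coeff_expand, PowerSeries.coeff_rescale]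
    split_ifs with h1
    · obtain ⟨m, rfl⟩ := h1
      rw [Nat.mul_div_cancel_left _ (Nat.pos_of_ne_zero hq0), map_mul, map_pow,
        valuation_exp_root _ _ hp0, one_pow, one_mul]
      exact h₁ _ (mul_ne_zero_iff.mp hn).2
    · rwa [map_zero]

/-- At infinity the coefficients below `q p` vanish, apart from the constant term. -/
private lemma coeff_cuspSer_none_of_lt (X₀ X₁ : PowerSeries ℂ) {n : ℕ} (hn : n ≠ 0)
    (hlt : n < q * p) :
    PowerSeries.coeff n (cuspSer p q X₀ X₁ none) = 0 := by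
  simp only [cuspSer, PowerSeries.coeff_expand]
  split_ifs with h1 h2
  · exfalso
    have := Nat.le_of_dvd (Nat.pos_of_ne_zero hn) ((Nat.dvd_div_iff_mul_dvd h1).mp h2)
    omega
  all_goals rfl

/-- The expansion of `diffFun`. -/
private def diffSer (G : ModularForm (Gamma0 p) 2) (H : ModularForm (Gamma0 q) 2) (u v : ℂ)
    (ik : Option (ZMod p) × Option (ZMod q)) : PowerSeries ℂ :=
  cuspSer p q (u • serOf G) (u • (-(p : ℂ)⁻¹ • serU' p G)) ik.1 +
    cuspSer q p (v • serOf H) (v • (-(q : ℂ)⁻¹ • serU' q H)) ik.2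

/-- `diffSer` is the expansion of `diffFun`. -/
private lemma hasQExp_diffFun (G : ModularForm (Gamma0 p) 2) (H : ModularForm (Gamma0 q) 2)
    (u v : ℂ) (ik : Option (ZMod p) × Option (ZMod q)) :
    HasQExp (p * q) (diffFun G H u v ik) (diffSer G H u v ik) := by
  refine HasQExp.add (f := u • familyOf G ik.1) (g := v • familyOf H ik.2)
    (hasQExp_smul_familyOf G u ik.1) ?_
  rw [mul_comm p q]
  exact hasQExp_smul_familyOf H v ik.2

/-- The product over all cusps of `diffFun` has level one. -/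
private lemma prod_diffFun_slash (G : ModularForm (Gamma0 p) 2) (H : ModularForm (Gamma0 q) 2)
    (u v : ℂ) (γ : SL(2, ℤ)) :
    (∏ ik, diffFun G H u v ik) ∣[((2 * ((p + 1) * (q + 1)) : ℕ) : ℤ)] γ
      = ∏ ik, diffFun G H u v ik := by
  have hcard : (Finset.univ : Finset (Option (ZMod p) × Option (ZMod q))).card
      = (p + 1) * (q + 1) := by simp
  rw [show ((2 * ((p + 1) * (q + 1)) : ℕ) : ℤ) =
    2 * (Finset.univ : Finset (Option (ZMod p) × Option (ZMod q))).card
    by rw [hcard]; push_cast; ring]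
  show (∏ ik, diffFun G H u v ik)
      ∣[(2 * (Finset.univ : Finset (Option (ZMod p) × Option (ZMod q))).card : ℤ)]
      Matrix.SpecialLinearGroup.mapGL ℝ γ = _
  rw [ModularForm.prod_slash]
  rw [show |((Matrix.SpecialLinearGroup.mapGL ℝ γ : GL (Fin 2) ℝ).det : ℝ)| = 1 by simp,
    one_zpow, one_smul]
  rw [Finset.prod_congr rfl fun ik _ ↦
    (show diffFun G H u v ik ∣[(2 : ℤ)] Matrix.SpecialLinearGroup.mapGL ℝ γ = _ from
      diffFun_slash G H u v γ ik)]
  exact Equiv.prod_comp ((cosetPerm γ).prodCongr (cosetPerm γ)) (diffFun G H u v)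

/-- Sturm bound for the level one product: if `q ≤ 3`, all expansions are integral and those
at infinity of level `q` vanish modulo the maximal ideal below `p q`, then one of them vanishes
modulo it. -/
private lemma exists_diffSer_congr_zero (hq : q ≤ 3) (G : ModularForm (Gamma0 p) 2)
    (H : ModularForm (Gamma0 q) 2) (u v : ℂ)
    (hint : ∀ ik n, O.valuation (PowerSeries.coeff n (diffSer G H u v ik)) ≤ 1)
    (hsmall : ∀ i n, n < p * q →
      O.valuation (PowerSeries.coeff n (diffSer G H u v (i, none))) < 1) :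
    ∃ ik, ∀ n, O.valuation (PowerSeries.coeff n (diffSer G H u v ik)) < 1 := by
  by_contra! hne
  have hh : p * q ≠ 0 := mul_ne_zero prime_ne_zero' prime_ne_zero'
  have hhpos : 0 < p * q := Nat.pos_of_ne_zero hh
  let D := fun ik ↦ liftSer O (diffSer G H u v ik) (hint ik)
  set red := PowerSeries.map (Ideal.Quotient.mk (maxI O)) with hred
  have hred0 : ∀ ik n, PowerSeries.coeff n (red (D ik)) = 0 ↔
      O.valuation (PowerSeries.coeff n (diffSer G H u v ik)) < 1 := fun ik n ↦ by
    rw [hred, coeff_red_eq_zero, map_liftSer]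
  set N : ℕ := (p + 1) * (q + 1) with hN
  set P : ℍ → ℂ := ∏ ik, diffFun G H u v ik with hP
  have hinv : ∀ γ : SL(2, ℤ), P ∣[((2 * N : ℕ) : ℤ)] γ = P := prod_diffFun_slash G H u v
  have hhol : MDiff P := MDifferentiable.prod fun ik _ ↦
    ((mdiff_familyOf G ik.1).const_smul u).add ((mdiff_familyOf H ik.2).const_smul v)
  have hPexp : HasQExp (p * q) P (∏ ik, diffSer G H u v ik) :=
    HasQExp.prod _ fun ik _ ↦ hasQExp_diffFun G H u v ik
  have hper : ∀ τ : ℍ, P (((1 : ℕ) : ℝ) +ᵥ τ) = P τ := fun τ ↦ by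
    have := congrFun (hinv (T ^ (1 : ℤ))) τ
    rw [slash_T_zpow] at this
    simpa using this
  obtain ⟨R, hR⟩ := exists_hasQExp one_pos hper hhol (hPexp.bounded hhpos)
  have hRexp : PowerSeries.expand (p * q) hh R = ∏ ik, diffSer G H u v ik :=
    (one_mul (p * q) ▸ hR.expand (p * q) hh one_ne_zero).unique hhpos hPexp
  have hprod : (∏ ik, D ik).map O.toSubring.subtype = ∏ ik, diffSer G H u v ik := by
    rw [map_prod]
    exact Finset.prod_congr rfl fun ik _ ↦ map_liftSer O _ _
  have hRint : ∀ n, O.valuation (PowerSeries.coeff n R) ≤ 1 := fun n ↦ by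
    rw [← PowerSeries.coeff_expand_mul (p * q) hh R n, hRexp, ← hprod, PowerSeries.coeff_map,
      ValuationSubring.valuation_le_one_iff]
    exact (PowerSeries.coeff (p * q * n) (∏ ik, D ik)).2
  set R' := liftSer O R hRint with hR'
  have hR'exp : PowerSeries.expand (p * q) hh R' = ∏ ik, D ik := by
    have hinj : Function.Injective (PowerSeries.map O.toSubring.subtype) := fun A B h ↦ by
      ext n
      exact congrArg (PowerSeries.coeff n) h
    apply hinj
    rw [PowerSeries.map_expand, hR', map_liftSer, hRexp, hprod]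
  have hdvd : PowerSeries.X ^ (p * q * (p + 1)) ∣ red (∏ ik, D ik) := by
    rw [map_prod, Fintype.prod_prod_type]
    have e : (PowerSeries.X : PowerSeries (O.toSubring ⧸ maxI O)) ^ (p * q * (p + 1))
        = ∏ _i : Option (ZMod p), PowerSeries.X ^ (p * q) := by
      rw [Finset.prod_const, Finset.card_univ, Fintype.card_option, ZMod.card, ← pow_mul]
    rw [e]
    exact Finset.prod_dvd_prod_of_dvd _ _ fun i _ ↦
      (PowerSeries.X_pow_dvd_iff.mpr fun n hn ↦ (hred0 (i, none) n).mpr (hsmall i n hn)).trans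
        (Finset.dvd_prod_of_mem _ (Finset.mem_univ none))
  have hlow : ∀ n, n ≤ 2 * N / 12 → PowerSeries.coeff n R' ∈ maxI O := by
    intro n hn
    have hn' : n < p + 1 := by
      have hq4 : q + 1 ≤ 4 := by omega
      have : N ≤ (p + 1) * 4 := Nat.mul_le_mul_left _ hq4
      omega
    have h0 : PowerSeries.coeff (p * q * n) (red (∏ ik, D ik)) = 0 :=
      PowerSeries.X_pow_dvd_iff.mp hdvd _ (Nat.mul_lt_mul_of_pos_left hn' hhpos)
    rw [← hR'exp, hred, PowerSeries.map_expand, PowerSeries.coeff_expand_mul,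
      PowerSeries.coeff_map, Ideal.Quotient.eq_zero_iff_mem] at h0
    exact h0
  have hfin := levelOne_sturm_mod (maxI O) (2 * N) (mkLevelOne P hinv hhol (hPexp.bounded hhpos))
    R' (by rw [coe_mkLevelOne, hR.qExpansion_eq hhol, hR', map_liftSer]) hlow
  have : IsDomain (O.toSubring ⧸ maxI O) := Ideal.Quotient.isDomain _
  have hprod0 : red (∏ ik, D ik) = 0 := by
    rw [← hR'exp, hred, PowerSeries.map_expand, hfin, map_zero]
  rw [map_prod, Finset.prod_eq_zero_iff] at hprod0
  obtain ⟨ik, -, hik⟩ := hprod0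
  obtain ⟨n, hn⟩ := hne ik
  exact (not_lt.mpr hn) ((hred0 ik n).mp (by rw [hik, map_zero]))

/-- The higher coefficients of the normalised `G` at both cusps, when those of `G` are small. -/
private lemma valuation_coeff_normalised_lt (G : ModularForm (Gamma0 p) 2) (u : ℂ)
    (hpinv : O.valuation (p : ℂ) = 1) (hG : ∀ n, n ≠ 0 → O.valuation (qCoeff G n * u) < 1)
    {n : ℕ} (hn : n ≠ 0) :
    O.valuation (PowerSeries.coeff n (u • serOf G)) < 1 ∧
      O.valuation (PowerSeries.coeff n (u • (-(p : ℂ)⁻¹ • serU' p G))) < 1 := by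
  refine ⟨?_, ?_⟩
  · convert! hG n hn using 2
    simp [serOf]; ring
  · have := hG (n * p) (mul_ne_zero hn prime_ne_zero')
    simp only [map_smul, serU', PowerSeries.coeff_mk, smul_eq_mul, map_mul,
      map_inv₀, Valuation.map_neg, hpinv, inv_one, one_mul] at this ⊢
    rwa [mul_comm]

/-- The higher coefficients of the Eisenstein series divided by `-24`, at both cusps. -/
private lemma coeff_scaled_eisForm {n : ℕ} (hn : n ≠ 0) :
    PowerSeries.coeff n (-(24 : ℂ)⁻¹ • serOf (eisForm (p := q))) = -(eisSum q n : ℂ) ∧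
      PowerSeries.coeff n (-(24 : ℂ)⁻¹ • (-(q : ℂ)⁻¹ • serU' q (eisForm (p := q))))
        = (q : ℂ)⁻¹ * (eisSum q n : ℂ) := by
  have hq0 : q ≠ 0 := prime_ne_zero'
  refine ⟨by simp [serOf, qCoeff_eisForm, hn], ?_⟩
  simp [serU', qCoeff_eisForm, hn, hq0, eisSum_mul_self]
  ring

/-- The first higher coefficient at infinity of the Eisenstein part is `-1`. -/
private lemma coeff_mul_cuspSer_eisForm (Y₁ : PowerSeries ℂ) :
    PowerSeries.coeff (p * q) (cuspSer q p (-(24 : ℂ)⁻¹ • serOf (eisForm (p := q))) Y₁ none)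
      = -1 := by
  have hq' := PowerSeries.coeff_expand_mul q prime_ne_zero'
    (-(24 : ℂ)⁻¹ • serOf (eisForm (p := q))) 1
  rw [mul_one] at hq'
  rw [cuspSer, PowerSeries.coeff_expand_mul, hq', (coeff_scaled_eisForm one_ne_zero).1,
    eisSum_one (Fact.out : q.Prime).ne_one, Nat.cast_one]

/-- Main contradiction: `G / a₀ ≡ 1` modulo `ℓ` times `c = 24/(q-1)` is impossible. -/
theorem no_congruent_one (hq : q ≤ 3) (G : ModularForm (Gamma0 p) 2)
    (ha0 : qCoeff G 0 ≠ 0)
    (hpinv : O.valuation (p : ℂ) = 1) (hqinv : O.valuation (q : ℂ) = 1)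
    (hG : ∀ n, n ≠ 0 → O.valuation (qCoeff G n * ((q : ℂ) - 1) / (24 * qCoeff G 0)) < 1)
    (hp1 : O.valuation (((p : ℂ) + 1) * ((q : ℂ) - 1) / (24 * p)) < 1)
    (hq1 : O.valuation (((q : ℂ) + 1) * ((q : ℂ) - 1) / (24 * q)) = 1) : False := by
  have hp0 : p ≠ 0 := prime_ne_zero'
  have hq0 : q ≠ 0 := prime_ne_zero'
  have hpC : (p : ℂ) ≠ 0 := by exact_mod_cast hp0
  have hqC : (q : ℂ) ≠ 0 := by exact_mod_cast hq0
  set u : ℂ := ((q : ℂ) - 1) / (24 * qCoeff G 0) with hu
  set v : ℂ := -(24 : ℂ)⁻¹ with hv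
  set H := eisForm (p := q)
  set X₀ : PowerSeries ℂ := u • serOf G with hX₀
  set X₁ : PowerSeries ℂ := u • (-(p : ℂ)⁻¹ • serU' p G) with hX₁
  set Y₀ : PowerSeries ℂ := v • serOf H with hY₀
  set Y₁ : PowerSeries ℂ := v • (-(q : ℂ)⁻¹ • serU' q H) with hY₁
  set e₀ : ℂ := ((q : ℂ) - 1) / 24 with he₀
  set c₁ : ℂ := ((q : ℂ) + 1) * ((q : ℂ) - 1) / (24 * q)
  -- the higher coefficients
  have hnat : ∀ m : ℕ, O.valuation (m : ℂ) ≤ 1 := fun m ↦
    (O.valuation_le_one_iff _).mpr (natCast_mem O m)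
  have hX : ∀ n, n ≠ 0 → _ := fun n hn ↦ valuation_coeff_normalised_lt G u hpinv
    (fun m hm ↦ by rw [hu, mul_div_assoc']; exact hG m hm) hn
  have hZn := coeff_cuspSer_mem (p := p) (q := q) (P := (· < 1)) zero_lt_one
    (fun n hn ↦ (hX n hn).1) (fun n hn ↦ (hX n hn).2)
  have hWn := coeff_cuspSer_mem (O := O) (p := q) (q := p) (P := (· ≤ 1)) (X₀ := Y₀) (X₁ := Y₁)
    zero_le_one
    (fun n hn ↦ by rw [(coeff_scaled_eisForm hn).1, Valuation.map_neg]; exact hnat _)
    (fun n hn ↦ by
      rw [(coeff_scaled_eisForm hn).2, map_mul, map_inv₀, hqinv, inv_one, one_mul]; exact hnat _)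
  -- the constant terms
  have hZ₀ : ∀ i, O.valuation (PowerSeries.coeff 0 (cuspSer p q X₀ X₁ i) - e₀) < 1 := by
    rintro (_ | j)
    · rw [coeff_zero_cuspSer_none, show PowerSeries.coeff 0 X₀ = e₀ by
        simp [hX₀, hu, serOf, he₀]; field_simp, sub_self, map_zero]
      exact zero_lt_one
    · rw [coeff_zero_cuspSer_some, show PowerSeries.coeff 0 X₁
          = e₀ - ((p : ℂ) + 1) * ((q : ℂ) - 1) / (24 * p) by
        simp [hX₁, hu, serU', he₀]; field_simp; ring, sub_sub_cancel_left, Valuation.map_neg]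
      exact hp1
  have hW₀ : PowerSeries.coeff 0 (cuspSer q p Y₀ Y₁ none) = -e₀ := by
    rw [coeff_zero_cuspSer_none]
    simp [hY₀, hv, serOf, H, qCoeff_eisForm, he₀]; ring
  have hW₁ : ∀ (j : ZMod q) (z : ℂ),
      z + PowerSeries.coeff 0 (cuspSer q p Y₀ Y₁ (some j)) = (z - e₀) + c₁ := fun j z ↦ by
    rw [coeff_zero_cuspSer_some]
    simp [hY₁, hv, serU', H, qCoeff_eisForm, he₀, c₁]; field_simp; ring
  obtain ⟨⟨i, k⟩, h⟩ := exists_diffSer_congr_zero (O := O) hq G H u v (fun ⟨i, k⟩ n ↦ by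
      rw [diffSer, map_add]
      rcases eq_or_ne n 0 with rfl | hn
      · rcases k with _ | j
        · rw [hW₀, ← sub_eq_add_neg]; exact (hZ₀ i).le
        · rw [hW₁]; exact O.valuation.map_add_le (hZ₀ i).le hq1.le
      · exact O.valuation.map_add_le (hZn i hn).le (hWn k hn))
    fun i n hn ↦ by
      rw [diffSer, map_add]
      rcases eq_or_ne n 0 with rfl | hn0
      · rw [hW₀, ← sub_eq_add_neg]; exact hZ₀ i
      · rw [coeff_cuspSer_none_of_lt _ _ hn0 hn, add_zero]; exact hZn i hn0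
  -- but the coefficient at `p q`, resp. `0`, is a unit
  rcases k with _ | j
  · have h2 := h (p * q)
    rw [diffSer, map_add, coeff_mul_cuspSer_eisForm, Valuation.map_add_eq_of_lt_right _ (by
      rw [Valuation.map_neg, map_one]; exact hZn i (mul_ne_zero hp0 hq0)), Valuation.map_neg,
      map_one] at h2
    exact lt_irrefl _ h2
  · have h2 := h 0
    rw [diffSer, map_add, hW₁,
      Valuation.map_add_eq_of_lt_right _ (by rw [hq1]; exact hZ₀ i), hq1] at h2
    exact lt_irrefl _ h2

end FLTAgent.Eisenstein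

end
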