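import Mathlib.NumberTheory.ModularForms.QExpansion
import Mathlib.RingTheory.PowerSeries.Expand
import Mathlib.Analysis.Normed.Ring.InfiniteSum
import Mathlib.Analysis.Normed.Module.FiniteDimension
import Mathlib.Analysis.Complex.UpperHalfPlane.Manifold

/-!
# Functions on the upper half plane given by `q`-series

`HasQExp h f P` says that `f` is the sum of the power series `P` in the parameter
`exp (2 π i τ / h)`, everywhere on the upper half plane.  The predicate is stable under the ring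
operations and changes of variable, determines `P` (`unique`), and agrees with `qExpansion`.
-/

set_option autoImplicit false

open scoped Topology Real MatrixGroups ModularForm Manifold
open UpperHalfPlane hiding I
open Complex Filter Function

noncomputable section

namespace FLTAgent.Eisenstein

/-- The parameter `exp (2 π i τ / h)`. -/
def qh (h : ℕ) (τ : ℍ) : ℂ := Periodic.qParam (h : ℝ) (τ : ℂ)

/-- `f τ = ∑ P_m exp (2 π i m τ / h)` everywhere. -/
def HasQExp (h : ℕ) (f : ℍ → ℂ) (P : PowerSeries ℂ) : Prop :=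
  ∀ τ : ℍ, HasSum (fun m : ℕ ↦ PowerSeries.coeff m P * qh h τ ^ m) (f τ)

namespace HasQExp

variable {h : ℕ} {f g : ℍ → ℂ} {P Q : PowerSeries ℂ}

lemma zero : HasQExp h 0 0 := fun τ ↦ by simp

lemma add (hf : HasQExp h f P) (hg : HasQExp h g Q) : HasQExp h (f + g) (P + Q) := fun τ ↦ by
  simpa [add_mul] using (hf τ).add (hg τ)

lemma neg (hf : HasQExp h f P) : HasQExp h (-f) (-P) := fun τ ↦ by
  simpa using (hf τ).neg

lemma sub (hf : HasQExp h f P) (hg : HasQExp h g Q) : HasQExp h (f - g) (P - Q) := by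
  simpa [sub_eq_add_neg] using hf.add hg.neg

lemma smul (c : ℂ) (hf : HasQExp h f P) : HasQExp h (c • f) (c • P) := fun τ ↦ by
  simpa [mul_assoc] using (hf τ).mul_left c

lemma sum {ι : Type*} (s : Finset ι) {F : ι → ℍ → ℂ} {R : ι → PowerSeries ℂ}
    (hF : ∀ i ∈ s, HasQExp h (F i) (R i)) : HasQExp h (∑ i ∈ s, F i) (∑ i ∈ s, R i) := by
  classical
  induction s using Finset.induction_on with
  | empty => simpa using zero
  | insert i t hi ih =>
    rw [Finset.sum_insert hi, Finset.sum_insert hi]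
    exact (hF i (Finset.mem_insert_self i t)).add
      (ih fun j hj ↦ hF j (Finset.mem_insert_of_mem hj))

lemma const (c : ℂ) : HasQExp h (fun _ ↦ c) (PowerSeries.C c) := fun τ ↦ by
  have := hasSum_single (f := fun m : ℕ ↦ PowerSeries.coeff m (PowerSeries.C c) * qh h τ ^ m) 0
    (fun m hm ↦ by simp [PowerSeries.coeff_C, hm])
  simpa using this

lemma one : HasQExp h 1 1 := by
  have h1 := HasQExp.const (h := h) 1
  rw [map_one] at h1
  exact h1

lemma mul (hf : HasQExp h f P) (hg : HasQExp h g Q) : HasQExp h (f * g) (P * Q) := fun τ ↦ by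
  have h1 := summable_norm_iff.mpr (hf τ).summable
  have h2 := summable_norm_iff.mpr (hg τ).summable
  have h3 := summable_norm_sum_mul_antidiagonal_of_summable_norm h1 h2
  have h4 := tsum_mul_tsum_eq_tsum_sum_antidiagonal_of_summable_norm h1 h2
  rw [(hf τ).tsum_eq, (hg τ).tsum_eq] at h4
  have h5 := (summable_norm_iff.mp h3).hasSum
  rw [← h4] at h5
  refine h5.congr_fun fun m ↦ ?_
  rw [PowerSeries.coeff_mul, Finset.sum_mul]
  refine Finset.sum_congr rfl fun ij hij ↦ ?_
  rw [← Finset.mem_antidiagonal.mp hij, pow_add]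
  ring

lemma prod {ι : Type*} (s : Finset ι) {F : ι → ℍ → ℂ} {R : ι → PowerSeries ℂ}
    (hF : ∀ i ∈ s, HasQExp h (F i) (R i)) : HasQExp h (∏ i ∈ s, F i) (∏ i ∈ s, R i) := by
  classical
  induction s using Finset.induction_on with
  | empty => simpa using one
  | insert i t hi ih =>
    rw [Finset.prod_insert hi, Finset.prod_insert hi]
    exact (hF i (Finset.mem_insert_self i t)).mul
      (ih fun j hj ↦ hF j (Finset.mem_insert_of_mem hj))

lemma congr_fun' (hf : HasQExp h f P) (e : ∀ τ, g τ = f τ) : HasQExp h g P := by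
  rw [show g = f from funext e]; exact hf

lemma bounded (hh : 0 < h) (hf : HasQExp h f P) : IsBoundedAtImInfty f :=
  isBoundedAtImInfty_of_hasSum_qExpansion (h := (h : ℝ)) (c := fun m ↦ PowerSeries.coeff m P)
    (by exact_mod_cast hh) hf

lemma eq_zero (hh : 0 < h) (hf : HasQExp h (0 : ℍ → ℂ) P) : P = 0 := by
  have hh' : (0 : ℝ) < h := by exact_mod_cast hh
  have hper : Periodic ((0 : ℍ → ℂ) ∘ ofComplex) (h : ℝ) := fun w ↦ rfl
  have han : AnalyticAt ℂ (cuspFunction (h : ℝ) (0 : ℍ → ℂ)) 0 :=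
    analyticAt_cuspFunction_zero hh' hper mdifferentiable_const (hf.bounded hh)
  have h1 := (hasFPowerSeriesOnBall_cuspFunction hh' han hf).hasFPowerSeriesAt
  have h0 : cuspFunction (h : ℝ) (0 : ℍ → ℂ) = fun _ ↦ (0 : ℂ) := by
    ext q
    rcases eq_or_ne q 0 with rfl | hq
    · rw [cuspFunction_apply_zero hh' han hper]
      exact tendsto_const_nhds.limUnder_eq
    · simp [cuspFunction, Periodic.cuspFunction_eq_of_nonzero _ _ hq]
  rw [h0] at h1
  have h2 := h1.eq_zero
  ext m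
  have h3 := congrArg (fun s : FormalMultilinearSeries ℂ ℂ ℂ ↦ s.coeff m) h2
  simp only [FormalMultilinearSeries.coeff_ofScalars] at h3
  rw [h3]
  simp [FormalMultilinearSeries.coeff]

lemma unique (hh : 0 < h) (hP : HasQExp h f P) (hQ : HasQExp h f Q) : P = Q := by
  have := hP.sub hQ
  rw [sub_self] at this
  exact sub_eq_zero.mp (this.eq_zero hh)

/-- Refining the parameter: `q_h = q_{hd}^d`. -/
lemma expand (d : ℕ) (hd : d ≠ 0) (hh : h ≠ 0) (hf : HasQExp h f P) :
    HasQExp (h * d) f (PowerSeries.expand d hd P) := fun τ ↦ by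
  have hq : ∀ m : ℕ, qh (h * d) τ ^ (d * m) = qh h τ ^ m := fun m ↦ by
    rw [pow_mul]
    congr 1
    rw [qh, qh, Periodic.qParam, Periodic.qParam, ← exp_nat_mul]
    congr 1
    push_cast
    have : (d : ℂ) ≠ 0 := by exact_mod_cast hd
    have : (h : ℂ) ≠ 0 := by exact_mod_cast hh
    field_simp
  have hinj : Injective fun m : ℕ ↦ d * m := mul_right_injective₀ hd
  refine (hinj.hasSum_iff ?_).mp ((hf τ).congr_fun fun m ↦ ?_)
  · intro m hm
    rw [PowerSeries.coeff_expand_of_not_dvd, zero_mul]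
    rintro ⟨c, rfl⟩
    exact hm ⟨c, rfl⟩
  · simp [hq]

/-- The function `f (d τ)`. -/
lemma comp_mul (d : ℕ) (hd : d ≠ 0) (hf : HasQExp 1 f P) {g : ℍ → ℂ}
    (hg : ∀ τ : ℍ, ∃ σ : ℍ, (σ : ℂ) = d * (τ : ℂ) ∧ g τ = f σ) :
    HasQExp 1 g (PowerSeries.expand d hd P) := fun τ ↦ by
  obtain ⟨σ, hσ, hgσ⟩ := hg τ
  have hq : ∀ m : ℕ, qh 1 τ ^ (d * m) = qh 1 σ ^ m := fun m ↦ by
    rw [pow_mul]
    congr 1
    rw [qh, qh, Periodic.qParam, Periodic.qParam, ← exp_nat_mul, hσ]
    congr 1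
    push_cast
    ring
  have hinj : Injective fun m : ℕ ↦ d * m := mul_right_injective₀ hd
  rw [hgσ]
  refine (hinj.hasSum_iff ?_).mp ((hf σ).congr_fun fun m ↦ ?_)
  · intro m hm
    rw [PowerSeries.coeff_expand_of_not_dvd, zero_mul]
    rintro ⟨c, rfl⟩
    exact hm ⟨c, rfl⟩
  · simp [hq]

/-- The function `f (τ / d)`, in the parameter of period `d`. -/
lemma comp_div (d : ℕ) (hd : d ≠ 0) (hf : HasQExp 1 f P) {g : ℍ → ℂ}
    (hg : ∀ τ : ℍ, ∃ σ : ℍ, (σ : ℂ) = (τ : ℂ) / d ∧ g τ = f σ) :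
    HasQExp d g P := fun τ ↦ by
  obtain ⟨σ, hσ, hgσ⟩ := hg τ
  rw [hgσ]
  refine (hf σ).congr_fun fun m ↦ ?_
  congr 2
  rw [qh, qh, Periodic.qParam, Periodic.qParam, hσ]
  congr 1
  have : (d : ℂ) ≠ 0 := by exact_mod_cast hd
  push_cast
  field_simp

/-- Translation by a natural number. -/
lemma vadd (j : ℕ) (hh : h ≠ 0) (hf : HasQExp h f P) :
    HasQExp h (fun τ ↦ f ((j : ℝ) +ᵥ τ))
      (PowerSeries.rescale (Complex.exp (2 * π * Complex.I * j / h)) P) := fun τ ↦ by
  refine (hf ((j : ℝ) +ᵥ τ)).congr_fun fun m ↦ ?_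
  rw [PowerSeries.coeff_rescale]
  have : qh h ((j : ℝ) +ᵥ τ) = Complex.exp (2 * π * Complex.I * j / h) * qh h τ := by
    rw [qh, qh, Periodic.qParam, Periodic.qParam, ← exp_add]
    congr 1
    have : (h : ℂ) ≠ 0 := by exact_mod_cast hh
    rw [coe_vadd]
    push_cast
    field_simp
  rw [this, mul_pow]
  ring

end HasQExp

/-- A holomorphic, bounded and periodic function has a `q`-series. -/
lemma exists_hasQExp {h : ℕ} (hh : 0 < h) {f : ℍ → ℂ} (hper : ∀ τ : ℍ, f ((h : ℝ) +ᵥ τ) = f τ)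
    (hhol : MDiff f) (hbdd : IsBoundedAtImInfty f) : ∃ P, HasQExp h f P := by
  refine ⟨qExpansion (h : ℝ) f, fun τ ↦ ?_⟩
  have hper' : Periodic (f ∘ ofComplex) ((h : ℝ) : ℂ) := by
    intro w
    by_cases hw : 0 < w.im
    · have hw' : 0 < (w + ((h : ℝ) : ℂ)).im := by simpa using hw
      simp only [comp_apply, ofComplex_apply_of_im_pos hw, ofComplex_apply_of_im_pos hw']
      rw [← hper ⟨w, hw⟩]
      congr 1
      ext
      simp [add_comm]
    · have hw' : (w + ((h : ℝ) : ℂ)).im ≤ 0 := by simpa using not_lt.mp hw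
      simp only [comp_apply, ofComplex_apply_of_im_nonpos hw',
        ofComplex_apply_of_im_nonpos (not_lt.mp hw)]
  simpa [qh] using hasSum_qExpansion (by exact_mod_cast hh) hper' hhol hbdd τ

/-- The period-1 `q`-series of a modular form. -/
lemma hasQExp_qExpansion {Γ : Subgroup (GL (Fin 2) ℝ)} {k : ℤ} {F : Type*} [FunLike F ℍ ℂ]
    [ModularFormClass F Γ k] [Fact (IsCusp OnePoint.infty Γ)] (f : F)
    (hΓ : (1 : ℝ) ∈ Γ.strictPeriods) :
    HasQExp 1 (⇑f) (qExpansion 1 f) := fun τ ↦ by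
  simpa [qh] using ModularForm.hasSum_qExpansion f one_pos hΓ τ

lemma HasQExp.qExpansion_eq {f : ℍ → ℂ} {P : PowerSeries ℂ} (hf : HasQExp 1 f P)
    (hhol : MDiff f) : qExpansion 1 f = P := by
  have hper : Periodic (f ∘ ofComplex) ((1 : ℝ) : ℂ) := by
    intro w
    by_cases hw : 0 < w.im
    · have hw' : 0 < (w + ((1 : ℝ) : ℂ)).im := by simpa using hw
      simp only [comp_apply, ofComplex_apply_of_im_pos hw, ofComplex_apply_of_im_pos hw']
      refine (hf ⟨_, hw'⟩).unique ?_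
      refine (hf ⟨w, hw⟩).congr_fun fun m ↦ ?_
      congr 2
      simp only [qh, Periodic.qParam, Nat.cast_one, ofReal_one, div_one]
      rw [mul_add, mul_one, exp_add, exp_two_pi_mul_I, mul_one]
    · have hw' : (w + ((1 : ℝ) : ℂ)).im ≤ 0 := by simpa using not_lt.mp hw
      simp only [comp_apply, ofComplex_apply_of_im_nonpos hw',
        ofComplex_apply_of_im_nonpos (not_lt.mp hw)]
  have hq : HasQExp 1 f (qExpansion 1 f) := fun τ ↦ by
    simpa [qh] using hasSum_qExpansion one_pos hper hhol (hf.bounded one_pos) τ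
  exact hq.unique one_pos hf

end FLTAgent.Eisenstein

end

namespace FLTAgent.Eisenstein.HasQExp

open UpperHalfPlane hiding I
open Complex Filter

variable {h : ℕ} {f g : ℍ → ℂ} {P : PowerSeries ℂ}

/-- A `q`-series without constant term vanishes at infinity. -/
lemma zero_at (hh : 0 < h) (hf : HasQExp h f P) (h0 : PowerSeries.constantCoeff P = 0) :
    IsZeroAtImInfty f := by
  obtain ⟨R, rfl⟩ := PowerSeries.X_dvd_iff.mpr h0
  set g' : ℍ → ℂ := fun τ ↦ f τ / qh h τ
  have hne : ∀ τ, qh h τ ≠ 0 := fun τ ↦ Function.Periodic.qParam_ne_zero _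
  have hg' : HasQExp h g' R := fun τ ↦ by
    have h1 : HasSum (fun m ↦ PowerSeries.coeff (m + 1) (PowerSeries.X * R) * qh h τ ^ (m + 1))
        (f τ) := by
      simpa using (hasSum_nat_add_iff' 1).mpr (hf τ)
    refine (h1.div_const (qh h τ)).congr_fun fun m ↦ ?_
    rw [PowerSeries.coeff_succ_X_mul, pow_succ]
    field_simp [hne τ]
  have hb := hg'.bounded hh
  have hz : IsZeroAtImInfty fun τ : ℍ ↦ qh h τ :=
    qParam_tendsto_atImInfty (by exact_mod_cast hh)
  have h2 : (fun τ : ℍ ↦ qh h τ * g' τ) =o[atImInfty] fun _ ↦ ((1 : ℝ) * 1) :=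
    ((Asymptotics.isLittleO_one_iff ℝ).mpr hz).mul_isBigO hb
  simp only [mul_one] at h2
  refine ((Asymptotics.isLittleO_one_iff ℝ).mp h2).congr fun τ ↦ ?_
  simp only [g']
  rw [mul_div_cancel₀ _ (hne τ)]

end FLTAgent.Eisenstein.HasQExp
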