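import Fermat.Agent.Eisenstein.ThetaQ
import Fermat.Agent.Eisenstein.EisensteinTwo
import Mathlib.NumberTheory.LSeries.PrimesInAP
import Mathlib.NumberTheory.LegendreSymbol.QuadraticReciprocity
import Mathlib.NumberTheory.ModularForms.BoundedAtCusp

/-!
# A weight two form on `Γ₀(p)` with constant term `1/2` and integral higher coefficients

It is the trace to level `p` of `θ(τ) θ(pτ)`, where `θ` is the theta series of discriminant `-q`
for an auxiliary prime `q ≡ 3 (mod 4)` with `p` a non-residue modulo `q`, divided by four.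
-/

set_option autoImplicit false

open scoped Real MatrixGroups ModularForm Manifold
open UpperHalfPlane hiding I
open Complex CongruenceSubgroup ModularGroup
open Matrix.SpecialLinearGroup (mapGL)

noncomputable section

namespace FLTAgent.Eisenstein

lemma exists_aux_prime {p : ℕ} [Fact p.Prime] (hp2 : p ≠ 2) :
    ∃ (q : ℕ) (_ : Fact q.Prime), q % 4 = 3 ∧ q ≠ p ∧ legendreSym q p = -1 := by
  have hp : p.Prime := Fact.out
  have hodd : p % 2 = 1 := hp.eq_two_or_odd.resolve_left hp2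
  obtain ⟨r, hr0, hr⟩ : ∃ r : ℕ, (r : ZMod p) ≠ 0 ∧
      quadraticChar (ZMod p) (r : ZMod p) = if p % 4 = 1 then -1 else 1 := by
    split_ifs with h
    · obtain ⟨a, ha⟩ := quadraticChar_exists_neg_one (F := ZMod p) (by rwa [ZMod.ringChar_zmod_n])
      refine ⟨a.val, ?_, by rwa [ZMod.natCast_zmod_val]⟩
      rw [ZMod.natCast_zmod_val]
      rintro rfl
      simp at ha
    · exact ⟨1, by simp, by simp⟩
  have hco : Nat.Coprime p 4 :=
    Nat.Coprime.pow_right 2 ((Nat.coprime_primes hp Nat.prime_two).mpr hp2)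
  obtain ⟨k, hk1, hk2⟩ := Nat.chineseRemainder hco r 3
  have hk4 : k % 4 = 3 := hk2
  have hkp : (k : ZMod p) = r := (ZMod.natCast_eq_natCast_iff k r p).mpr hk1
  have hcop : k.Coprime (p * 4) := by
    refine Nat.Coprime.mul_right ?_ ?_
    · refine ((hp.coprime_iff_not_dvd).mpr fun h ↦ hr0 ?_).symm
      rw [← hkp]
      exact (CharP.cast_eq_zero_iff (ZMod p) p k).mpr h
    · rw [show 4 = 2 ^ 2 by norm_num]
      exact Nat.Coprime.pow_right 2 ((Nat.prime_two.coprime_iff_not_dvd).mpr (by omega)).symm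
  obtain ⟨q, hgt, hq, hmod⟩ := Nat.forall_exists_prime_gt_and_modEq p
    (Nat.mul_ne_zero hp.ne_zero (by norm_num) : p * 4 ≠ 0) hcop
  have hq4 : q % 4 = 3 := by
    have : q % 4 = k % 4 := hmod.of_mul_left p
    omega
  have := Fact.mk hq
  refine ⟨q, this, hq4, hgt.ne', ?_⟩
  have hqp : (q : ZMod p) = r := by
    rw [← hkp]; exact (ZMod.natCast_eq_natCast_iff q k p).mpr (hmod.of_mul_right 4)
  have hl : legendreSym p q = if p % 4 = 1 then -1 else 1 := by
    rw [legendreSym, Int.cast_natCast, hqp, hr]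
  have hq2 : q ≠ 2 := by omega
  by_cases h : p % 4 = 1
  · rw [if_pos h] at hl
    rw [legendreSym.quadratic_reciprocity_one_mod_four h hq2, hl]
  · rw [if_neg h] at hl
    rw [legendreSym.quadratic_reciprocity_three_mod_four (by omega) hq4, hl]

lemma sum_range_two_mul {M : Type*} [AddCommMonoid M] (F : ℕ → M) (n : ℕ) :
    ∑ r ∈ Finset.range (2 * n), F r = ∑ j ∈ Finset.range n, (F (2 * j) + F (2 * j + 1)) := by
  induction n with
  | zero => simp
  | succ n ih =>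
    rw [show 2 * (n + 1) = 2 * n + 1 + 1 by ring, Finset.sum_range_succ, Finset.sum_range_succ, ih,
      Finset.sum_range_succ (fun j ↦ F (2 * j) + F (2 * j + 1)), add_assoc]

lemma thetaShift_resum (N : ℕ) (hN : N ≠ 0) (s : ℂ) {τ : ℂ} (hτ : 0 < τ.im) :
    ∑ j : Fin N, thetaShift ((((j : ℕ) : ℂ) + s) / N) (N ^ 2 * τ) = thetaShift s τ := by
  have := NeZero.mk hN
  have hNC : (N : ℂ) ≠ 0 := Nat.cast_ne_zero.mpr hN
  have hNτ : 0 < ((N : ℂ) ^ 2 * τ).im := by
    rw [show (N : ℂ) ^ 2 = (((N : ℝ) ^ 2 : ℝ) : ℂ) by push_cast; rfl, Complex.im_ofReal_mul]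
    exact mul_pos (pow_pos (by exact_mod_cast Nat.pos_of_ne_zero hN) 2) hτ
  let e : Fin N × ℤ ≃ ℤ := (Equiv.prodComm _ _).trans (Int.divModEquiv N).symm
  have h := e.hasSum_iff.mpr (hasSum_thetaShift s hτ)
  have hf : ∀ j : Fin N, HasSum
      (fun m : ℤ ↦ ((fun n : ℤ ↦ cexp (π * I * τ * (n + s) ^ 2)) ∘ e) (j, m))
      (thetaShift ((((j : ℕ) : ℂ) + s) / N) (N ^ 2 * τ)) := by
    intro j
    refine (hasSum_thetaShift _ hNτ).congr_fun fun m ↦ ?_
    have he : ((e (j, m) : ℤ) : ℂ) = ((j : ℕ) : ℂ) + m * N := by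
      simp [e, Int.divModEquiv]
      ring
    rw [Function.comp_apply, he]
    congr 1
    field_simp
    ring
  exact ((h.prod_fiberwise hf).unique (hasSum_fintype _)).symm

lemma norm_thetaShift_le (x : ℝ) {τ : ℂ} (hτ : 1 ≤ τ.im) :
    ‖thetaShift x τ‖ ≤ ∑' n : ℤ, ‖cexp (π * I * I * (n + (x : ℂ)) ^ 2)‖ := by
  have hI : (0 : ℝ) < I.im := by simp
  have hle : ∀ n : ℤ, ‖cexp (π * I * τ * (n + (x : ℂ)) ^ 2)‖
      ≤ ‖cexp (π * I * I * (n + (x : ℂ)) ^ 2)‖ := by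
    intro n
    rw [Complex.norm_exp, Complex.norm_exp, Real.exp_le_exp,
      show ((n : ℂ) + (x : ℂ)) ^ 2 = ((((n : ℝ) + x) ^ 2 : ℝ) : ℂ) by push_cast; rfl]
    simp only [mul_re, mul_im, ofReal_re, ofReal_im, Complex.I_re, Complex.I_im, mul_zero, mul_one,
      zero_mul,
      sub_zero, add_zero, zero_sub, zero_add]
    have h1 : 0 ≤ π * ((n : ℝ) + x) ^ 2 := mul_nonneg Real.pi_pos.le (sq_nonneg _)
    nlinarith
  rw [← (hasSum_thetaShift (x : ℂ) (by linarith : 0 < τ.im)).tsum_eq]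
  have hs := (hasSum_thetaShift (x : ℂ) (by linarith : 0 < τ.im)).summable.norm
  exact (norm_tsum_le_tsum_norm hs).trans
    (hs.tsum_le_tsum hle (hasSum_thetaShift (x : ℂ) hI).summable.norm)

lemma HasQExp.contract {q : ℕ} (hq : q ≠ 0) {g : ℍ → ℂ} {Q : PowerSeries ℂ}
    (h : HasQExp q g (PowerSeries.expand q hq Q)) : HasQExp 1 g Q := fun τ ↦ by
  have hinj : Function.Injective fun m : ℕ ↦ q * m := mul_right_injective₀ hq
  have h1 := (hinj.hasSum_iff (fun m hm ↦ ?_)).mpr (h τ)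
  · refine h1.congr_fun fun m ↦ ?_
    simp only [Function.comp_apply, PowerSeries.coeff_expand_mul, pow_mul]
    congr 2
    rw [qh, qh, Function.Periodic.qParam, Function.Periodic.qParam, ← exp_nat_mul]
    congr 1
    have : (q : ℂ) ≠ 0 := by exact_mod_cast hq
    push_cast
    field_simp
  · rw [PowerSeries.coeff_expand_of_not_dvd, zero_mul]
    rintro ⟨c, rfl⟩
    exact hm ⟨c, rfl⟩

lemma hasQExp_heckeU_of_hasQExp {q : ℕ} [Fact q.Prime] {f : ℍ → ℂ} {P : PowerSeries ℂ}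
    (hf : HasQExp 1 f P) :
    HasQExp 1 (ModularForm.heckeU 2 q f)
      (PowerSeries.mk fun n ↦ PowerSeries.coeff (n * q) P) := by
  have hq : q ≠ 0 := prime_ne_zero'
  have hqC : (q : ℂ) ≠ 0 := Nat.cast_ne_zero.mpr hq
  have hdiv : ∀ τ : ℍ, 0 < ((τ : ℂ) / q).im := fun τ ↦ by
    rw [Complex.div_natCast_im]
    exact div_pos τ.im_pos (by exact_mod_cast Nat.pos_of_ne_zero hq)
  set g : ℍ → ℂ := fun τ ↦ (q : ℂ)⁻¹ * f ⟨(τ : ℂ) / q, hdiv τ⟩ with hg
  have hgq : HasQExp q g ((q : ℂ)⁻¹ • P) :=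
    HasQExp.comp_div q hq (hf.smul (q : ℂ)⁻¹) fun τ ↦ ⟨⟨(τ : ℂ) / q, hdiv τ⟩, rfl, by simp [hg]⟩
  have hU : ModularForm.heckeU 2 q f = ∑ j : ZMod q, fun τ ↦ g ((j.val : ℝ) +ᵥ τ) := by
    rw [sum_zmod_val fun j : ℕ ↦ fun τ : ℍ ↦ g ((j : ℝ) +ᵥ τ), ModularForm.heckeU_def]
    refine Finset.sum_congr rfl fun j _ ↦ funext fun τ ↦ ?_
    rw [ModularForm.slash_heckeMatrix_apply 2 hq, hg]
    congr 2
    ext
    rw [ModularForm.coe_heckeMatrix_smul hq]
    simp [UpperHalfPlane.coe_vadd, add_comm]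
  refine HasQExp.contract hq ?_
  rw [hU]
  convert HasQExp.sum Finset.univ fun j _ ↦ hgq.vadd (ZMod.val (n := q) j) hq using 1
  ext m
  rw [sum_rescale]
  split_ifs with h
  · obtain ⟨c, rfl⟩ := h
    rw [PowerSeries.coeff_expand_mul, PowerSeries.coeff_mk, map_smul, smul_eq_mul,
      mul_comm c q]
    field_simp
  · rw [PowerSeries.coeff_expand_of_not_dvd _ _ _ h]

/-- A function bounded at every cusp in weight `k`. -/
def BddCusps (f : ℍ → ℂ) (k : ℤ) : Prop :=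
  ∀ c : OnePoint ℝ, IsCusp c 𝒮ℒ → c.IsBoundedAt f k

lemma BddCusps.of_SL2 {f : ℍ → ℂ} {k : ℤ}
    (h : ∀ γ : SL(2, ℤ), IsBoundedAtImInfty (f ∣[k] γ)) : BddCusps f k := fun _ hc ↦
  (OnePoint.isBoundedAt_iff_forall_SL2Z hc).mpr fun γ _ ↦ h γ

lemma BddCusps.bounded_slash {f : ℍ → ℂ} {k : ℤ} (h : BddCusps f k) (γ : SL(2, ℤ)) :
    IsBoundedAtImInfty (f ∣[k] γ) :=
  (OnePoint.isBoundedAt_iff_forall_SL2Z (isCusp_SL2Z_iff'.mpr ⟨γ, rfl⟩)).mp
    (h _ (isCusp_SL2Z_iff'.mpr ⟨γ, rfl⟩)) γ rfl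

lemma BddCusps.slash_rat {f : ℍ → ℂ} {k : ℤ} (h : BddCusps f k) (g : GL (Fin 2) ℚ) :
    BddCusps (f ∣[k] Matrix.GeneralLinearGroup.map (Rat.castHom ℝ) g) k := by
  intro c hc
  refine OnePoint.IsBoundedAt.smul_iff.mp (h _ ?_)
  rw [isCusp_SL2Z_iff] at hc ⊢
  obtain ⟨c, rfl⟩ := hc
  exact ⟨g • c, by rw [← Rat.coe_castHom, OnePoint.map_smul]⟩

lemma heckeMatrix_eq_map {n : ℕ} (hn : n ≠ 0) (j : ℕ) : ∃ g : GL (Fin 2) ℚ,
    ModularForm.heckeMatrix n j = Matrix.GeneralLinearGroup.map (Rat.castHom ℝ) g := by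
  refine ⟨Matrix.GeneralLinearGroup.mkOfDetNeZero !![1, (j : ℚ); 0, n]
    (by simp [Matrix.det_fin_two_of, hn]), ?_⟩
  ext i k
  fin_cases i <;> fin_cases k <;>
    simp [ModularForm.val_heckeMatrix hn, Matrix.GeneralLinearGroup.mkOfDetNeZero]

lemma heckeDiagMatrix_eq_map {n : ℕ} (hn : n ≠ 0) : ∃ g : GL (Fin 2) ℚ,
    ModularForm.heckeDiagMatrix n = Matrix.GeneralLinearGroup.map (Rat.castHom ℝ) g := by
  refine ⟨Matrix.GeneralLinearGroup.mkOfDetNeZero !![(n : ℚ), 0; 0, 1]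
    (by simp [Matrix.det_fin_two_of, hn]), ?_⟩
  ext i k
  fin_cases i <;> fin_cases k <;>
    simp [ModularForm.val_heckeDiagMatrix hn, Matrix.GeneralLinearGroup.mkOfDetNeZero]

variable {q : ℕ} [Fact q.Prime]

lemma bounded_thetaV (v : ZMod q) : IsBoundedAtImInfty (thetaV q v) := by
  rw [isBoundedAtImInfty_iff]
  let B : ℝ → ℝ := fun x ↦ ∑' n : ℤ, ‖cexp (π * I * I * (n + (x : ℂ)) ^ 2)‖
  let b : ℕ → ℝ := fun r ↦ B ((r : ℝ) / (2 * q)) * B (((r % 2 : ℕ) : ℝ) / 2)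
  refine ⟨b v.val + b (v.val + q), 1, fun τ hτ ↦ ?_⟩
  have hb : ∀ r : ℕ, ‖thetaPiece q r τ‖ ≤ b r := by
    intro r
    rw [thetaPiece, norm_mul]
    have h1 := norm_thetaShift_le ((r : ℝ) / (2 * q)) (τ := 2 * q * (τ : ℂ)) (by
      have : (1 : ℝ) ≤ q := by exact_mod_cast (Fact.out : q.Prime).one_le
      rw [show 2 * (q : ℂ) = ((2 * q : ℝ) : ℂ) by push_cast; rfl, Complex.im_ofReal_mul]
      show 1 ≤ 2 * (q : ℝ) * τ.im
      nlinarith)
    have h2 := norm_thetaShift_le (((r % 2 : ℕ) : ℝ) / 2) (τ := 2 * (τ : ℂ)) (by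
      rw [show (2 : ℂ) = ((2 : ℝ) : ℂ) by norm_num, Complex.im_ofReal_mul]
      show 1 ≤ 2 * τ.im
      linarith)
    push_cast at h1 h2 ⊢
    refine mul_le_mul (h1.trans_eq (by simp [B])) (h2.trans_eq (by simp [B])) (norm_nonneg _)
      (tsum_nonneg fun n ↦ norm_nonneg _)
  exact (norm_add_le _ _).trans (add_le_add (hb _) (hb _))

lemma bounded_thetaImage (c d : ZMod q) : IsBoundedAtImInfty (thetaImage q c d) := by
  unfold thetaImage
  split_ifs
  · exact (bounded_thetaV 0).const_smul_left _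
  · exact Finset.sum_induction _ IsBoundedAtImInfty (fun f g hf hg ↦ hf.add hg)
      (Filter.const_boundedAtFilter _ (0 : ℂ)) fun v _ ↦ (bounded_thetaV v).const_smul_left _

lemma sum_thetaV (hq4 : q % 4 = 3) (σ ρ : ℍ) (h : (σ : ℂ) = q * (ρ : ℂ)) :
    ∑ v : ZMod q, thetaV q v σ = thetaV q 0 ρ := by
  have hqC : (q : ℂ) ≠ 0 := q_natCast_ne_zero
  have hq2 : q % 2 = 1 := by omega
  simp only [thetaV]
  rw [← sum_fin_two_mul fun r ↦ thetaPiece q r σ,
    Fin.sum_univ_eq_sum_range fun r ↦ thetaPiece q r σ,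
    sum_range_two_mul, Finset.sum_add_distrib, ZMod.val_zero, zero_add]
  have hρ : 0 < (2 * (ρ : ℂ)).im := by simpa using ρ.im_pos
  congr 1
  · rw [← Fin.sum_univ_eq_sum_range fun j ↦ thetaPiece q (2 * j) σ]
    simp only [thetaPiece, Nat.mul_mod_right, Nat.cast_zero, zero_div, h, Nat.zero_mod]
    rw [← Finset.sum_mul, show 2 * ((q : ℂ) * ρ) = 2 * q * ρ by ring, mul_comm (thetaShift 0 _)]
    congr 1
    rw [← thetaShift_resum q prime_ne_zero' 0 hρ]
    refine Finset.sum_congr rfl fun j _ ↦ ?_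
    congr 1
    · push_cast; field_simp; ring
    · ring
  · rw [← Fin.sum_univ_eq_sum_range fun j ↦ thetaPiece q (2 * j + 1) σ]
    simp only [thetaPiece, Nat.mul_add_mod, Nat.one_mod, hq2, h]
    rw [← Finset.sum_mul, show 2 * ((q : ℂ) * ρ) = 2 * q * ρ by ring,
      mul_comm (thetaShift ((q : ℂ) / (2 * q)) _)]
    rw [show ((q : ℂ) / (2 * q)) = (((1 : ℕ) : ℂ) / 2) by field_simp; simp]
    congr 1
    rw [← thetaShift_resum q prime_ne_zero' (((1 : ℕ) : ℂ) / 2) hρ]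
    refine Finset.sum_congr rfl fun j _ ↦ ?_
    congr 1
    · push_cast; field_simp
    · ring

variable {p : ℕ} [Fact p.Prime]

/-- `θ(τ) θ(pτ)`. -/
def thetaProd (p q : ℕ) : ℍ → ℂ :=
  thetaV q 0 * (thetaV q 0 ∣[(1 : ℤ)] ModularForm.heckeDiagMatrix p)

/-- The translates of `θ(τ) θ(pτ)` over the cosets. -/
def thetaFam (p q : ℕ) : Option (ZMod q) → ℍ → ℂ
  | none => thetaProd p q
  | some j => thetaProd p q ∣[(2 : ℤ)] ModularForm.heckeMatrix q j.val

lemma slash_diag_one (f : ℍ → ℂ) (τ : ℍ) :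
    (f ∣[(1 : ℤ)] ModularForm.heckeDiagMatrix p) τ = f (ModularForm.heckeDiagMatrix p • τ) := by
  rw [ModularForm.slash_heckeDiagMatrix_apply 1 prime_ne_zero']
  simp

lemma thetaImage_apply_of_ne (hq4 : q % 4 = 3) {c : ZMod q} (hc : c ≠ 0) (d : ZMod q) (n : ℤ)
    (hn : (n : ZMod q) = d / c) (σ : ℍ) :
    thetaImage q c d σ
      = thetaConst q * chiC c * ∑ v : ZMod q, thetaV q v ((n : ℝ) +ᵥ σ) := by
  rw [thetaImage, if_neg hc, Finset.sum_apply, Finset.mul_sum]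
  refine Finset.sum_congr rfl fun v _ ↦ ?_
  rw [Pi.smul_apply, smul_eq_mul, thetaV_add hq4, hn, mul_comm (d / c)]
  ring

lemma thetaProd_slash (hq4 : q % 4 = 3) (hχ : chiC (p : ZMod q) = -1) {δ : SL(2, ℤ)}
    (hδ : δ ∈ Gamma0 p) :
    thetaProd p q ∣[(2 : ℤ)] δ = thetaFam p q (cosetPoint (p := q) δ) := by
  obtain ⟨c, hc⟩ := (ZMod.intCast_zmod_eq_zero_iff_dvd _ _).mp (Gamma0_mem.mp hδ)
  obtain ⟨δ', ⟨h10, h11⟩, he⟩ := diag_mul (p := p) δ c hc
  have hp0 : (p : ZMod q) ≠ 0 := by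
    intro h; rw [h, chiC_zero] at hχ; norm_num at hχ
  have h2 : (thetaV q 0 ∣[(1 : ℤ)] ModularForm.heckeDiagMatrix p) ∣[(1 : ℤ)] δ
      = (thetaV q 0 ∣[(1 : ℤ)] δ') ∣[(1 : ℤ)] ModularForm.heckeDiagMatrix p := by
    show (thetaV q 0 ∣[(1 : ℤ)] ModularForm.heckeDiagMatrix p) ∣[(1 : ℤ)] mapGL ℝ δ
      = (thetaV q 0 ∣[(1 : ℤ)] mapGL ℝ δ') ∣[(1 : ℤ)] ModularForm.heckeDiagMatrix p
    rw [← SlashAction.slash_mul, he, SlashAction.slash_mul]
  have hcast : ((δ 1 0 : ℤ) : ZMod q) = p * (c : ZMod q) := by rw [hc]; push_cast; ring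
  have hX : thetaProd p q ∣[(2 : ℤ)] δ = (thetaV q 0 ∣[(1 : ℤ)] δ) *
      ((thetaV q 0 ∣[(1 : ℤ)] δ') ∣[(1 : ℤ)] ModularForm.heckeDiagMatrix p) := by
    rw [thetaProd, show (2 : ℤ) = 1 + 1 from rfl, ModularForm.mul_slash_SL2, h2]
  rw [hX, theta_slash hq4 δ, theta_slash hq4 δ', h10, h11, cosetPoint]
  ext τ
  rw [Pi.mul_apply, slash_diag_one]
  by_cases hc0 : (c : ZMod q) = 0
  · rw [hcast, hc0, mul_zero, if_pos rfl]
    have hd : ((δ 1 1 : ℤ) : ZMod q) ≠ 0 := by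
      intro hd
      have hd' : δ 0 0 * δ 1 1 - δ 0 1 * δ 1 0 = 1 := by rw [← Matrix.det_fin_two]; exact δ.2
      have := congrArg (Int.cast : ℤ → ZMod q) hd'
      push_cast at this
      rw [hd, hcast, hc0] at this
      simp at this
    simp only [thetaFam, thetaProd, thetaImage, if_pos, Pi.smul_apply, smul_eq_mul, Pi.mul_apply,
      slash_diag_one]
    linear_combination (thetaV q 0 τ * thetaV q 0 (ModularForm.heckeDiagMatrix p • τ)) * chiC_sq hd
  · have hne : ((δ 1 0 : ℤ) : ZMod q) ≠ 0 := by rw [hcast]; exact mul_ne_zero hp0 hc0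
    rw [if_neg hne]
    set d : ZMod q := ((δ 1 1 : ℤ) : ZMod q)
    set t : ZMod q := d / ((δ 1 0 : ℤ) : ZMod q)
    rw [thetaImage_apply_of_ne hq4 hne d (t.val : ℤ) (by simp [t]),
      thetaImage_apply_of_ne hq4 hc0 d ((p * t.val : ℕ) : ℤ) (by
        push_cast
        rw [ZMod.natCast_zmod_val]
        simp only [t]
        rw [hcast]
        field_simp)]
    set ρ : ℍ := ModularForm.heckeMatrix q t.val • τ with hρ
    have hρc : (ρ : ℂ) = ((τ : ℂ) + t.val) / q :=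
      ModularForm.coe_heckeMatrix_smul prime_ne_zero' _ τ
    have hqC : (q : ℂ) ≠ 0 := q_natCast_ne_zero
    rw [sum_thetaV hq4 ((((t.val : ℕ) : ℤ) : ℝ) +ᵥ τ) ρ (by
        rw [hρc, UpperHalfPlane.coe_vadd]; push_cast; field_simp; ring),
      sum_thetaV hq4 ((((p * t.val : ℕ) : ℤ) : ℝ) +ᵥ ModularForm.heckeDiagMatrix p • τ)
        (ModularForm.heckeDiagMatrix p • ρ) (by
        rw [UpperHalfPlane.coe_vadd, ModularForm.coe_heckeDiagMatrix_smul prime_ne_zero',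
          ModularForm.coe_heckeDiagMatrix_smul prime_ne_zero', hρc]
        push_cast; field_simp; ring)]
    rw [show thetaFam p q (some t) = thetaProd p q ∣[(2 : ℤ)] ModularForm.heckeMatrix q t.val
        from rfl, ModularForm.slash_heckeMatrix_apply 2 prime_ne_zero', ← hρ, thetaProd,
      Pi.mul_apply, slash_diag_one]
    have hs : thetaConst q ^ 2 = -(q : ℂ)⁻¹ := by rw [thetaConst_sq]; ring
    have hm : chiC ((δ 1 0 : ℤ) : ZMod q) * chiC (c : ZMod q) = -1 := by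
      rw [hcast, chiC_mul, hχ]
      linear_combination -chiC_sq hc0
    linear_combination (thetaV q 0 ρ * thetaV q 0 (ModularForm.heckeDiagMatrix p • ρ)) *
      (thetaConst q ^ 2 * hm - hs)

lemma cosetPoint_cosetRep (i : Option (ZMod q)) : cosetPoint (p := q) (cosetRep i) = i := by
  refine (cosetRep_eq_of_mem ?_).symm
  exact mul_cosetRep_inv_mem (p := q) (cosetRep i)

lemma cosetPoint_mul {a b : SL(2, ℤ)} (h : cosetPoint (p := q) a = cosetPoint (p := q) b)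
    (g : SL(2, ℤ)) : cosetPoint (p := q) (a * g) = cosetPoint (p := q) (b * g) := by
  have hab : a * b⁻¹ ∈ Gamma0 q := by
    have h1 := mul_cosetRep_inv_mem (p := q) a
    have h2 := mul_cosetRep_inv_mem (p := q) b
    rw [h] at h1
    simpa [mul_assoc] using mul_mem h1 (inv_mem h2)
  refine cosetRep_eq_of_mem ?_
  have h1 := mul_cosetRep_inv_mem (p := q) (a * g)
  have h2 := mul_cosetRep_inv_mem (p := q) (b * g)
  simpa [mul_assoc] using mul_mem (mul_mem (inv_mem h1) hab) h2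

lemma exists_rep (hp0 : (p : ZMod q) ≠ 0) (i : Option (ZMod q)) :
    ∃ δ ∈ Gamma0 p, cosetPoint (p := q) δ = i := by
  rcases i with _ | j
  · exact ⟨1, one_mem _, by simp [cosetPoint]⟩
  · set u : ZMod q := (j * p - 1) / p
    let δ : SL(2, ℤ) := ⟨!![1, (u.val : ℤ); (p : ℤ), p * (u.val : ℤ) + 1], by
      rw [Matrix.det_fin_two_of]; ring⟩
    refine ⟨δ, by rw [Gamma0_mem]; simp [δ], ?_⟩
    simp only [cosetPoint, δ, Matrix.of_apply, Matrix.cons_val', Matrix.cons_val_zero,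
      Matrix.cons_val_one, Matrix.cons_val_fin_one]
    push_cast
    rw [if_neg hp0, ZMod.natCast_zmod_val]
    congr 1
    simp only [u]
    field_simp
    ring

/-- The trace of `θ(τ) θ(pτ)` to level `p`. -/
def thetaTraceFun (p q : ℕ) [NeZero q] : ℍ → ℂ := ∑ i, thetaFam p q i

lemma thetaTraceFun_slash (hq4 : q % 4 = 3) (hχ : chiC (p : ZMod q) = -1) {δ : SL(2, ℤ)}
    (hδ : δ ∈ Gamma0 p) : thetaTraceFun p q ∣[(2 : ℤ)] δ = thetaTraceFun p q := by
  have hp0 : (p : ZMod q) ≠ 0 := by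
    intro h; rw [h, chiC_zero] at hχ; norm_num at hχ
  have key : ∀ i, thetaFam p q i ∣[(2 : ℤ)] δ = thetaFam p q (cosetPerm δ i) := by
    intro i
    obtain ⟨ε, hε, hi⟩ := exists_rep (p := p) hp0 i
    conv_lhs => rw [← hi, ← thetaProd_slash hq4 hχ hε, ← SlashAction.slash_mul,
      thetaProd_slash hq4 hχ (mul_mem hε hδ)]
    congr 1
    exact cosetPoint_mul (hi.trans (cosetPoint_cosetRep i).symm) δ
  rw [thetaTraceFun, SlashAction.sum_slash]
  simp only [key]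
  exact Equiv.sum_comp (cosetPerm δ) (thetaFam p q)

lemma bddCusps_thetaV_zero (hq4 : q % 4 = 3) : BddCusps (thetaV q 0) 1 :=
  BddCusps.of_SL2 fun γ ↦ by rw [theta_slash hq4]; exact bounded_thetaImage _ _

lemma bddCusps_thetaProd (hq4 : q % 4 = 3) : BddCusps (thetaProd p q) 2 := by
  obtain ⟨g, hg⟩ := heckeDiagMatrix_eq_map (prime_ne_zero' (p := p))
  have h2 : BddCusps (thetaV q 0 ∣[(1 : ℤ)] ModularForm.heckeDiagMatrix p) 1 := by
    rw [hg]; exact (bddCusps_thetaV_zero hq4).slash_rat g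
  refine BddCusps.of_SL2 fun γ ↦ ?_
  rw [thetaProd, show (2 : ℤ) = 1 + 1 from rfl, ModularForm.mul_slash_SL2]
  exact ((bddCusps_thetaV_zero hq4).bounded_slash γ).mul (h2.bounded_slash γ)

omit [Fact (Nat.Prime p)] in
lemma mdiff_thetaFam (i : Option (ZMod q)) : MDiff (thetaFam p q i) := by
  have h : MDiff (thetaProd p q) := (mdiff_thetaV 0).mul ((mdiff_thetaV 0).slash 1 _)
  rcases i with _ | j
  · exact h
  · exact h.slash 2 _

/-- The trace as a modular form on `Γ₀(p)`. -/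
def thetaTrace (hq4 : q % 4 = 3) (hχ : chiC (p : ZMod q) = -1) : ModularForm (Gamma0 p) 2 where
  toFun := thetaTraceFun p q
  slash_action_eq' := by
    rintro _ ⟨δ, hδ, rfl⟩
    exact thetaTraceFun_slash hq4 hχ hδ
  holo' := MDifferentiable.sum fun i _ ↦ mdiff_thetaFam i
  bdd_at_cusps' {c} hc := by
    rw [Subgroup.IsArithmetic.isCusp_iff_isCusp_SL2Z] at hc
    have h : ∀ i, BddCusps (thetaFam p q i) 2 := by
      intro i
      rcases i with _ | j
      · exact bddCusps_thetaProd hq4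
      · obtain ⟨g, hg⟩ := heckeMatrix_eq_map (prime_ne_zero' (p := q)) j.val
        show BddCusps (thetaProd p q ∣[(2 : ℤ)] _) 2
        rw [hg]
        exact (bddCusps_thetaProd hq4).slash_rat g
    refine (OnePoint.isBoundedAt_iff_forall_SL2Z hc).mpr fun γ _ ↦ ?_
    rw [thetaTraceFun, SlashAction.sum_slash]
    exact Finset.sum_induction _ IsBoundedAtImInfty (fun f g hf hg ↦ hf.add hg)
      (Filter.const_boundedAtFilter _ (0 : ℂ)) fun i _ ↦ (h i).bounded_slash γ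

/-- The integral `q`-series of `θ(τ) θ(pτ)`. -/
def serProd (p q : ℕ) [Fact p.Prime] : PowerSeries ℤ :=
  PowerSeries.mk (fun n ↦ (repCount q n : ℤ)) *
    PowerSeries.expand p prime_ne_zero' (PowerSeries.mk fun n ↦ (repCount q n : ℤ))

lemma hasQExp_thetaTrace (hq4 : q % 4 = 3) :
    HasQExp 1 (thetaTraceFun p q) (PowerSeries.mk fun n ↦
      ((PowerSeries.coeff n (serProd p q) + PowerSeries.coeff (n * q) (serProd p q) : ℤ) : ℂ)) := by
  set R : PowerSeries ℂ := PowerSeries.mk fun N ↦ (repCount q N : ℂ) with hR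
  have hθ : HasQExp 1 (thetaV q 0) R := hasQExp_theta hq4
  have hD : HasQExp 1 (thetaV q 0 ∣[(1 : ℤ)] ModularForm.heckeDiagMatrix p)
      (PowerSeries.expand p prime_ne_zero' R) :=
    HasQExp.comp_mul p prime_ne_zero' hθ fun τ ↦ ⟨ModularForm.heckeDiagMatrix p • τ,
      ModularForm.coe_heckeDiagMatrix_smul prime_ne_zero' τ, slash_diag_one _ τ⟩
  have hX : HasQExp 1 (thetaProd p q) (R * PowerSeries.expand p prime_ne_zero' R) := hθ.mul hD
  have hmap : PowerSeries.map (Int.castRingHom ℂ) (serProd p q)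
      = R * PowerSeries.expand p prime_ne_zero' R := by
    rw [serProd, map_mul, PowerSeries.map_expand]
    congr 2
  have hG : thetaTraceFun p q = thetaProd p q + ModularForm.heckeU 2 q (thetaProd p q) := by
    rw [thetaTraceFun, Fintype.sum_option, ModularForm.heckeU_def]
    congr 1
    exact sum_zmod_val fun j ↦ thetaProd p q ∣[(2 : ℤ)] ModularForm.heckeMatrix q j
  rw [hG]
  convert hX.add (hasQExp_heckeU_of_hasQExp hX) using 1
  ext n
  rw [PowerSeries.coeff_mk, map_add, PowerSeries.coeff_mk, ← hmap, PowerSeries.coeff_map,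
    PowerSeries.coeff_map, Int.cast_add]
  · rfl
  · infer_instance

lemma coeff_serProd_mod_four (n : ℕ) (hn : n ≠ 0) :
    ((PowerSeries.coeff n (serProd p q) : ℤ) : ZMod 4)
      = (repCount q n : ZMod 4) + if p ∣ n then (repCount q (n / p) : ZMod 4) else 0 := by
  have hp : p ≠ 0 := prime_ne_zero'
  have hp' : p.Prime := Fact.out
  have e : ∀ j, PowerSeries.coeff j (PowerSeries.expand p prime_ne_zero'
      (PowerSeries.mk fun n ↦ (repCount q n : ℤ))) =
        if p ∣ j then (repCount q (j / p) : ℤ) else 0 := fun j ↦ by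
    split_ifs with h
    · obtain ⟨c, rfl⟩ := h
      rw [PowerSeries.coeff_expand_mul, PowerSeries.coeff_mk,
        Nat.mul_div_cancel_left _ (Nat.pos_of_ne_zero hp)]
    · rw [PowerSeries.coeff_expand_of_not_dvd _ _ _ h]
  rw [serProd, PowerSeries.coeff_mul]
  simp only [e, PowerSeries.coeff_mk, Int.cast_sum]
  rw [Finset.sum_eq_add (n, 0) (0, n) (by simp [hn]) ?_ (by simp) (by simp)]
  · simp [repCount_zero, apply_ite (Int.cast : ℤ → ZMod 4)]
  · rintro ⟨i, j⟩ hij ⟨h1, h2⟩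
    rw [Finset.HasAntidiagonal.mem_antidiagonal] at hij
    have hi : i ≠ 0 := fun h ↦ h2 (by rw [Prod.mk.injEq]; omega)
    have hj : j ≠ 0 := fun h ↦ h1 (by rw [Prod.mk.injEq]; omega)
    dsimp only
    split_ifs with h
    · obtain ⟨c, rfl⟩ := h
      have hc : c ≠ 0 := fun h ↦ hj (by simp [h])
      rw [Nat.mul_div_cancel_left _ (Nat.pos_of_ne_zero hp)]
      obtain ⟨a, ha⟩ := repCount_even (q := q) hi
      obtain ⟨b, hb⟩ := repCount_even (q := q) hc
      rw [ha, hb]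
      push_cast
      rw [show (2 : ZMod 4) * a * (2 * b) = 4 * (a * b) by ring, show (4 : ZMod 4) = 0 from rfl,
        zero_mul]
    · simp

lemma four_dvd_trace_coeff (hpq : q ≠ p) {n : ℕ} (hn : n ≠ 0) :
    (4 : ℤ) ∣ PowerSeries.coeff n (serProd p q) + PowerSeries.coeff (n * q) (serProd p q) := by
  have hp : p.Prime := Fact.out
  have hq : q.Prime := Fact.out
  rw [show (4 : ℤ) = ((4 : ℕ) : ℤ) from rfl, ← ZMod.intCast_zmod_eq_zero_iff_dvd, Int.cast_add,
    coeff_serProd_mod_four n hn,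
    coeff_serProd_mod_four _ (Nat.mul_ne_zero hn hq.ne_zero), mul_comm n q, repCount_mul_self]
  have hiff : p ∣ q * n ↔ p ∣ n := by
    refine ⟨fun h ↦ (hp.dvd_mul.mp h).resolve_left fun h ↦ hpq ?_, fun h ↦ h.mul_left q⟩
    exact ((Nat.prime_dvd_prime_iff_eq hp hq).mp h).symm
  simp only [hiff]
  obtain ⟨a, ha⟩ := repCount_even (q := q) hn
  split_ifs with h
  · rw [Nat.mul_div_assoc q h, repCount_mul_self]
    obtain ⟨b, hb⟩ := repCount_even (q := q) (Nat.div_ne_zero_iff.mpr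
      ⟨hp.ne_zero, Nat.le_of_dvd (Nat.pos_of_ne_zero hn) h⟩)
    rw [ha, hb, show ((2 * a : ℕ) : ZMod 4) + (2 * b : ℕ) + ((2 * a : ℕ) + (2 * b : ℕ))
      = 4 * ((a : ZMod 4) + b) by push_cast; ring, show (4 : ZMod 4) = 0 from rfl, zero_mul]
  · rw [ha, show ((2 * a : ℕ) : ZMod 4) + 0 + ((2 * a : ℕ) + 0) = 4 * (a : ZMod 4) by
      push_cast; ring, show (4 : ZMod 4) = 0 from rfl, zero_mul]

omit [Fact q.Prime] in
/-- A weight two form with constant term `1/2` and integral higher coefficients. -/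
theorem exists_half_form (hp2 : p ≠ 2) :
    ∃ G : ModularForm (Gamma0 p) 2, ModularFormClass.qCoeff ⇑G 0 = 1 / 2 ∧
      ∀ n, n ≠ 0 → ∃ m : ℤ, ModularFormClass.qCoeff ⇑G n = m := by
  obtain ⟨q, hq, hq4, hqp, hl⟩ := exists_aux_prime (p := p) hp2
  have hχ : chiC (p : ZMod q) = -1 := by
    rw [legendreSym, Int.cast_natCast] at hl
    rw [chiC, hl]; simp
  have hcoef : ∀ n, ModularFormClass.qCoeff ⇑(thetaTrace hq4 hχ) n =
      ((PowerSeries.coeff n (serProd p q) + PowerSeries.coeff (n * q) (serProd p q) : ℤ) : ℂ) := by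
    intro n
    have h := (hasQExp_serOf (thetaTrace hq4 hχ)).unique one_pos (hasQExp_thetaTrace hq4)
    simpa [serOf] using congrArg (PowerSeries.coeff n) h
  refine ⟨(4 : ℂ)⁻¹ • thetaTrace hq4 hχ, ?_, fun n hn ↦ ?_⟩
  · have h0 : PowerSeries.coeff 0 (serProd p q) = 1 := by
      rw [serProd, PowerSeries.coeff_zero_eq_constantCoeff_apply, map_mul,
        PowerSeries.constantCoeff_expand, ← PowerSeries.coeff_zero_eq_constantCoeff_apply,
        PowerSeries.coeff_mk, repCount_zero, Nat.cast_one, mul_one]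
    have h := ((hasQExp_serOf (thetaTrace hq4 hχ)).smul (4 : ℂ)⁻¹).unique one_pos
      (hasQExp_serOf ((4 : ℂ)⁻¹ • thetaTrace hq4 hχ))
    have h1 := congrArg (PowerSeries.coeff 0) h
    simp only [serOf, map_smul, PowerSeries.coeff_mk, smul_eq_mul, hcoef, zero_mul, h0] at h1
    rw [← h1]
    norm_num
  · obtain ⟨m, hm⟩ := four_dvd_trace_coeff (p := p) hqp hn
    refine ⟨m, ?_⟩
    have h := ((hasQExp_serOf (thetaTrace hq4 hχ)).smul (4 : ℂ)⁻¹).unique one_pos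
      (hasQExp_serOf ((4 : ℂ)⁻¹ • thetaTrace hq4 hχ))
    have h1 := congrArg (PowerSeries.coeff n) h
    simp only [serOf, map_smul, PowerSeries.coeff_mk, smul_eq_mul, hcoef] at h1
    rw [← h1, hm]
    push_cast
    ring

end FLTAgent.Eisenstein

end
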