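import Fermat.Agent.Eisenstein.Duality
import Fermat.Agent.Eisenstein.ThetaTrace

/-!
# The quotient of the Hecke algebra by the Eisenstein ideal

Combines the upper bound from `Duality` with the form of `ThetaTrace` to compute the index of the
Eisenstein ideal: it is `eisensteinNumerator p` (`natCard_quotient_eisensteinIdeal`, giving S16).
-/

set_option autoImplicit false

open scoped MatrixGroups ModularForm
open CongruenceSubgroup ModularFormClass CuspForm ModularCurve

noncomputable section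

namespace FLTAgent.Eisenstein

variable {p : ℕ} [Fact p.Prime]

/-- A cusp form congruent to a multiple, prime to the modulus, of the Eisenstein series. -/
lemma exists_numerator_form (hp5 : 5 ≤ p) :
    ∃ (u : ℕ) (f : ↥(CuspForm.intLattice p 2)), u.Coprime (eisensteinNumerator p) ∧
      ∀ k, (intCoeff k f : ZMod (eisensteinNumerator p))
        = (u : ZMod (eisensteinNumerator p)) * (eisSum p k : ZMod (eisensteinNumerator p)) := by
  set g := Nat.gcd (p - 1) 12
  set n := eisensteinNumerator p with hn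
  set u := 12 / g
  have hg : 0 < g := Nat.gcd_pos_of_pos_right _ (by norm_num)
  have hu : u * (p - 1) = 12 * n := by
    have h1 : g * ((p - 1) / g) = p - 1 := Nat.mul_div_cancel' (Nat.gcd_dvd_left _ _)
    have h2 : g * (12 / g) = 12 := Nat.mul_div_cancel' (Nat.gcd_dvd_right _ _)
    calc u * (p - 1) = u * (g * ((p - 1) / g)) := by rw [h1]
      _ = g * (12 / g) * n := by rw [hn, eisensteinNumerator]; ring
      _ = 12 * n := by rw [h2]
  have hco : u.Coprime n := (Nat.coprime_div_gcd_div_gcd hg).symm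
  obtain ⟨G, hG0, hG⟩ := exists_half_form (p := p) (by omega)
  set F : ModularForm (Gamma0 p) 2 :=
    (u : ℂ) • ((24 : ℂ)⁻¹ • eisForm (p := p)) - (n : ℂ) • G with hF
  have hF0 : qCoeff ⇑F 0 = 0 := by
    rw [hF, qCoeff_sub', qCoeff_smul', qCoeff_smul', qCoeff_smul', qCoeff_eisForm, if_pos rfl, hG0]
    have h := congrArg (Nat.cast : ℕ → ℂ) hu
    push_cast [Nat.cast_sub (show 1 ≤ p by omega)] at h
    linear_combination h / 24
  have hval : ∀ k, ∃ z : ℤ, qCoeff ⇑F k = z ∧ (z : ZMod n) =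
      (u : ZMod n) * (eisSum p k : ZMod n) := by
    intro k
    rcases eq_or_ne k 0 with rfl | hk
    · exact ⟨0, by rw [hF0, Int.cast_zero], by simp [eisSum_zero]⟩
    · obtain ⟨m, hm⟩ := hG k hk
      refine ⟨(u : ℤ) * eisSum p k - n * m, ?_, by simp⟩
      rw [hF, qCoeff_sub', qCoeff_smul', qCoeff_smul', qCoeff_smul', qCoeff_eisForm, if_neg hk, hm]
      push_cast
      ring
  have hmem : cuspFormOf F hF0 ∈ CuspForm.intLattice p 2 := by
    refine (mem_intLattice_iff_qCoeff _).mpr fun k ↦ ?_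
    obtain ⟨z, hz, -⟩ := hval k
    exact ⟨z, hz⟩
  refine ⟨u, ⟨_, hmem⟩, hco, fun k ↦ ?_⟩
  obtain ⟨z, hz, hz'⟩ := hval k
  rw [show intCoeff k ⟨_, hmem⟩ = z from Int.cast_injective (α := ℂ) ((intCoeff_cast k _).trans hz)]
  exact hz'

/-- The order of the quotient of a ring by the image of the kernel of an integral character. -/
lemma natCard_quotient_map_eq {R T : Type*} [CommRing R] [CommRing T] (φ : R →+* T)
    (hφ : Function.Surjective φ) (χ : R →+* ℤ) (J : Ideal R) (hJ : ∀ x, x ∈ J ↔ χ x = 0) (n : ℕ)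
    (h1 : ∀ ℓ k : ℕ, ℓ.Prime → ∀ ψ : T →+* ZMod (ℓ ^ k),
      (∀ x, ψ (φ x) = (χ x : ZMod (ℓ ^ k))) → ℓ ^ k ∣ n)
    (h2 : ∀ m : ℕ, ∀ x, χ x = 0 → φ x = (m : T) → n ∣ m) :
    Nat.card (T ⧸ Ideal.map φ J) = n := by
  set m := ringChar (T ⧸ Ideal.map φ J)
  have hchar : CharP (T ⧸ Ideal.map φ J) m := ringChar.charP _
  have hmk : ∀ x : R, Ideal.Quotient.mk (Ideal.map φ J) (φ x)
      = ((χ x : ℤ) : T ⧸ Ideal.map φ J) := by
    intro x
    rw [← map_intCast (Ideal.Quotient.mk (Ideal.map φ J)), Ideal.Quotient.eq, ← map_intCast φ,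
      ← map_sub]
    exact Ideal.mem_map_of_mem _ ((hJ _).mpr (by simp))
  let c : ZMod m →+* T ⧸ Ideal.map φ J := ZMod.castHom dvd_rfl _
  have hc : Function.Bijective c := by
    refine ⟨ZMod.castHom_injective _, fun y ↦ ?_⟩
    obtain ⟨t, rfl⟩ := Ideal.Quotient.mk_surjective y
    obtain ⟨x, rfl⟩ := hφ t
    exact ⟨(χ x : ℤ), by rw [map_intCast, hmk]⟩
  rw [← Nat.card_eq_of_bijective c hc, Nat.card_zmod]
  refine Nat.dvd_antisymm ?_ ?_
  · refine (Nat.dvd_iff_prime_pow_dvd_dvd _ _).mpr fun ℓ k hℓ hk ↦ ?_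
    refine h1 ℓ k hℓ ((ZMod.castHom hk (ZMod (ℓ ^ k))).comp
      ((RingEquiv.ofBijective c hc).symm.toRingHom.comp
        (Ideal.Quotient.mk (Ideal.map φ J)))) fun x ↦ ?_
    rw [RingHom.comp_apply, RingHom.comp_apply, hmk, map_intCast, map_intCast]
  · have hm0 : ((m : ℕ) : T) ∈ Ideal.map φ J := by
      rw [← Ideal.Quotient.eq_zero_iff_mem, map_natCast]
      exact CharP.cast_eq_zero _ m
    obtain ⟨x, hx, hxm⟩ := (Ideal.mem_map_iff_of_surjective _ hφ).mp hm0
    exact h2 m x ((hJ x).mp hx) hxm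

/-- The quotient of the Hecke algebra by the Eisenstein ideal has the expected order. -/
theorem natCard_quotient_eisensteinIdeal :
    Nat.card (↥(heckeLatticeAlgebra p ∅) ⧸ Ideal.map (latticeHecke (p := p)) (eisensteinIdeal p))
      = eisensteinNumerator p := by
  have hp : p.Prime := Fact.out
  rcases le_or_gt p 3 with h3 | h3
  · have := subsingleton_hecke_of_le_three h3
    have : Subsingleton (↥(heckeLatticeAlgebra p ∅) ⧸
        Ideal.map (latticeHecke (p := p)) (eisensteinIdeal p)) :=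
      Ideal.Quotient.mk_surjective.subsingleton
    rw [Nat.card_unique]
    have := hp.two_le
    interval_cases p <;> rfl
  have hp5 : 5 ≤ p := by
    by_contra h
    obtain rfl : p = 4 := by omega
    norm_num at hp
  refine natCard_quotient_map_eq (T := ↥(heckeLatticeAlgebra p ∅)) (latticeHecke (p := p))
    latticeHecke_surjective (eisChar p) _ mem_eisensteinIdeal_iff _
    (fun ℓ k hℓ ψ hψ ↦ pow_dvd_of_ringHom hp5 hℓ k ψ hψ) fun m x hx hxm ↦ ?_
  obtain ⟨u, f, hu, hf⟩ := exists_numerator_form (p := p) hp5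
  refine hu.symm.dvd_of_dvd_mul_right ?_
  have h := intCoeff_act_congr (u : ZMod (eisensteinNumerator p)) f hf x 1
  rw [hx, Int.cast_zero, zero_mul] at h
  have hact : act (p := p) x f = (m : ℤ) • f := by
    simp [act, hxm]
  rw [hact, map_smul, smul_eq_mul, Int.cast_mul, hf, eisSum_one hp.ne_one] at h
  refine (ZMod.natCast_eq_zero_iff _ _).mp ?_
  push_cast at h ⊢
  linear_combination h

end FLTAgent.Eisenstein

end
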