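import Fermat.Agent.Eisenstein.WeightTwo
import Mathlib.NumberTheory.ModularForms.JacobiTheta.TwoVariable
import Mathlib.Analysis.SpecialFunctions.Complex.CircleAddChar
import Mathlib.Analysis.SpecialFunctions.Pow.Complex

/-!
# Theta constants of the binary form of discriminant `-q`

`thetaV q v` is the sum of `e(τ (a² + q b²) / (4 q))` over `a ≡ b (mod 2)`, `a ≡ v (mod q)`.
The functional equation of `jacobiTheta₂` gives its transformation under `S` and `T`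
(`thetaV_slash_S`, `thetaV_slash_T`).
-/

set_option autoImplicit false

open scoped Real MatrixGroups ModularForm Manifold
open UpperHalfPlane hiding I
open Complex ModularGroup

noncomputable section

namespace FLTAgent.Eisenstein

/-- `∑ exp (π i τ (n + s)²)`. -/
def thetaShift (s τ : ℂ) : ℂ := cexp (π * I * τ * s ^ 2) * jacobiTheta₂ (s * τ) τ

/-- The part of the theta series coming from one residue class modulo `2 q`. -/
def thetaPiece (q r : ℕ) (τ : ℂ) : ℂ :=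
  thetaShift ((r : ℂ) / (2 * q)) (2 * q * τ) * thetaShift (((r % 2 : ℕ) : ℂ) / 2) (2 * τ)

/-- Theta series with congruence condition. -/
def thetaV (q : ℕ) (v : ZMod q) : ℍ → ℂ :=
  fun τ ↦ thetaPiece q v.val τ + thetaPiece q (v.val + q) τ

/-- The constant in the inversion formula. -/
def thetaConst (q : ℕ) : ℂ := -I / (Real.sqrt q : ℂ)

lemma hasSum_thetaShift (s : ℂ) {τ : ℂ} (hτ : 0 < τ.im) :
    HasSum (fun n : ℤ ↦ cexp (π * I * τ * (n + s) ^ 2)) (thetaShift s τ) := by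
  refine ((hasSum_jacobiTheta₂_term (s * τ) hτ).mul_left (cexp (π * I * τ * s ^ 2))).congr_fun
    fun n ↦ ?_
  rw [jacobiTheta₂_term, ← Complex.exp_add]
  congr 1
  ring

lemma thetaShift_inv (s : ℂ) {τ : ℂ} (hτ : 0 < τ.im) :
    thetaShift s (-1 / τ) = (-I * τ) ^ (1 / 2 : ℂ) * jacobiTheta₂ s τ := by
  have hτ0 : τ ≠ 0 := fun h ↦ by simp [h] at hτ
  have hc : (-I * τ) ^ (1 / 2 : ℂ) ≠ 0 := by
    simp [Complex.cpow_eq_zero_iff, I_ne_zero, hτ0]
  rw [jacobiTheta₂_functional_equation s τ, thetaShift,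
    show s * (-1 / τ) = -(s / τ) by ring, jacobiTheta₂_neg_left,
    show (π : ℂ) * I * (-1 / τ) * s ^ 2 = -π * I * s ^ 2 / τ by ring]
  field_simp

lemma jacobiTheta₂_split (N : ℕ) (hN : N ≠ 0) (j : ℤ) {τ : ℂ} (hτ : 0 < τ.im) :
    jacobiTheta₂ ((j : ℂ) / N) (τ / N) =
      ∑ r : Fin N, cexp (2 * π * I * j * (r : ℕ) / N) * thetaShift (((r : ℕ) : ℂ) / N) (N * τ) := by
  have := NeZero.mk hN
  have hNC : (N : ℂ) ≠ 0 := Nat.cast_ne_zero.mpr hN
  have hτN : 0 < (τ / N).im := by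
    rw [Complex.div_natCast_im]
    exact div_pos hτ (by exact_mod_cast Nat.pos_of_ne_zero hN)
  have hNτ : 0 < ((N : ℂ) * τ).im := by
    simpa using mul_pos (show (0 : ℝ) < N by exact_mod_cast Nat.pos_of_ne_zero hN) hτ
  let e : Fin N × ℤ ≃ ℤ := (Equiv.prodComm _ _).trans (Int.divModEquiv N).symm
  have h := e.hasSum_iff.mpr (hasSum_jacobiTheta₂_term ((j : ℂ) / N) hτN)
  have hf : ∀ r : Fin N, HasSum
      (fun m : ℤ ↦ ((fun n ↦ jacobiTheta₂_term n ((j : ℂ) / N) (τ / N)) ∘ e) (r, m))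
      (cexp (2 * π * I * j * (r : ℕ) / N) * thetaShift (((r : ℕ) : ℂ) / N) (N * τ)) := by
    intro r
    refine ((hasSum_thetaShift _ hNτ).mul_left _).congr_fun fun m ↦ ?_
    have he : ((e (r, m) : ℤ) : ℂ) = ((r : ℕ) : ℂ) + m * N := by
      simp [e, Int.divModEquiv]
      ring
    rw [Function.comp_apply, jacobiTheta₂_term, he, ← Complex.exp_add,
      Complex.exp_eq_exp_iff_exists_int]
    refine ⟨m * j, ?_⟩
    push_cast
    field_simp
    ring
  exact (h.prod_fiberwise hf).unique (hasSum_fintype _)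

lemma thetaShift_add_int (s τ : ℂ) (m k : ℤ) (hk : (2 * m : ℂ) * s = k) :
    thetaShift s (τ + 2 * m) = cexp (π * I * (2 * m) * s ^ 2) * thetaShift s τ := by
  rw [thetaShift, thetaShift, show s * (τ + 2 * m) = s * τ + k by rw [← hk]; ring,
    show jacobiTheta₂ (s * τ + k) (τ + 2 * m) = jacobiTheta₂ (s * τ) τ from ?_, ← mul_assoc,
    ← Complex.exp_add]
  · congr 2; ring
  · refine tsum_congr fun n ↦ ?_
    rw [jacobiTheta₂_term, jacobiTheta₂_term, Complex.exp_eq_exp_iff_exists_int]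
    exact ⟨n * k + n ^ 2 * m, by push_cast; ring⟩

lemma cpow_half_prod {a b : ℝ} (ha : 0 < a) (hb : 0 < b) {z : ℂ} (hz : z ≠ 0) :
    ((a : ℂ) * z) ^ (1 / 2 : ℂ) * ((b : ℂ) * z) ^ (1 / 2 : ℂ) = (Real.sqrt (a * b) : ℂ) * z := by
  rw [Complex.cpow_def_of_ne_zero (mul_ne_zero (ofReal_ne_zero.mpr ha.ne') hz),
    Complex.cpow_def_of_ne_zero (mul_ne_zero (ofReal_ne_zero.mpr hb.ne') hz),
    Complex.log_ofReal_mul ha hz, Complex.log_ofReal_mul hb hz, ← Complex.exp_add,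
    Real.sqrt_eq_rpow, Real.rpow_def_of_pos (mul_pos ha hb), Real.log_mul ha.ne' hb.ne',
    Complex.ofReal_exp]
  conv_rhs => rw [← Complex.exp_log hz]
  rw [← Complex.exp_add]
  congr 1
  push_cast
  ring

variable {q : ℕ} [Fact q.Prime]

lemma q_natCast_ne_zero : (q : ℂ) ≠ 0 := Nat.cast_ne_zero.mpr prime_ne_zero'

omit [Fact (Nat.Prime q)] in
lemma thetaConst_sq : thetaConst q ^ 2 = -1 / (q : ℂ) := by
  rw [thetaConst, div_pow, neg_sq, I_sq, ← ofReal_pow, Real.sq_sqrt (Nat.cast_nonneg q)]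
  simp

lemma prefactor {τ : ℂ} (hτ : 0 < τ.im) :
    2 * ((-I * (τ / (2 * q : ℕ))) ^ (1 / 2 : ℂ) * (-I * (τ / (2 : ℕ))) ^ (1 / 2 : ℂ))
      = thetaConst q * τ := by
  have hq : (0 : ℝ) < q := by exact_mod_cast Nat.pos_of_ne_zero (prime_ne_zero' (p := q))
  have hτ0 : τ ≠ 0 := fun h ↦ by simp [h] at hτ
  have h := cpow_half_prod (a := (2 * (q : ℝ))⁻¹) (b := (2 : ℝ)⁻¹) (by positivity) (by norm_num)
    (mul_ne_zero (neg_ne_zero.mpr I_ne_zero) hτ0)
  rw [show -I * (τ / ((2 * q : ℕ) : ℂ)) = (((2 * (q : ℝ))⁻¹ : ℝ) : ℂ) * (-I * τ) by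
      push_cast; ring,
    show -I * (τ / ((2 : ℕ) : ℂ)) = (((2 : ℝ)⁻¹ : ℝ) : ℂ) * (-I * τ) by push_cast; ring, h]
  have e : Real.sqrt ((2 * (q : ℝ))⁻¹ * 2⁻¹) = (2 * Real.sqrt q)⁻¹ := by
    rw [show (2 * (q : ℝ))⁻¹ * 2⁻¹ = ((2 : ℝ) ^ 2 * q)⁻¹ by ring, Real.sqrt_inv,
      Real.sqrt_mul (by positivity), Real.sqrt_sq (by norm_num)]
  rw [e, thetaConst]
  have hs : ((Real.sqrt q : ℝ) : ℂ) ≠ 0 := ofReal_ne_zero.mpr (Real.sqrt_ne_zero'.mpr hq)
  push_cast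
  field_simp

lemma two_ne_zero_zmod (hq4 : q % 4 = 3) : (2 : ZMod q) ≠ 0 := by
  intro h
  have := (CharP.cast_eq_zero_iff (ZMod q) q 2).mp (by exact_mod_cast h)
  have := Nat.le_of_dvd two_pos this
  omega

/-- The additive character `x ↦ exp (2 π i x / q)`. -/
def psiChar (q : ℕ) [NeZero q] : AddChar (ZMod q) ℂ := ZMod.stdAddChar

lemma psiChar_intCast (j : ℤ) : psiChar q (j : ZMod q) = cexp (2 * π * I * j / q) :=
  ZMod.stdAddChar_coe j

lemma sum_fin_two_mul {M : Type*} [AddCommMonoid M] (F : ℕ → M) :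
    ∑ s : Fin (2 * q), F s = ∑ w : ZMod q, (F w.val + F (w.val + q)) := by
  rw [Fin.sum_univ_eq_sum_range F, show 2 * q = q + q by ring, Finset.sum_range_add,
    ← sum_zmod_val (p := q) F, ← sum_zmod_val (p := q) fun x ↦ F (q + x), ← Finset.sum_add_distrib]
  simp only [add_comm q]

lemma thetaPiece_inv (r : ℕ) {τ : ℂ} (hτ : 0 < τ.im) :
    thetaPiece q r (-1 / τ) =
      ((-I * (τ / (2 * q : ℕ))) ^ (1 / 2 : ℂ) * (-I * (τ / (2 : ℕ))) ^ (1 / 2 : ℂ)) *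
        ∑ s : Fin (2 * q), ∑ t : Fin 2, cexp (π * I * r * ((s : ℕ) + q * (t : ℕ)) / q) *
          (thetaShift (((s : ℕ) : ℂ) / (2 * q : ℕ)) ((2 * q : ℕ) * τ) *
            thetaShift (((t : ℕ) : ℂ) / (2 : ℕ)) ((2 : ℕ) * τ)) := by
  have hq : q ≠ 0 := prime_ne_zero'
  have hq' : (q : ℂ) ≠ 0 := q_natCast_ne_zero
  have h2q : (2 * q : ℕ) ≠ 0 := by omega
  have ha : 0 < (τ / (2 * q : ℕ)).im := by
    rw [Complex.div_natCast_im]
    exact div_pos hτ (by exact_mod_cast Nat.pos_of_ne_zero h2q)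
  have hb : 0 < (τ / (2 : ℕ)).im := by
    rw [Complex.div_natCast_im]
    exact div_pos hτ (by norm_num)
  rw [thetaPiece, show 2 * (q : ℂ) * (-1 / τ) = -1 / (τ / (2 * q : ℕ)) by
      push_cast; field_simp,
    show 2 * (-1 / τ) = -1 / (τ / (2 : ℕ)) by push_cast; field_simp,
    thetaShift_inv _ ha, thetaShift_inv _ hb]
  have e1 := jacobiTheta₂_split (2 * q) h2q r hτ
  have e2 := jacobiTheta₂_split 2 two_ne_zero ((r % 2 : ℕ) : ℤ) hτ
  rw [show ((r : ℂ) / (2 * q)) = (((r : ℕ) : ℤ) : ℂ) / ((2 * q : ℕ) : ℂ) by push_cast; ring,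
    e1, show (((r % 2 : ℕ) : ℂ) / 2) = (((r % 2 : ℕ) : ℤ) : ℂ) / ((2 : ℕ) : ℂ) by push_cast; rfl,
    e2, mul_mul_mul_comm, Finset.sum_mul_sum]
  congr 1
  refine Finset.sum_congr rfl fun s _ ↦ Finset.sum_congr rfl fun t _ ↦ ?_
  obtain ⟨m, hm⟩ : ∃ m : ℕ, r = r % 2 + 2 * m := ⟨r / 2, (Nat.mod_add_div r 2).symm⟩
  generalize r % 2 = ε at hm ⊢
  subst hm
  rw [mul_mul_mul_comm, ← Complex.exp_add]
  congr 1
  rw [Complex.exp_eq_exp_iff_exists_int]
  refine ⟨-((m : ℤ) * (t : ℕ)), ?_⟩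
  push_cast
  field_simp
  ring

lemma exp_pair (hq4 : q % 4 = 3) (v : ZMod q) (s : ℕ) (t : Fin 2) :
    cexp (π * I * v.val * (s + q * (t : ℕ)) / q) +
        cexp (π * I * ((v.val + q : ℕ) : ℂ) * (s + q * (t : ℕ)) / q)
      = if (t : ℕ) = s % 2 then 2 * psiChar q (v * s / 2) else 0 := by
  have hq' : (q : ℂ) ≠ 0 := q_natCast_ne_zero
  have e : cexp (π * I * ((v.val + q : ℕ) : ℂ) * (s + q * (t : ℕ)) / q)
      = cexp (π * I * v.val * (s + q * (t : ℕ)) / q) * (-1) ^ (s + q * (t : ℕ)) := by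
    rw [← Complex.exp_pi_mul_I, ← Complex.exp_nat_mul, ← Complex.exp_add]
    congr 1
    push_cast
    field_simp
  rw [e]
  have hpar : (s + q * (t : ℕ)) % 2 = (s + (t : ℕ)) % 2 := by
    rw [Nat.add_mod, Nat.mul_mod, show q % 2 = 1 by omega, one_mul, Nat.mod_mod, ← Nat.add_mod]
  split_ifs with h
  · obtain ⟨u, hu⟩ : Even (s + q * (t : ℕ)) := by rw [Nat.even_iff, hpar]; omega
    have hu2 : (v * s / 2 : ZMod q) = (((v.val * u : ℕ) : ℤ) : ZMod q) := by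
      have h1 := congrArg (Nat.cast : ℕ → ZMod q) hu
      push_cast at h1
      rw [ZMod.natCast_self, zero_mul, add_zero] at h1
      push_cast
      rw [ZMod.natCast_zmod_val, h1, div_eq_iff (two_ne_zero_zmod hq4)]
      ring
    rw [Even.neg_one_pow ⟨u, hu⟩, mul_one, hu2, psiChar_intCast, ← two_mul]
    congr 2
    have h1 := congrArg (Nat.cast : ℕ → ℂ) hu
    push_cast at h1
    rw [h1]
    push_cast
    field_simp
    ring
  · have hodd : Odd (s + q * (t : ℕ)) := by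
      rw [Nat.odd_iff, hpar]
      have := t.isLt
      omega
    rw [Odd.neg_one_pow hodd]
    ring

lemma thetaV_inv (hq4 : q % 4 = 3) (v : ZMod q) (τ : ℍ) :
    thetaV q v (S • τ) = thetaConst q * τ * ∑ w : ZMod q, psiChar q (v * w / 2) * thetaV q w τ := by
  have hτ := τ.im_pos
  have hS : ((S • τ : ℍ) : ℂ) = -1 / (τ : ℂ) := by
    rw [UpperHalfPlane.modular_S_smul]
    simp [neg_div, inv_neg]
  rw [thetaV, hS, thetaPiece_inv _ hτ, thetaPiece_inv _ hτ, ← mul_add, ← Finset.sum_add_distrib]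
  have key : ∀ s : Fin (2 * q),
      ((∑ t : Fin 2, cexp (π * I * v.val * ((s : ℕ) + q * (t : ℕ)) / q) *
          (thetaShift (((s : ℕ) : ℂ) / (2 * q : ℕ)) ((2 * q : ℕ) * (τ : ℂ)) *
            thetaShift (((t : ℕ) : ℂ) / (2 : ℕ)) ((2 : ℕ) * (τ : ℂ)))) +
        ∑ t : Fin 2, cexp (π * I * ((v.val + q : ℕ) : ℂ) * ((s : ℕ) + q * (t : ℕ)) / q) *
          (thetaShift (((s : ℕ) : ℂ) / (2 * q : ℕ)) ((2 * q : ℕ) * (τ : ℂ)) *
            thetaShift (((t : ℕ) : ℂ) / (2 : ℕ)) ((2 : ℕ) * (τ : ℂ))))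
      = 2 * (psiChar q (v * (s : ℕ) / 2) * thetaPiece q s τ) := by
    intro s
    rw [← Finset.sum_add_distrib,
      Finset.sum_eq_single (⟨(s : ℕ) % 2, Nat.mod_lt _ two_pos⟩ : Fin 2)]
    · rw [← add_mul, exp_pair hq4, if_pos rfl, thetaPiece]
      push_cast
      ring
    · intro t _ ht
      rw [← add_mul, exp_pair hq4, if_neg (fun h ↦ ht (Fin.ext h)), zero_mul]
    · exact fun h ↦ absurd (Finset.mem_univ _) h
  rw [Finset.sum_congr rfl fun s _ ↦ key s, ← Finset.mul_sum,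
    sum_fin_two_mul fun s ↦ psiChar q (v * (s : ℕ) / 2) * thetaPiece q s τ, ← prefactor hτ]
  simp only [thetaV, Finset.mul_sum]
  refine Finset.sum_congr rfl fun w _ ↦ ?_
  push_cast
  rw [ZMod.natCast_self, add_zero, ZMod.natCast_zmod_val]
  ring

lemma thetaPiece_add (hq4 : q % 4 = 3) (r : ℕ) (n : ℤ) (τ : ℂ) :
    thetaPiece q r (n + τ) = psiChar q (n * (r : ZMod q) ^ 2 / 4) * thetaPiece q r τ := by
  have hq' : (q : ℂ) ≠ 0 := q_natCast_ne_zero
  obtain ⟨u, hu⟩ : 4 ∣ r ^ 2 + q * (r % 2) := by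
    rcases Nat.mod_two_eq_zero_or_one r with h | h
    · obtain ⟨m, rfl⟩ := Nat.dvd_of_mod_eq_zero h
      exact ⟨m ^ 2, by rw [h]; ring⟩
    · rw [h, Nat.dvd_iff_mod_eq_zero, mul_one, ← Nat.div_add_mod r 2, h,
        show (2 * (r / 2) + 1) ^ 2 + q = 4 * ((r / 2) ^ 2 + r / 2) + (1 + q) by ring]
      omega
  have hu2 : ((n : ZMod q) * (r : ZMod q) ^ 2 / 4) = ((n * u : ℤ) : ZMod q) := by
    have h1 := congrArg (Nat.cast : ℕ → ZMod q) hu
    push_cast at h1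
    rw [ZMod.natCast_self, zero_mul, add_zero] at h1
    rw [h1]
    have h4 : (4 : ZMod q) ≠ 0 := by
      rw [show (4 : ZMod q) = 2 * 2 by norm_num]
      exact mul_ne_zero (two_ne_zero_zmod hq4) (two_ne_zero_zmod hq4)
    push_cast
    field_simp
  rw [thetaPiece, thetaPiece, show 2 * (q : ℂ) * (n + τ) = 2 * q * τ + 2 * ((q * n : ℤ) : ℂ) by
      push_cast; ring,
    show 2 * ((n : ℂ) + τ) = 2 * τ + 2 * ((n : ℤ) : ℂ) by ring,
    thetaShift_add_int _ _ _ (n * r : ℤ) (by push_cast; field_simp),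
    thetaShift_add_int _ _ _ (n * (r % 2 : ℕ) : ℤ)
      (by rw [Int.cast_mul, Int.cast_natCast]; field_simp), hu2, psiChar_intCast,
    mul_mul_mul_comm, ← Complex.exp_add]
  congr 2
  have h1 := congrArg (Nat.cast : ℕ → ℂ) hu
  have h2 : ((r % 2 : ℕ) : ℂ) ^ 2 = ((r % 2 : ℕ) : ℂ) := by
    rcases Nat.mod_two_eq_zero_or_one r with h | h <;> simp [h]
  push_cast at h1 h2 ⊢
  field_simp
  rw [h2]
  linear_combination (n : ℂ) * h1

lemma thetaV_add (hq4 : q % 4 = 3) (v : ZMod q) (n : ℤ) (τ : ℍ) :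
    thetaV q v ((n : ℝ) +ᵥ τ) = psiChar q (n * v ^ 2 / 4) * thetaV q v τ := by
  simp only [thetaV, UpperHalfPlane.coe_vadd, Complex.ofReal_intCast, thetaPiece_add hq4]
  push_cast
  rw [ZMod.natCast_self, add_zero, ZMod.natCast_zmod_val]
  ring

lemma thetaV_slash_S (hq4 : q % 4 = 3) (v : ZMod q) :
    thetaV q v ∣[(1 : ℤ)] S
      = ∑ w : ZMod q, (thetaConst q * psiChar q (v * w / 2)) • thetaV q w := by
  ext τ
  rw [ModularForm.SL_slash_apply, thetaV_inv hq4]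
  have hτ0 : (τ : ℂ) ≠ 0 := UpperHalfPlane.ne_zero τ
  simp only [Finset.sum_apply, Pi.smul_apply, smul_eq_mul, ModularGroup.denom_apply]
  rw [show ((S : SL(2, ℤ)) 1 0 : ℤ) = 1 by simp [ModularGroup.coe_S],
    show ((S : SL(2, ℤ)) 1 1 : ℤ) = 0 by simp [ModularGroup.coe_S]]
  push_cast
  rw [zpow_neg_one, Finset.mul_sum, Finset.sum_mul]
  refine Finset.sum_congr rfl fun w _ ↦ ?_
  linear_combination (thetaConst q * psiChar q (v * w / 2) * thetaV q w τ) * mul_inv_cancel₀ hτ0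

lemma thetaV_slash_T (hq4 : q % 4 = 3) (v : ZMod q) (n : ℤ) :
    thetaV q v ∣[(1 : ℤ)] (T ^ n) = psiChar q (n * v ^ 2 / 4) • thetaV q v := by
  ext τ
  rw [slash_T_zpow]
  exact thetaV_add hq4 v n τ

lemma mdiff_thetaV (v : ZMod q) : MDiff (thetaV q v) := by
  rw [UpperHalfPlane.mdifferentiable_iff]
  have h : ∀ (s c : ℂ) (r : ℝ), c = r → 0 < r →
      DifferentiableOn ℂ (fun τ ↦ thetaShift s (c * τ)) {z | 0 < z.im} := by
    intro s c r hc hr z hz
    have hz' : 0 < (c * z).im := by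
      rw [hc, Complex.im_ofReal_mul]; exact mul_pos hr hz
    refine DifferentiableAt.differentiableWithinAt ?_
    have h1 : DifferentiableAt ℂ (fun τ : ℂ ↦ jacobiTheta₂ (s * (c * τ)) (c * τ)) z :=
      (hasFDerivAt_jacobiTheta₂ (s * (c * z)) hz').differentiableAt.comp z
        (f := fun τ : ℂ ↦ (s * (c * τ), c * τ)) (by fun_prop)
    simp only [thetaShift]
    fun_prop
  have hq : (0 : ℝ) < q := by exact_mod_cast Nat.pos_of_ne_zero (prime_ne_zero' (p := q))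
  have hp : ∀ r, DifferentiableOn ℂ (thetaPiece q r) {z | 0 < z.im} := fun r ↦
    (h _ (2 * q) (2 * q) (by push_cast; rfl) (by positivity)).mul
      (h _ 2 2 (by push_cast; rfl) two_pos)
  refine ((hp v.val).add (hp (v.val + q))).congr fun z hz ↦ ?_
  simp [thetaV, ofComplex_apply_of_im_pos hz]

end FLTAgent.Eisenstein

end
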