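import Fermat.Agent.Eisenstein.ThetaFE
import Mathlib.NumberTheory.LegendreSymbol.AddCharacter
import Mathlib.NumberTheory.LegendreSymbol.QuadraticChar.Basic
import Mathlib.LinearAlgebra.Matrix.FixedDetMatrices
import Mathlib.Algebra.Group.Subgroup.Pointwise

/-!
# The theta series of discriminant `-q` under `SL(2, ℤ)`, and its `q`-expansion

`theta_slash` expresses every translate of `θ = thetaV q 0` by the bottom row of the matrix,
and `hasQExp_theta` gives its coefficients as the representation numbers `repCount`.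
-/

set_option autoImplicit false

open scoped Real MatrixGroups ModularForm Manifold
open UpperHalfPlane hiding I
open Complex ModularGroup

noncomputable section

namespace FLTAgent.Eisenstein

variable {q : ℕ} [Fact q.Prime]

/-- The quadratic character with complex values. -/
def chiC (x : ZMod q) : ℂ := ((quadraticChar (ZMod q) x : ℤ) : ℂ)

lemma chiC_zero : chiC (0 : ZMod q) = 0 := by simp [chiC]

lemma chiC_one : chiC (1 : ZMod q) = 1 := by simp [chiC]

lemma chiC_mul (x y : ZMod q) : chiC (x * y) = chiC x * chiC y := by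
  simp [chiC, map_mul]

lemma chiC_sq {x : ZMod q} (hx : x ≠ 0) : chiC x * chiC x = 1 := by
  rw [← sq, chiC, ← Int.cast_pow, quadraticChar_sq_one hx, Int.cast_one]

lemma ringChar_ne_two (hq4 : q % 4 = 3) : ringChar (ZMod q) ≠ 2 := by
  rw [ZMod.ringChar_zmod_n]; omega

lemma chiC_neg (hq4 : q % 4 = 3) (x : ZMod q) : chiC (-x) = -chiC x := by
  rw [← neg_one_mul x, chiC_mul, chiC, quadraticChar_neg_one (ringChar_ne_two hq4), ZMod.card,
    ZMod.χ₄_nat_three_mod_four hq4]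
  simp

lemma chiC_inv (x : ZMod q) : chiC x⁻¹ = chiC x := by
  rcases eq_or_ne x 0 with rfl | hx
  · rw [inv_zero]
  · calc chiC x⁻¹ = chiC x⁻¹ * (chiC x * chiC x) := by rw [chiC_sq hx, mul_one]
      _ = chiC x := by rw [← mul_assoc, ← chiC_mul, inv_mul_cancel₀ hx, chiC_one, one_mul]

lemma psiChar_isPrimitive : (psiChar q).IsPrimitive := ZMod.isPrimitive_stdAddChar q

lemma sum_psi_mul (b : ZMod q) :
    ∑ x : ZMod q, psiChar q (x * b) = if b = 0 then (q : ℂ) else 0 := by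
  rw [AddChar.sum_mulShift b psiChar_isPrimitive, ZMod.card]
  split_ifs <;> simp

/-- The Gauss sum `∑ ψ(x²)`. -/
def gaussQ (q : ℕ) [Fact q.Prime] : ℂ := ∑ x : ZMod q, psiChar q (x ^ 2)

lemma sum_comp_sq (hq4 : q % 4 = 3) (F : ZMod q → ℂ) :
    ∑ v : ZMod q, F (v ^ 2) = ∑ b : ZMod q, (chiC b + 1) * F b := by
  classical
  rw [← Finset.sum_fiberwise_of_maps_to (g := fun v : ZMod q ↦ v ^ 2)
    (fun v _ ↦ Finset.mem_univ _) fun v ↦ F (v ^ 2)]
  refine Finset.sum_congr rfl fun b _ ↦ ?_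
  rw [Finset.sum_congr rfl fun v hv ↦ congrArg F (Finset.mem_filter.mp hv).2, Finset.sum_const,
    nsmul_eq_mul]
  congr 1
  have h := congrArg (Int.cast : ℤ → ℂ) (quadraticChar_card_sqrts (ringChar_ne_two hq4) b)
  rw [Int.cast_add, Int.cast_one, Int.cast_natCast] at h
  rw [chiC, ← h]
  congr 2
  ext v
  simp

lemma gauss_scale (hq4 : q % 4 = 3) {a : ZMod q} (ha : a ≠ 0) :
    ∑ v : ZMod q, psiChar q (a * v ^ 2) = chiC a * gaussQ q := by
  have h : ∀ c : ZMod q, c ≠ 0 →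
      ∑ v : ZMod q, psiChar q (c * v ^ 2) = ∑ b : ZMod q, chiC b * psiChar q (b * c) := by
    intro c hc
    rw [sum_comp_sq hq4 fun b ↦ psiChar q (c * b)]
    simp only [add_mul, one_mul, Finset.sum_add_distrib, mul_comm c]
    rw [sum_psi_mul, if_neg hc, add_zero]
  rw [h a ha, gaussQ, ← Finset.sum_congr rfl fun v _ ↦ congrArg _ (one_mul (v ^ 2)),
    h 1 one_ne_zero, Finset.mul_sum]
  refine Finset.sum_bij' (fun b _ ↦ b * a) (fun c _ ↦ c * a⁻¹) (fun _ _ ↦ Finset.mem_univ _)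
    (fun _ _ ↦ Finset.mem_univ _) (fun b _ ↦ by field_simp) (fun c _ ↦ by field_simp)
    fun b _ ↦ ?_
  rw [mul_one, ← mul_assoc, chiC_mul, mul_left_comm (chiC a), chiC_sq ha, mul_one]

lemma complete_square (hq4 : q % 4 = 3) {t : ZMod q} (ht : t ≠ 0) (w : ZMod q) :
    ∑ v : ZMod q, psiChar q (t * v ^ 2 / 4 + v * w / 2)
      = chiC t * gaussQ q * psiChar q (-(w ^ 2) / (4 * t)) := by
  have h2 := two_ne_zero_zmod hq4
  have h4 : (4 : ZMod q) ≠ 0 := by
    rw [show (4 : ZMod q) = 2 * 2 by norm_num]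
    exact mul_ne_zero h2 h2
  have hc : chiC (t / 4) = chiC t := by
    rw [div_eq_mul_inv, chiC_mul, chiC_inv, show (4 : ZMod q) = 2 * 2 by norm_num, chiC_mul,
      chiC_sq h2, mul_one]
  rw [← hc, ← gauss_scale hq4 (div_ne_zero ht h4), Finset.sum_mul,
    ← Equiv.sum_comp (Equiv.addRight (w / t))
      fun v ↦ psiChar q (t / 4 * v ^ 2) * psiChar q (-(w ^ 2) / (4 * t))]
  refine Finset.sum_congr rfl fun v _ ↦ ?_
  rw [← AddChar.map_add_eq_mul, Equiv.coe_addRight]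
  congr 1
  field_simp
  ring

/-- The value of `θ₀ ∣ γ` in terms of the bottom row `(c, d)` of `γ` modulo `q`. -/
def thetaImage (q : ℕ) [Fact q.Prime] (c d : ZMod q) : ℍ → ℂ :=
  if c = 0 then chiC d • thetaV q 0
  else ∑ v : ZMod q, (thetaConst q * chiC c * psiChar q (v ^ 2 * (d / c) / 4)) • thetaV q v

lemma sum_slash_S (hq4 : q % 4 = 3) (a : ZMod q → ℂ) :
    (∑ v, a v • thetaV q v) ∣[(1 : ℤ)] S
      = ∑ w, (thetaConst q * ∑ v, a v * psiChar q (v * w / 2)) • thetaV q w := by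
  simp only [SlashAction.sum_slash, ModularForm.SL_smul_slash, thetaV_slash_S hq4, Finset.smul_sum,
    smul_smul]
  rw [Finset.sum_comm]
  refine Finset.sum_congr rfl fun w _ ↦ ?_
  rw [Finset.mul_sum, Finset.sum_smul]
  refine Finset.sum_congr rfl fun v _ ↦ ?_
  congr 1
  ring

lemma sum_slash_T (hq4 : q % 4 = 3) (a : ZMod q → ℂ) (n : ℤ) :
    (∑ v, a v • thetaV q v) ∣[(1 : ℤ)] (T ^ n)
      = ∑ v, (a v * psiChar q (n * v ^ 2 / 4)) • thetaV q v := by
  simp only [SlashAction.sum_slash, ModularForm.SL_smul_slash, thetaV_slash_T hq4, smul_smul]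

lemma thetaV_zero_slash_S (hq4 : q % 4 = 3) :
    thetaV q 0 ∣[(1 : ℤ)] S = ∑ w, thetaConst q • thetaV q w := by
  rw [thetaV_slash_S hq4]
  refine Finset.sum_congr rfl fun w _ ↦ ?_
  simp

lemma slash_neg_one (f : ℍ → ℂ) : f ∣[(1 : ℤ)] (-1 : SL(2, ℤ)) = -f := by
  ext τ
  rw [ModularForm.SL_slash_apply]
  simp [UpperHalfPlane.denom]

/-- Integers `(A, B)` with `q A² + B² = 4 N`. -/
def repFinset (q N : ℕ) : Finset (ℤ × ℤ) :=
  (Finset.Icc (-(4 * N : ℤ)) (4 * N) ×ˢ Finset.Icc (-(4 * N : ℤ)) (4 * N)).filter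
    fun x ↦ (q : ℤ) * x.1 ^ 2 + x.2 ^ 2 = 4 * N

/-- The number of such pairs. -/
def repCount (q N : ℕ) : ℕ := (repFinset q N).card

lemma mem_repFinset {N : ℕ} {x : ℤ × ℤ} :
    x ∈ repFinset q N ↔ (q : ℤ) * x.1 ^ 2 + x.2 ^ 2 = 4 * N := by
  refine ⟨fun h ↦ (Finset.mem_filter.mp h).2, fun h ↦ Finset.mem_filter.mpr ⟨?_, h⟩⟩
  have hq : (1 : ℤ) ≤ q := by exact_mod_cast (Fact.out : q.Prime).one_le
  have h1 : x.1 ^ 2 ≤ 4 * N := by nlinarith [sq_nonneg x.2, sq_nonneg x.1]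
  have h2 : x.2 ^ 2 ≤ 4 * N := by nlinarith [sq_nonneg x.1]
  have := Int.le_self_sq x.1
  have := Int.le_self_sq (-x.1)
  have := Int.le_self_sq x.2
  have := Int.le_self_sq (-x.2)
  simp only [neg_sq] at *
  simp only [Finset.mem_product, Finset.mem_Icc]
  omega

omit [Fact (Nat.Prime q)] in
lemma parity_of_rep (hq4 : q % 4 = 3) {A B : ℤ} (h : (4 : ℤ) ∣ (q : ℤ) * A ^ 2 + B ^ 2) :
    A % 2 = B % 2 := by
  obtain ⟨c, hc⟩ := h
  obtain ⟨k, hk⟩ : ∃ k : ℕ, q = 4 * k + 3 := ⟨q / 4, by omega⟩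
  have h2 : (2 : ℤ) ∣ A ^ 2 + B ^ 2 := ⟨2 * c - (2 * k + 1) * A ^ 2, by
    rw [hk] at hc; push_cast at hc; linear_combination hc⟩
  have e : ∀ a : ℤ, a ^ 2 % 2 = a % 2 := fun a ↦ by
    rcases Int.emod_two_eq_zero_or_one a with h | h <;> rw [sq, Int.mul_emod, h] <;> norm_num
  have := e A
  have := e B
  omega

lemma hasSum_mul_pair {f g : ℤ → ℂ} {a b : ℂ} (hf : HasSum f a) (hg : HasSum g b) :
    HasSum (fun m : ℤ × ℤ ↦ f m.1 * g m.2) (a * b) := by
  have h := summable_mul_of_summable_norm hf.summable.norm hg.summable.norm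
  exact hf.mul hg h

/-- The `q`-expansion of `θ₀`. -/
lemma hasQExp_theta (hq4 : q % 4 = 3) :
    HasQExp 1 (thetaV q 0) (PowerSeries.mk fun N ↦ (repCount q N : ℂ)) := by
  intro τ
  have hτ := τ.im_pos
  have hqC : (q : ℂ) ≠ 0 := q_natCast_ne_zero
  set z := qh 1 τ with hz
  let Rep := {x : ℤ × ℤ // (4 : ℤ) ∣ (q : ℤ) * x.1 ^ 2 + x.2 ^ 2}
  let nrm : Rep → ℕ := fun x ↦ (((q : ℤ) * x.1.1 ^ 2 + x.1.2 ^ 2) / 4).toNat
  have hnrm : ∀ x : Rep, 4 * (nrm x : ℤ) = (q : ℤ) * x.1.1 ^ 2 + x.1.2 ^ 2 := fun x ↦ by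
    have := Int.toNat_of_nonneg (show (0 : ℤ) ≤ ((q : ℤ) * x.1.1 ^ 2 + x.1.2 ^ 2) / 4 from
      Int.ediv_nonneg (by positivity) (by norm_num))
    rw [show (nrm x : ℤ) = ((q : ℤ) * x.1.1 ^ 2 + x.1.2 ^ 2) / 4 from this,
      Int.mul_ediv_cancel' x.2]
  obtain ⟨k, hk⟩ : ∃ k : ℕ, q = 4 * k + 3 := ⟨q / 4, by omega⟩
  let e : (ℤ × ℤ) ⊕ (ℤ × ℤ) → Rep := Sum.elim
    (fun m ↦ ⟨(2 * m.1, 2 * m.2), ⟨(q : ℤ) * m.1 ^ 2 + m.2 ^ 2, by ring⟩⟩)
    (fun m ↦ ⟨(2 * m.1 + 1, 2 * m.2 + 1),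
      ⟨(q : ℤ) * (m.1 ^ 2 + m.1) + m.2 ^ 2 + m.2 + (k + 1), by rw [hk]; push_cast; ring⟩⟩)
  have he : Function.Bijective e := by
    refine ⟨?_, fun x ↦ ?_⟩
    · rintro (⟨a, b⟩ | ⟨a, b⟩) (⟨c, d⟩ | ⟨c, d⟩) h <;>
        (have h' := congrArg Subtype.val h; simp [e, Prod.ext_iff] at h' ⊢; omega)
    · obtain ⟨⟨A, B⟩, hx⟩ := x
      have := parity_of_rep hq4 hx
      rcases Int.emod_two_eq_zero_or_one A with hA | hA
      · exact ⟨Sum.inl (A / 2, B / 2), Subtype.ext (by simp [e]; omega)⟩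
      · exact ⟨Sum.inr (A / 2, B / 2), Subtype.ext (by simp [e]; omega)⟩
  have hq0 : (0 : ℝ) < q := by exact_mod_cast Nat.pos_of_ne_zero (prime_ne_zero' (p := q))
  have him1 : 0 < (2 * (q : ℂ) * (τ : ℂ)).im := by
    rw [show 2 * (q : ℂ) = ((2 * q : ℝ) : ℂ) by push_cast; rfl, Complex.im_ofReal_mul]
    positivity
  have him2 : 0 < (2 * (τ : ℂ)).im := by simpa using hτ
  have hterm : ∀ (s : ℂ) (a b : ℤ) (x : Rep), (x.1.1 : ℂ) = 2 * a + 2 * s →
      (x.1.2 : ℂ) = 2 * b + 2 * s → z ^ nrm x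
        = cexp (π * I * (2 * q * τ) * (a + s) ^ 2) * cexp (π * I * (2 * τ) * (b + s) ^ 2) := by
    intro s a b x h1 h2
    rw [hz, qh, Function.Periodic.qParam, ← Complex.exp_nat_mul, ← Complex.exp_add]
    congr 1
    have h := congrArg (Int.cast : ℤ → ℂ) (hnrm x)
    push_cast at h ⊢
    rw [h1, h2] at h
    rw [div_one]
    linear_combination (2 * π * I * (τ : ℂ) / 4) * h
  have hprod : ∀ s : ℂ, HasSum
      (fun m : ℤ × ℤ ↦ cexp (π * I * (2 * q * τ) * (m.1 + s) ^ 2)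
        * cexp (π * I * (2 * τ) * (m.2 + s) ^ 2))
      (thetaShift s (2 * q * τ) * thetaShift s (2 * τ)) := fun s ↦
    hasSum_mul_pair (f := fun n : ℤ ↦ cexp (π * I * (2 * q * τ) * (n + s) ^ 2))
      (g := fun n : ℤ ↦ cexp (π * I * (2 * τ) * (n + s) ^ 2))
      (hasSum_thetaShift s him1) (hasSum_thetaShift s him2)
  have hall : HasSum (fun x : Rep ↦ z ^ nrm x) (thetaV q 0 τ) := by
    refine (Equiv.ofBijective e he).hasSum_iff.mp ?_
    have hqodd : q % 2 = 1 := by omega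
    rw [thetaV, ZMod.val_zero, zero_add, thetaPiece, thetaPiece, hqodd]
    refine HasSum.sum ?_ ?_
    · convert (hprod 0).congr_fun fun m ↦ hterm 0 m.1 m.2 (e (Sum.inl m)) (by simp [e])
        (by simp [e]) using 2 <;> simp
    · have hh : ((q : ℂ) / (2 * q)) = 1 / 2 := by field_simp
      rw [hh, show (((1 : ℕ) : ℂ) / 2) = 1 / 2 by simp]
      exact (hprod (1 / 2)).congr_fun fun m ↦ hterm (1 / 2) m.1 m.2 (e (Sum.inr m))
        (by simp [e]) (by simp [e])
  have h' := (Equiv.sigmaFiberEquiv nrm).hasSum_iff.mpr hall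
  refine h'.sigma fun N ↦ ?_
  let ε : {x : Rep // nrm x = N} ≃ ↥(repFinset q N) :=
    { toFun := fun x ↦ ⟨x.1.1, mem_repFinset.mpr (by rw [← hnrm x.1, x.2])⟩
      invFun := fun y ↦ ⟨⟨y.1, N, by rw [mem_repFinset.mp y.2]⟩, by
        have h := (hnrm ⟨y.1, N, by rw [mem_repFinset.mp y.2]⟩).trans (mem_repFinset.mp y.2)
        omega⟩
      left_inv := fun x ↦ rfl
      right_inv := fun y ↦ rfl }
  have := Fintype.ofEquiv _ ε.symm
  have h := (hasSum_fintype (L := SummationFilter.unconditional _)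
      fun _ : {x : Rep // nrm x = N} ↦ z ^ N).congr_fun
    (g := fun c ↦ ((fun x : Rep ↦ z ^ nrm x) ∘ ⇑(Equiv.sigmaFiberEquiv nrm)) ⟨N, c⟩)
    fun c ↦ congrArg (z ^ ·) c.2
  rw [Finset.sum_const, Finset.card_univ, Fintype.card_congr ε, Fintype.card_coe,
    nsmul_eq_mul] at h
  rw [PowerSeries.coeff_mk, repCount]
  exact h

lemma repCount_zero : repCount q 0 = 1 := by
  rw [repCount, Finset.card_eq_one]
  refine ⟨(0, 0), Finset.eq_singleton_iff_unique_mem.mpr ⟨mem_repFinset.mpr (by simp), ?_⟩⟩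
  intro x hx
  have h := (Finset.mem_filter.mp hx).1
  simp only [CharP.cast_eq_zero, mul_zero, neg_zero, Finset.Icc_self, Finset.mem_product,
    Finset.mem_singleton] at h
  exact Prod.ext h.1 h.2

lemma repCount_mul_self (N : ℕ) : repCount q (q * N) = repCount q N := by
  refine (Finset.card_bij (fun x _ ↦ (x.2, (q : ℤ) * x.1)) (fun x hx ↦ ?_) (fun a _ b _ h ↦ ?_)
    fun y hy ↦ ?_).symm
  · rw [mem_repFinset] at hx ⊢
    push_cast
    linear_combination (q : ℤ) * hx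
  · simp only [Prod.mk.injEq, mul_eq_mul_left_iff, Nat.cast_eq_zero, prime_ne_zero',
      or_false] at h
    exact Prod.ext h.2 h.1
  · rw [mem_repFinset] at hy
    push_cast at hy
    have hd : (q : ℤ) ∣ y.2 := by
      refine (Nat.prime_iff_prime_int.mp Fact.out).dvd_of_dvd_pow (n := 2) ⟨4 * N - y.1 ^ 2, ?_⟩
      linear_combination hy
    obtain ⟨b, hb⟩ := hd
    refine ⟨(b, y.1), mem_repFinset.mpr ?_, Prod.ext rfl hb.symm⟩
    rw [hb] at hy
    have hq : (q : ℤ) ≠ 0 := Int.natCast_ne_zero.mpr prime_ne_zero'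
    exact mul_left_cancel₀ hq (by linear_combination hy)

lemma repCount_even {N : ℕ} (hN : N ≠ 0) : 2 ∣ repCount q N := by
  rw [← ZMod.natCast_eq_zero_iff, repCount, Finset.cast_card]
  refine Finset.sum_involution (fun x _ ↦ -x) (fun _ _ ↦ by decide) (fun x hx _ h ↦ ?_)
    (fun x hx ↦ ?_) fun _ _ ↦ neg_neg _
  · have h1 := congrArg Prod.fst h
    have h2 := congrArg Prod.snd h
    simp only [Prod.fst_neg, Prod.snd_neg] at h1 h2
    have e1 : x.1 = 0 := by omega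
    have e2 : x.2 = 0 := by omega
    have := mem_repFinset.mp hx
    rw [e1, e2] at this
    simp at this
    exact hN this
  · rw [mem_repFinset] at hx ⊢
    simpa using hx

/-- The normalisation of the Gauss sum. -/
lemma thetaConst_mul_gaussQ (hq4 : q % 4 = 3) : thetaConst q * gaussQ q = 1 := by
  have h2 := two_ne_zero_zmod hq4
  set C := thetaConst q
  set g := gaussQ q
  have hT : thetaV q 0 ∣[(1 : ℤ)] T = thetaV q 0 := by
    have := thetaV_slash_T hq4 (0 : ZMod q) 1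
    rw [zpow_one] at this
    simpa using this
  have h1 : (thetaV q 0 ∣[(1 : ℤ)] S) ∣[(1 : ℤ)] T
      = ∑ v, (C * psiChar q (v ^ 2 / 4)) • thetaV q v := by
    rw [thetaV_zero_slash_S hq4, ← zpow_one T, sum_slash_T hq4]
    simp [C]
  have h2' : ((thetaV q 0 ∣[(1 : ℤ)] S) ∣[(1 : ℤ)] T) ∣[(1 : ℤ)] S
      = ∑ w, (C ^ 2 * g * psiChar q (-(w ^ 2) / 4)) • thetaV q w := by
    rw [h1, sum_slash_S hq4]
    refine Finset.sum_congr rfl fun w _ ↦ ?_
    congr 1
    simp only [mul_assoc C, ← AddChar.map_add_eq_mul, ← Finset.mul_sum]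
    have := complete_square hq4 (one_ne_zero : (1 : ZMod q) ≠ 0) w
    simp only [one_mul, mul_one, chiC_one] at this
    rw [this]
    ring
  have h3 : (((thetaV q 0 ∣[(1 : ℤ)] S) ∣[(1 : ℤ)] T) ∣[(1 : ℤ)] S) ∣[(1 : ℤ)] T
      = ∑ w, (C ^ 2 * g) • thetaV q w := by
    rw [h2', ← zpow_one T, sum_slash_T hq4]
    refine Finset.sum_congr rfl fun w _ ↦ ?_
    congr 1
    rw [mul_assoc, ← AddChar.map_add_eq_mul,
      show -(w ^ 2) / 4 + ((1 : ℤ) : ZMod q) * w ^ 2 / 4 = 0 by push_cast; ring,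
      AddChar.map_zero_eq_one, mul_one]
  have h4 : ((((thetaV q 0 ∣[(1 : ℤ)] S) ∣[(1 : ℤ)] T) ∣[(1 : ℤ)] S) ∣[(1 : ℤ)] T) ∣[(1 : ℤ)] S
      = (-(C * g)) • thetaV q 0 := by
    rw [h3, sum_slash_S hq4, Finset.sum_eq_single (0 : ZMod q)]
    · congr 1
      simp only [mul_zero, zero_div, AddChar.map_zero_eq_one, mul_one, Finset.sum_const,
        Finset.card_univ, ZMod.card, nsmul_eq_mul]
      have hq : (q : ℂ) ≠ 0 := q_natCast_ne_zero
      have hs : C ^ 2 * q = -1 := by rw [thetaConst_sq]; field_simp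
      linear_combination (C * g) * hs
    · intro w _ hw
      rw [← Finset.mul_sum, show (∑ v : ZMod q, psiChar q (v * w / 2)) = 0 from ?_, mul_zero,
        mul_zero, zero_smul]
      simp only [mul_div_assoc]
      rw [sum_psi_mul, if_neg (div_ne_zero hw h2)]
    · exact fun h ↦ absurd (Finset.mem_univ _) h
  have h6 : thetaV q 0 ∣[(1 : ℤ)] (S * T * S * T * S * T) = -thetaV q 0 := by
    rw [show S * T * S * T * S * T = (-1 : SL(2, ℤ)) by decide, slash_neg_one]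
  simp only [SlashAction.slash_mul] at h6
  rw [h4, ModularForm.SL_smul_slash, hT] at h6
  have h7 := congrArg (PowerSeries.coeff 0) (((hasQExp_theta hq4).smul (-(C * g))).unique one_pos
    (h6 ▸ (hasQExp_theta hq4).neg))
  simp [repCount_zero] at h7
  linear_combination h7

lemma thetaImage_slash_T (hq4 : q % 4 = 3) (c d : ZMod q) (n : ℤ) :
    thetaImage q c d ∣[(1 : ℤ)] (T ^ n) = thetaImage q c (n * c + d) := by
  rcases eq_or_ne c 0 with rfl | hc
  · rw [thetaImage, thetaImage, if_pos rfl, if_pos rfl, ModularForm.SL_smul_slash,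
      thetaV_slash_T hq4]
    simp
  · rw [thetaImage, thetaImage, if_neg hc, if_neg hc, sum_slash_T hq4]
    refine Finset.sum_congr rfl fun v _ ↦ ?_
    congr 1
    rw [mul_assoc, ← AddChar.map_add_eq_mul]
    congr 2
    field_simp
    ring

lemma thetaImage_slash_S (hq4 : q % 4 = 3) {c d : ZMod q} (h : c ≠ 0 ∨ d ≠ 0) :
    thetaImage q c d ∣[(1 : ℤ)] S = thetaImage q d (-c) := by
  have hq : (q : ℂ) ≠ 0 := q_natCast_ne_zero
  have h2 := two_ne_zero_zmod hq4
  rcases eq_or_ne c 0 with rfl | hc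
  · have hd : d ≠ 0 := h.resolve_left (fun e ↦ e rfl)
    rw [thetaImage, thetaImage, if_pos rfl, if_neg hd, ModularForm.SL_smul_slash,
      thetaV_zero_slash_S hq4, Finset.smul_sum]
    refine Finset.sum_congr rfl fun v _ ↦ ?_
    rw [smul_smul]
    congr 1
    simp [mul_comm]
  rcases eq_or_ne d 0 with rfl | hd
  · rw [thetaImage, thetaImage, if_neg hc, if_pos rfl, sum_slash_S hq4,
      Finset.sum_eq_single (0 : ZMod q)]
    · congr 1
      simp only [zero_div, mul_zero, AddChar.map_zero_eq_one, mul_one, Finset.sum_const,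
        Finset.card_univ, ZMod.card, nsmul_eq_mul, chiC_neg hq4]
      have hs : thetaConst q ^ 2 * q = -1 := by rw [thetaConst_sq]; field_simp
      linear_combination chiC c * hs
    · intro w _ hw
      simp only [zero_div, mul_zero, AddChar.map_zero_eq_one, mul_one, ← Finset.mul_sum]
      simp only [mul_div_assoc]
      rw [sum_psi_mul, if_neg (div_ne_zero hw h2), mul_zero, mul_zero, zero_smul]
    · exact fun h ↦ absurd (Finset.mem_univ _) h
  · rw [thetaImage, thetaImage, if_neg hc, if_neg hd, sum_slash_S hq4]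
    refine Finset.sum_congr rfl fun w _ ↦ ?_
    congr 1
    have e : ∀ v : ZMod q, thetaConst q * chiC c * psiChar q (v ^ 2 * (d / c) / 4)
        * psiChar q (v * w / 2)
        = thetaConst q * chiC c * psiChar q (d / c * v ^ 2 / 4 + v * w / 2) := fun v ↦ by
      rw [mul_assoc, ← AddChar.map_add_eq_mul]
      congr 2
      ring
    simp only [e, ← Finset.mul_sum]
    rw [complete_square hq4 (div_ne_zero hd hc), div_eq_mul_inv d c, chiC_mul, chiC_inv,
      show -(w ^ 2) / (4 * (d * c⁻¹)) = w ^ 2 * (-c / d) / 4 by field_simp]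
    linear_combination (thetaConst q * chiC d * psiChar q (w ^ 2 * (-c / d) / 4)) *
        (chiC_sq hc) +
      (thetaConst q * chiC c * chiC c * chiC d * psiChar q (w ^ 2 * (-c / d) / 4)) *
        (thetaConst_mul_gaussQ hq4)

lemma thetaImage_neg (hq4 : q % 4 = 3) (c d : ZMod q) :
    thetaImage q (-c) (-d) = -thetaImage q c d := by
  rcases eq_or_ne c 0 with rfl | hc
  · simp [thetaImage, chiC_neg hq4]
  · rw [thetaImage, thetaImage, if_neg (neg_ne_zero.mpr hc), if_neg hc, ← Finset.sum_neg_distrib]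
    refine Finset.sum_congr rfl fun v _ ↦ ?_
    rw [← _root_.neg_smul]
    congr 1
    rw [chiC_neg hq4, neg_div_neg_eq]
    ring

/-- The action of `SL(2, ℤ)` on `θ₀`. -/
theorem theta_slash (hq4 : q % 4 = 3) (γ : SL(2, ℤ)) :
    thetaV q 0 ∣[(1 : ℤ)] γ
      = thetaImage q ((γ 1 0 : ℤ) : ZMod q) ((γ 1 1 : ℤ) : ZMod q) := by
  have hrow : ∀ x : SL(2, ℤ), ((x 1 0 : ℤ) : ZMod q) ≠ 0 ∨ ((x 1 1 : ℤ) : ZMod q) ≠ 0 := by
    intro x
    by_contra h
    simp only [not_or, not_not] at h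
    have hd : x 0 0 * x 1 1 - x 0 1 * x 1 0 = 1 := by rw [← Matrix.det_fin_two]; exact x.2
    have := congrArg (Int.cast : ℤ → ZMod q) hd
    push_cast at this
    rw [h.1, h.2] at this
    simp at this
  let P : SL(2, ℤ) → Prop := fun x ↦ thetaV q 0 ∣[(1 : ℤ)] x
      = thetaImage q ((x 1 0 : ℤ) : ZMod q) ((x 1 1 : ℤ) : ZMod q)
  have hT : ∀ (x : SL(2, ℤ)) (n : ℤ), P x → P (x * T ^ n) := by
    intro x n hx
    simp only [P] at hx ⊢
    rw [SlashAction.slash_mul, hx, thetaImage_slash_T hq4]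
    simp [ModularGroup.coe_T_zpow, Matrix.mul_apply, Fin.sum_univ_two, mul_comm]
  have hS : ∀ x : SL(2, ℤ), P x → P (x * S) := by
    intro x hx
    simp only [P] at hx ⊢
    rw [SlashAction.slash_mul, hx, thetaImage_slash_S hq4 (hrow x)]
    simp [ModularGroup.coe_S, Matrix.mul_apply, Fin.sum_univ_two]
  have hN : ∀ x : SL(2, ℤ), P x → P (x * -1) := by
    intro x hx
    simp only [P] at hx ⊢
    rw [SlashAction.slash_mul, hx, slash_neg_one, ← thetaImage_neg hq4]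
    simp
  have hmem : γ ∈ Subgroup.closure ({S, T} : Set SL(2, ℤ)) := by
    simp [SpecialLinearGroup.SL2Z_generators]
  show P γ
  induction hmem using Subgroup.closure_induction_right with
  | one =>
    simp [P, thetaImage, chiC_one]
  | mul_right x hx y hy ih =>
    rcases hy with rfl | rfl
    · exact hS x ih
    · simpa using hT x 1 ih
  | mul_inv_cancel x hx y hy ih =>
    rcases hy with rfl | rfl
    · rw [show (S : SL(2, ℤ))⁻¹ = S * -1 by decide, ← mul_assoc]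
      exact hN _ (hS x ih)
    · simpa using hT x (-1) ih

end FLTAgent.Eisenstein

end
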