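import Fermat.Agent.Eisenstein.LevelOne
import Fermat.Agent.Eisenstein.CosetFamily
import Fermat.Prelude.Def_ModularForm_HeckeOperatorForms
import Fermat.Prelude.Thm_ModularFormClass_qCoeff_heckeU
import Fermat.Prelude.Thm_CongruenceSubgroup_one_mem_strictPeriods_Gamma0

/-!
# Weight two forms on `Γ₀(p)`, `p` prime

The expansion at the second cusp through `U_p` (`hasQExp_slash_S`), vanishing at all cusps when
the constant term vanishes (`isZeroAt_of_qCoeff_zero`), and trace identities to level one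
(`sum_familyOf`, `trace_mul_identity`, `qCoeff_mul_p_mul_p`).
-/

set_option autoImplicit false

open scoped Topology Real MatrixGroups ModularForm Manifold
open UpperHalfPlane hiding I
open Complex Filter CongruenceSubgroup ModularGroup ModularFormClass
open Matrix.SpecialLinearGroup (mapGL)

noncomputable section

namespace FLTAgent.Eisenstein

variable {p : ℕ} [Fact p.Prime]

lemma prime_ne_zero' : p ≠ 0 := (Fact.out : p.Prime).ne_zero

instance instNeZeroOfFactPrime' : NeZero p := ⟨prime_ne_zero'⟩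

/-- The series `∑ a_n qⁿ` of a weight two form. -/
def serOf (f : ℍ → ℂ) : PowerSeries ℂ := PowerSeries.mk (qCoeff f)

/-- The series `∑ a_{np} qⁿ`. -/
def serU' (p : ℕ) (f : ℍ → ℂ) : PowerSeries ℂ := PowerSeries.mk fun n ↦ qCoeff f (n * p)

lemma hasQExp_serOf {N : ℕ} [NeZero N] {k : ℤ} (G : ModularForm (Gamma0 N) k) :
    HasQExp 1 ⇑G (serOf G) := by
  have h : serOf (⇑G : ℍ → ℂ) = qExpansion 1 ⇑G := by
    ext n; simp [serOf, qCoeff]
  rw [h]
  exact hasQExp_qExpansion G (one_mem_strictPeriods_Gamma0 N)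

lemma slash_eq_of_mem {N : ℕ} {k : ℤ} (G : ModularForm (Gamma0 N) k) {γ : SL(2, ℤ)}
    (h : γ ∈ Gamma0 N) : ⇑G ∣[k] γ = ⇑G :=
  SlashInvariantFormClass.slash_action_eq G _ ⟨γ, h, rfl⟩

lemma slash_T_zpow (f : ℍ → ℂ) (k : ℤ) (n : ℤ) :
    f ∣[k] (T ^ n) = fun τ ↦ f ((n : ℝ) +ᵥ τ) := by
  ext τ
  rw [ModularForm.SL_slash_apply, modular_T_zpow_smul]
  rw [ModularGroup.denom_apply, ModularGroup.coe_T_zpow]
  simp

/-- The family of translates of `G` over `Γ₀(p) \ SL(2,ℤ)`. -/
def familyOf {k : ℤ} (G : ModularForm (Gamma0 p) k) (i : Option (ZMod p)) : ℍ → ℂ :=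
  ⇑G ∣[k] cosetRep i

omit [Fact (Nat.Prime p)] in
@[simp] lemma familyOf_none {k : ℤ} (G : ModularForm (Gamma0 p) k) : familyOf G none = ⇑G := by
  simp [familyOf, cosetRep]

lemma familyOf_slash {k : ℤ} (G : ModularForm (Gamma0 p) k) (γ : SL(2, ℤ))
    (i : Option (ZMod p)) : familyOf G i ∣[k] γ = familyOf G (cosetPerm γ i) := by
  rw [familyOf, familyOf, ← SlashAction.slash_mul]
  exact apply_cosetPerm (fun g ↦ ⇑G ∣[k] g)
    (fun h hh g ↦ by simp only [SlashAction.slash_mul, slash_eq_of_mem G hh]) γ i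

omit [Fact (Nat.Prime p)] in
lemma mdiff_familyOf {k : ℤ} (G : ModularForm (Gamma0 p) k) (i : Option (ZMod p)) :
    MDiff (familyOf G i) := G.holo'.slash k _

lemma bounded_familyOf {k : ℤ} (G : ModularForm (Gamma0 p) k) (i : Option (ZMod p)) :
    IsBoundedAtImInfty (familyOf G i) := ModularFormClass.bdd_at_infty_slash G _

variable (G H : ModularForm (Gamma0 p) 2)

lemma sum_familyOf : ∑ i, familyOf G i = 0 := by
  refine levelOne_weight_two_eq_zero (fun γ ↦ ?_) ?_ ?_
  · rw [SlashAction.sum_slash]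
    simp only [familyOf_slash]
    exact Equiv.sum_comp (cosetPerm γ) (familyOf G)
  · exact MDifferentiable.sum fun i _ ↦ mdiff_familyOf G i
  · exact Finset.sum_induction _ IsBoundedAtImInfty (fun f g hf hg ↦ hf.add hg)
      (Filter.const_boundedAtFilter _ (0 : ℂ))
      fun i _ ↦ bounded_familyOf G i

/-- The Atkin–Lehner transform as a function. -/
def wConjFun : ℍ → ℂ := (⇑G ∣[(2 : ℤ)] S) ∣[(2 : ℤ)] ModularForm.heckeDiagMatrix p

lemma mapGL_apply' (γ : SL(2, ℤ)) (i j : Fin 2) :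
    ((mapGL ℝ γ : GL (Fin 2) ℝ) : Matrix (Fin 2) (Fin 2) ℝ) i j = ((γ i j : ℤ) : ℝ) := rfl

lemma S_diag_mul (γ : SL(2, ℤ)) (c : ℤ) (hc : γ 1 0 = p * c) :
    ∃ γ' ∈ Gamma0 p, mapGL ℝ S * ModularForm.heckeDiagMatrix p * mapGL ℝ γ
      = mapGL ℝ γ' * (mapGL ℝ S * ModularForm.heckeDiagMatrix p) := by
  have hdet : γ 0 0 * γ 1 1 - γ 0 1 * γ 1 0 = 1 := by
    rw [← Matrix.det_fin_two]; exact γ.2
  let γ' : SL(2, ℤ) := ⟨!![γ 1 1, -c; -(p * γ 0 1), γ 0 0], by
    rw [Matrix.det_fin_two_of]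
    linear_combination hdet + γ 0 1 * hc⟩
  refine ⟨γ', ?_, ?_⟩
  · rw [Gamma0_mem]
    simp [γ']
  · have hc' : ((γ 1 0 : ℤ) : ℝ) = p * c := by exact_mod_cast hc
    refine Units.ext (Matrix.ext fun i j ↦ ?_)
    simp only [Matrix.GeneralLinearGroup.coe_mul, ModularForm.val_heckeDiagMatrix prime_ne_zero',
      Matrix.mul_apply, Fin.sum_univ_two, mapGL_apply']
    fin_cases i <;> fin_cases j <;>
      simp [γ', hc', ModularGroup.coe_S] <;> ring

lemma wConjFun_slash_of_mem {γ : SL(2, ℤ)} (h : γ ∈ Gamma0 p) :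
    wConjFun G ∣[(2 : ℤ)] γ = wConjFun G := by
  obtain ⟨c, hc⟩ := (ZMod.intCast_zmod_eq_zero_iff_dvd _ _).mp (Gamma0_mem.mp h)
  obtain ⟨γ', hγ', he⟩ := S_diag_mul (p := p) γ c hc
  show ((⇑G ∣[(2 : ℤ)] mapGL ℝ S) ∣[(2 : ℤ)] ModularForm.heckeDiagMatrix p) ∣[(2 : ℤ)] mapGL ℝ γ
    = (⇑G ∣[(2 : ℤ)] mapGL ℝ S) ∣[(2 : ℤ)] ModularForm.heckeDiagMatrix p
  rw [← SlashAction.slash_mul, ← SlashAction.slash_mul, ← mul_assoc, he, SlashAction.slash_mul,
    show ⇑G ∣[(2 : ℤ)] mapGL ℝ γ' = ⇑G from slash_eq_of_mem G hγ', SlashAction.slash_mul]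

lemma S_diag_S_T (j : ℕ) :
    mapGL ℝ S * ModularForm.heckeDiagMatrix p * mapGL ℝ (S * T ^ (j : ℤ))
      = mapGL ℝ (-1 : SL(2, ℤ)) * ModularForm.heckeMatrix p j := by
  refine Units.ext (Matrix.ext fun i k ↦ ?_)
  simp only [Matrix.GeneralLinearGroup.coe_mul, ModularForm.val_heckeDiagMatrix prime_ne_zero',
    ModularForm.val_heckeMatrix prime_ne_zero', Matrix.mul_apply, Fin.sum_univ_two, mapGL_apply']
  fin_cases i <;> fin_cases k <;>
    simp [Matrix.mul_apply, Fin.sum_univ_two, ModularGroup.coe_S, ModularGroup.coe_T_zpow,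
      -zpow_natCast]

lemma wConjFun_slash_rep (j : ZMod p) :
    wConjFun G ∣[(2 : ℤ)] cosetRep (some j) = ⇑G ∣[(2 : ℤ)] ModularForm.heckeMatrix p j.val := by
  show ((⇑G ∣[(2 : ℤ)] mapGL ℝ S) ∣[(2 : ℤ)] ModularForm.heckeDiagMatrix p)
      ∣[(2 : ℤ)] mapGL ℝ (S * T ^ (j.val : ℤ)) = _
  rw [← SlashAction.slash_mul, ← SlashAction.slash_mul, ← mul_assoc, S_diag_S_T,
    SlashAction.slash_mul,
    show ⇑G ∣[(2 : ℤ)] mapGL ℝ (-1 : SL(2, ℤ)) = ⇑G from
      slash_eq_of_mem G (by simp [Gamma0_mem])]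

omit [Fact (Nat.Prime p)] in
lemma mdiff_wConjFun : MDiff (wConjFun G) := (G.holo'.slash 2 _).slash 2 _

lemma bounded_wConjFun_slash (γ : SL(2, ℤ)) : IsBoundedAtImInfty (wConjFun G ∣[(2 : ℤ)] γ) := by
  have key : wConjFun G ∣[(2 : ℤ)] γ = wConjFun G ∣[(2 : ℤ)] cosetRep (cosetPoint (p := p) γ) :=
    apply_cosetPoint (p := p) (fun g ↦ wConjFun G ∣[(2 : ℤ)] g)
      (fun h hh g ↦ by simp only [SlashAction.slash_mul, wConjFun_slash_of_mem G hh]) γ
  rw [key]
  rcases cosetPoint (p := p) γ with _ | j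
  · rw [show cosetRep (none : Option (ZMod p)) = 1 from rfl, SlashAction.slash_one]
    refine IsBoundedAtImInfty.slash 2 ?_ (ModularFormClass.bdd_at_infty_slash G S)
    simp [ModularForm.val_heckeDiagMatrix prime_ne_zero']
  · rw [wConjFun_slash_rep]
    refine IsBoundedAtImInfty.slash 2 ?_ (ModularFormClass.bdd_at_infty G)
    simp [ModularForm.val_heckeMatrix prime_ne_zero']

/-- The Atkin–Lehner transform as a modular form. -/
def wConj : ModularForm (Gamma0 p) 2 where
  toFun := wConjFun G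
  slash_action_eq' := by
    rintro _ ⟨γ, hγ, rfl⟩
    exact wConjFun_slash_of_mem G hγ
  holo' := mdiff_wConjFun G
  bdd_at_cusps' {c} hc := by
    rw [Subgroup.IsArithmetic.isCusp_iff_isCusp_SL2Z] at hc
    rw [OnePoint.isBoundedAt_iff_forall_SL2Z hc]
    intro γ _
    exact bounded_wConjFun_slash G γ

lemma sum_zmod_val {M : Type*} [AddCommMonoid M] (f : ℕ → M) :
    ∑ j : ZMod p, f j.val = ∑ j ∈ Finset.range p, f j := by
  refine Finset.sum_bij (fun j _ ↦ j.val) (fun j _ ↦ Finset.mem_range.mpr (ZMod.val_lt j))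
    (fun a _ b _ h ↦ ZMod.val_injective p h) (fun b hb ↦ ⟨(b : ZMod p), Finset.mem_univ _, ?_⟩)
    (fun _ _ ↦ rfl)
  exact ZMod.val_cast_of_lt (Finset.mem_range.mp hb)

lemma wConjFun_eq : wConjFun G = -ModularForm.heckeU 2 p ⇑G := by
  have h := sum_familyOf (wConj G)
  rw [Fintype.sum_option, familyOf_none] at h
  have h2 : ∑ j : ZMod p, familyOf (wConj G) (some j) = ModularForm.heckeU 2 p ⇑G := by
    simp only [familyOf, show (⇑(wConj G) : ℍ → ℂ) = wConjFun G from rfl, wConjFun_slash_rep]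
    exact sum_zmod_val fun j ↦ ⇑G ∣[(2 : ℤ)] ModularForm.heckeMatrix p j
  rw [h2] at h
  exact eq_neg_of_add_eq_zero_left h

lemma hasQExp_heckeU : HasQExp 1 (ModularForm.heckeU 2 p ⇑G) (serU' p G) := by
  have h := hasQExp_serOf (ModularForm.heckeULin 2 (dvd_refl p) G)
  convert! h using 1
  ext n
  rw [serU', serOf, PowerSeries.coeff_mk, PowerSeries.coeff_mk, ModularForm.coe_heckeULin_apply,
    ModularFormClass.qCoeff_heckeU G (one_mem_strictPeriods_Gamma0 p) prime_ne_zero',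
    ModularForm.coeffHeckeU_apply]

/-- The expansion of a weight two form at the cusp `0`. -/
lemma hasQExp_slash_S : HasQExp p (⇑G ∣[(2 : ℤ)] S) (-(p : ℂ)⁻¹ • serU' p G) := by
  refine HasQExp.comp_div p prime_ne_zero' ((hasQExp_heckeU G).smul (-(p : ℂ)⁻¹)) fun τ ↦ ?_
  have hpos : 0 < ((τ : ℂ) / p).im := by
    rw [Complex.div_natCast_im]
    exact div_pos τ.im_pos (by exact_mod_cast Nat.pos_of_ne_zero prime_ne_zero')
  refine ⟨⟨(τ : ℂ) / p, hpos⟩, rfl, ?_⟩
  have h := congrFun (wConjFun_eq G) ⟨(τ : ℂ) / p, hpos⟩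
  have hp : (p : ℂ) ≠ 0 := by exact_mod_cast prime_ne_zero' (p := p)
  have e : ModularForm.heckeDiagMatrix p • (⟨(τ : ℂ) / p, hpos⟩ : ℍ) = τ := by
    ext
    rw [ModularForm.coe_heckeDiagMatrix_smul prime_ne_zero']
    exact mul_div_cancel₀ _ hp
  rw [wConjFun, ModularForm.slash_heckeDiagMatrix_apply 2 prime_ne_zero', e] at h
  simp only [Pi.neg_apply, Pi.smul_apply, smul_eq_mul] at h ⊢
  rw [show (2 : ℤ) - 1 = 1 by norm_num, zpow_one] at h
  field_simp
  linear_combination h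

lemma hasQExp_familyOf_some (j : ZMod p) :
    HasQExp p (familyOf G (some j))
      (PowerSeries.rescale (Complex.exp (2 * π * Complex.I * j.val / p))
        (-(p : ℂ)⁻¹ • serU' p G)) := by
  have h := (hasQExp_slash_S G).vadd j.val prime_ne_zero'
  convert! h using 1
  rw [familyOf, cosetRep, SlashAction.slash_mul, slash_T_zpow]
  norm_num

lemma hasQExp_familyOf_none :
    HasQExp p (familyOf G none) (PowerSeries.expand p prime_ne_zero' (serOf G)) := by
  rw [familyOf_none]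
  simpa using (hasQExp_serOf G).expand p prime_ne_zero' one_ne_zero

/-- Summing all translates only keeps the multiples of `p`. -/
lemma sum_rescale (P : PowerSeries ℂ) (m : ℕ) :
    PowerSeries.coeff m (∑ j : ZMod p,
        PowerSeries.rescale (Complex.exp (2 * π * Complex.I * j.val / p)) P)
      = if p ∣ m then p * PowerSeries.coeff m P else 0 := by
  rw [map_sum]
  simp only [PowerSeries.coeff_rescale]
  rw [← Finset.sum_mul,
    sum_zmod_val fun j ↦ Complex.exp (2 * π * Complex.I * j / p) ^ m]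
  have hp : (p : ℂ) ≠ 0 := by exact_mod_cast prime_ne_zero' (p := p)
  have hζ := Complex.isPrimitiveRoot_exp p prime_ne_zero'
  have e : ∀ j : ℕ, Complex.exp (2 * π * Complex.I * j / p) ^ m
      = (Complex.exp (2 * π * Complex.I / p) ^ m) ^ j := fun j ↦ by
    rw [← exp_nat_mul, ← exp_nat_mul, ← exp_nat_mul]
    congr 1
    ring
  simp only [e]
  split_ifs with h
  · rw [(hζ.pow_eq_one_iff_dvd m).mpr h]
    simp
  · rw [geom_sum_eq (mt (hζ.pow_eq_one_iff_dvd m).mp h), ← pow_mul, mul_comm m p, pow_mul,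
      hζ.pow_eq_one, one_pow, sub_self, zero_div, zero_mul]

lemma qCoeff_mul_p_mul_p (n : ℕ) : qCoeff G (n * p * p) = qCoeff G n := by
  have h : HasQExp p (∑ i, familyOf G i)
      (PowerSeries.expand p prime_ne_zero' (serOf G) + ∑ j : ZMod p,
        PowerSeries.rescale (Complex.exp (2 * π * Complex.I * j.val / p))
          (-(p : ℂ)⁻¹ • serU' p G)) := by
    rw [Fintype.sum_option]
    exact (hasQExp_familyOf_none G).add (HasQExp.sum _ fun j _ ↦ hasQExp_familyOf_some G j)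
  rw [sum_familyOf] at h
  have h0 := congrArg (PowerSeries.coeff (p * n)) (h.eq_zero (Nat.pos_of_ne_zero prime_ne_zero'))
  rw [map_add, sum_rescale, PowerSeries.coeff_expand_mul, if_pos (dvd_mul_right p n), map_smul,
    map_zero] at h0
  have hp : (p : ℂ) ≠ 0 := by exact_mod_cast prime_ne_zero' (p := p)
  simp only [serOf, serU', PowerSeries.coeff_mk, smul_eq_mul] at h0
  rw [show p * n * p = n * p * p by ring] at h0
  field_simp at h0
  linear_combination -h0

/-- A weight two form on `Γ₀(p)` with vanishing constant term is a cusp form. -/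
lemma isZeroAt_of_qCoeff_zero (h0 : qCoeff G 0 = 0) (γ : SL(2, ℤ)) :
    IsZeroAtImInfty (⇑G ∣[(2 : ℤ)] γ) := by
  have key : ⇑G ∣[(2 : ℤ)] γ = familyOf G (cosetPoint (p := p) γ) :=
    apply_cosetPoint (p := p) (fun g ↦ ⇑G ∣[(2 : ℤ)] g)
      (fun h hh g ↦ by simp only [SlashAction.slash_mul, slash_eq_of_mem G hh]) γ
  rw [key]
  rcases cosetPoint (p := p) γ with _ | j
  · refine (hasQExp_familyOf_none G).zero_at (Nat.pos_of_ne_zero prime_ne_zero') ?_
    rw [PowerSeries.constantCoeff_expand, ← PowerSeries.coeff_zero_eq_constantCoeff_apply, serOf,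
      PowerSeries.coeff_mk, h0]
  · refine (hasQExp_familyOf_some G j).zero_at (Nat.pos_of_ne_zero prime_ne_zero') ?_
    rw [← PowerSeries.coeff_zero_eq_constantCoeff_apply, PowerSeries.coeff_rescale, map_smul,
      serU', PowerSeries.coeff_mk, zero_mul, h0, smul_zero, mul_zero]

/-- A weight two form with vanishing constant term, as a cusp form. -/
def cuspFormOf (h0 : qCoeff G 0 = 0) : CuspForm (Gamma0 p) 2 where
  toFun := ⇑G
  slash_action_eq' := G.slash_action_eq'
  holo' := G.holo'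
  zero_at_cusps' {c} hc := by
    rw [Subgroup.IsArithmetic.isCusp_iff_isCusp_SL2Z] at hc
    rw [OnePoint.isZeroAt_iff_forall_SL2Z hc]
    intro γ _
    exact isZeroAt_of_qCoeff_zero G h0 γ

@[simp] lemma coe_cuspFormOf (h0 : qCoeff G 0 = 0) : ⇑(cuspFormOf G h0) = ⇑G := rfl

/-- The weight four trace identity: the trace of a product of two weight two forms is a multiple
of `E₄`; compare the first two coefficients. -/
lemma trace_mul_identity :
    (qCoeff G 0 * qCoeff H 1 + qCoeff G 1 * qCoeff H 0)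
      + (p : ℂ)⁻¹ * ∑ ij ∈ Finset.HasAntidiagonal.antidiagonal p,
        qCoeff G (ij.1 * p) * qCoeff H (ij.2 * p)
      = 240 * (qCoeff G 0 * qCoeff H 0 * (1 + (p : ℂ)⁻¹)) := by
  set F : ℍ → ℂ := ∑ i, familyOf G i * familyOf H i with hF
  have hinv : ∀ γ : SL(2, ℤ), F ∣[(4 : ℤ)] γ = F := by
    intro γ
    rw [hF, SlashAction.sum_slash]
    simp only [show (4 : ℤ) = 2 + 2 by norm_num, ModularForm.mul_slash_SL2, familyOf_slash]
    exact Equiv.sum_comp (cosetPerm γ) fun i ↦ familyOf G i * familyOf H i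
  have hhol : MDiff F := MDifferentiable.sum fun i _ ↦ (mdiff_familyOf G i).mul (mdiff_familyOf H i)
  set b : PowerSeries ℂ := (-(p : ℂ)⁻¹ • serU' p G) * (-(p : ℂ)⁻¹ • serU' p H) with hb
  have hp' : p ≠ 0 := prime_ne_zero'
  have hexp : HasQExp p F (PowerSeries.expand p hp' (serOf G * serOf H) + ∑ j : ZMod p,
      PowerSeries.rescale (Complex.exp (2 * π * Complex.I * j.val / p)) b) := by
    rw [hF, Fintype.sum_option, map_mul]
    refine ((hasQExp_familyOf_none G).mul (hasQExp_familyOf_none H)).add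
      (HasQExp.sum _ fun j _ ↦ ?_)
    rw [hb, map_mul]
    exact (hasQExp_familyOf_some G j).mul (hasQExp_familyOf_some H j)
  have hper : ∀ τ : ℍ, F ((1 : ℝ) +ᵥ τ) = F τ := fun τ ↦ by
    have := congrFun (hinv (T ^ (1 : ℤ))) τ
    rw [slash_T_zpow] at this
    simpa using this
  obtain ⟨R, hR⟩ := exists_hasQExp one_pos (f := F) (by exact_mod_cast hper) hhol
    (hexp.bounded (Nat.pos_of_ne_zero hp'))
  have hRE : PowerSeries.expand p hp' R = _ :=
    ((one_mul p ▸ hR.expand p hp' one_ne_zero)).unique (Nat.pos_of_ne_zero hp') hexp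
  have hcoef : ∀ n, PowerSeries.coeff n R = PowerSeries.coeff n (serOf G * serOf H)
      + p * PowerSeries.coeff (p * n) b := fun n ↦ by
    have := congrArg (PowerSeries.coeff (p * n)) hRE
    rwa [map_add, PowerSeries.coeff_expand_mul, PowerSeries.coeff_expand_mul, sum_rescale,
      if_pos (dvd_mul_right p n)] at this
  have h4 := levelOne_weight_four_coeff hinv hhol hR
  rw [hcoef, hcoef] at h4
  have hp : (p : ℂ) ≠ 0 := by exact_mod_cast hp'
  simp only [hb, mul_one, mul_zero, _root_.neg_smul, smul_mul_assoc, mul_smul_comm, neg_mul_neg,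
    map_smul, smul_eq_mul, serOf, serU', PowerSeries.coeff_mul, PowerSeries.coeff_mk,
    Finset.Nat.antidiagonal_zero, Finset.sum_singleton, zero_mul,
    Finset.Nat.antidiagonal_succ, Finset.sum_cons, Finset.sum_map] at h4
  field_simp at h4 ⊢
  simp only [Function.Embedding.coe_prodMap, Function.Embedding.coeFn_mk, Prod.map,
    Nat.succ_eq_add_one, zero_add, Function.Embedding.refl_apply] at h4
  linear_combination h4

end FLTAgent.Eisenstein

end
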